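/-
Programme T (S56, Taylor–Wiles primes), chapter T/GRP, file G1 (helper3): **raw 1-cocycles**.
Mathlib only.

`a : Representation k G W` (`= G →* Module.End k W`), `f : G → W`.
* `IsCoc a f`  : `∀ g h, f (g * h) = f g + a g (f h)`;
* `IsCob a f`  : `∃ w, ∀ g, f g = a g w - w`.
Results:
* `IsCob.isCoc`, `IsCoc.map_one`, `IsCoc.map_inv`, `IsCoc.add/sub/neg/smul`, `isCoc_zero`,
  `IsCoc.map_pow_of_mem_range` (on a cyclic group a cocycle with `f g ∈ range (a g - 1)` has
  `f (g ^ n) ∈ range (a (g ^ n) - 1)` with the same primitive);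
* `IsCoc.map_conj` : `f (g * τ * g⁻¹) = a g (f τ)` when `a τ = 1`... (precise statement below);
* **Sah's lemma** `isCob_of_central` : a central `z` with `a z - 1` bijective kills `H¹`;
* `isCob_of_isUnit_card` : `#G` invertible in `k` ⇒ every cocycle is a coboundary;
* `isCob_of_restrict` : `H ≤ G` of finite index invertible in `k`; a cocycle whose restriction to `H`
  is a coboundary is a coboundary;
* `IsCoc.map_central_fixed` : for `c` with `a c = 1` and `f (g * c) = f (c * g)` for all `g`
  (e.g. `c` central), `f c` is fixed by all of `G`.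
-/
import Mathlib

set_option autoImplicit false

namespace Fermat.Agent.TW.GRP.Coc3

variable {k G W : Type*} [CommRing k] [Group G] [AddCommGroup W] [Module k W]

/-- Raw 1-cocycles of `G` with values in the representation `a`. -/
def IsCoc (a : Representation k G W) (f : G → W) : Prop :=
  ∀ g h : G, f (g * h) = f g + a g (f h)

/-- Raw 1-coboundaries. -/
def IsCob (a : Representation k G W) (f : G → W) : Prop :=
  ∃ w : W, ∀ g : G, f g = a g w - w

variable {a : Representation k G W} {f f' : G → W}

theorem IsCob.isCoc (hf : IsCob a f) : IsCoc a f := by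
  obtain ⟨w, hw⟩ := hf
  intro g h
  rw [hw, hw, hw, map_mul, Module.End.mul_apply, map_sub]
  abel

theorem isCoc_zero : IsCoc a (0 : G → W) := by
  intro g h
  simp

theorem isCob_zero : IsCob a (0 : G → W) := ⟨0, fun g => by simp⟩

theorem IsCoc.add (hf : IsCoc a f) (hf' : IsCoc a f') : IsCoc a (f + f') := by
  intro g h
  simp only [Pi.add_apply, hf g h, hf' g h, map_add]
  abel

theorem IsCoc.neg (hf : IsCoc a f) : IsCoc a (-f) := by
  intro g h
  simp only [Pi.neg_apply, hf g h, map_neg]
  abel

theorem IsCoc.sub (hf : IsCoc a f) (hf' : IsCoc a f') : IsCoc a (f - f') := by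
  rw [sub_eq_add_neg]
  exact hf.add hf'.neg

theorem IsCoc.smul (c : k) (hf : IsCoc a f) : IsCoc a (c • f) := by
  intro g h
  simp only [Pi.smul_apply, hf g h, smul_add, map_smul]

theorem IsCob.add (hf : IsCob a f) (hf' : IsCob a f') : IsCob a (f + f') := by
  obtain ⟨w, hw⟩ := hf
  obtain ⟨w', hw'⟩ := hf'
  refine ⟨w + w', fun g => ?_⟩
  simp only [Pi.add_apply, hw g, hw' g, map_add]
  abel

theorem IsCob.neg (hf : IsCob a f) : IsCob a (-f) := by
  obtain ⟨w, hw⟩ := hf
  refine ⟨-w, fun g => ?_⟩
  simp only [Pi.neg_apply, hw g, map_neg]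
  abel

theorem IsCob.sub (hf : IsCob a f) (hf' : IsCob a f') : IsCob a (f - f') := by
  rw [sub_eq_add_neg]
  exact hf.add hf'.neg

theorem IsCob.smul (c : k) (hf : IsCob a f) : IsCob a (c • f) := by
  obtain ⟨w, hw⟩ := hf
  refine ⟨c • w, fun g => ?_⟩
  simp only [Pi.smul_apply, hw g, smul_sub, map_smul]

theorem IsCoc.map_one (hf : IsCoc a f) : f 1 = 0 := by
  have h := hf 1 1
  rw [mul_one, _root_.map_one, Module.End.one_apply] at h
  exact left_eq_add.mp h

theorem IsCoc.map_inv (hf : IsCoc a f) (g : G) : f g⁻¹ = -a g⁻¹ (f g) := by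
  have h := hf g⁻¹ g
  rw [inv_mul_cancel, hf.map_one] at h
  exact eq_neg_of_add_eq_zero_left h.symm

/-- `a g⁻¹` is a two-sided inverse of `a g`. -/
theorem apply_inv_apply (a : Representation k G W) (g : G) (w : W) : a g⁻¹ (a g w) = w := by
  rw [← Module.End.mul_apply, ← map_mul, inv_mul_cancel, map_one, Module.End.one_apply]

theorem apply_apply_inv (a : Representation k G W) (g : G) (w : W) : a g (a g⁻¹ w) = w := by
  rw [← Module.End.mul_apply, ← map_mul, mul_inv_cancel, map_one, Module.End.one_apply]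

/-- If `f g` is the coboundary value `a g w - w`, the same holds for all powers of `g`. -/
theorem IsCoc.map_pow_eq (hf : IsCoc a f) {g : G} {w : W} (hw : f g = a g w - w) (n : ℕ) :
    f (g ^ n) = a (g ^ n) w - w := by
  induction n with
  | zero => simp [hf.map_one]
  | succ n ih =>
    rw [pow_succ, hf, ih, hw, map_sub, map_mul, Module.End.mul_apply]
    abel

/-- A cocycle vanishing on `τ` with `a τ = 1`: conjugation formula. -/
theorem IsCoc.map_conj (hf : IsCoc a f) (g τ : G) (hτ : a τ = 1) :
    f (g * τ * g⁻¹) = a g (f τ) := by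
  rw [hf, hf, map_mul, Module.End.mul_apply, hτ, Module.End.one_apply, hf.map_inv,
    map_neg, apply_apply_inv]
  abel

/-- If `f` vanishes at `n` and `a n = 1`, then `f (g * n) = f g` and `f (n * g) = f g`. -/
theorem IsCoc.map_mul_right_of_eq_zero (hf : IsCoc a f) (g : G) {n : G} (hn : f n = 0) :
    f (g * n) = f g := by
  rw [hf, hn, map_zero, add_zero]

theorem IsCoc.map_mul_left_of_eq_zero (hf : IsCoc a f) (g : G) {n : G} (hn : f n = 0)
    (han : a n = 1) : f (n * g) = f g := by
  rw [hf, hn, han, Module.End.one_apply, zero_add]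

/-- **Sah's lemma**: a central element `z` such that `a z - 1` is bijective kills `H¹`. -/
theorem isCob_of_central (hf : IsCoc a f) (z : G) (hz : ∀ g : G, z * g = g * z)
    (hbij : Function.Bijective (a z - 1 : Module.End k W)) : IsCob a f := by
  obtain ⟨w, hw⟩ := hbij.2 (f z)
  refine ⟨w, fun g => ?_⟩
  -- `(a z - 1) (f g) = (a g - 1) (f z)`
  have h1 : f (z * g) = f z + a z (f g) := hf z g
  have h2 : f (g * z) = f g + a g (f z) := hf g z
  rw [hz g] at h1
  have h3 : (a z - 1 : Module.End k W) (f g) = a g (f z) - f z := by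
    rw [LinearMap.sub_apply, Module.End.one_apply]
    have := h1.symm.trans h2
    -- f z + a z (f g) = f g + a g (f z)
    rw [sub_eq_sub_iff_add_eq_add]
    rw [add_comm (a z (f g)), add_comm (a g (f z))]
    exact this
  -- `a g` commutes with `a z`
  have hcomm : a z (a g w) = a g (a z w) := by
    rw [← Module.End.mul_apply, ← Module.End.mul_apply, ← map_mul, ← map_mul, hz g]
  have h4 : (a z - 1 : Module.End k W) (a g w - w) = a g (f z) - f z := by
    rw [← hw]
    simp only [LinearMap.sub_apply, Module.End.one_apply, map_sub, hcomm]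
  exact hbij.1 (h3.trans h4.symm)

/-- If the order of the finite group `G` is invertible in `k`, every cocycle is a coboundary. -/
theorem isCob_of_isUnit_card [Fintype G] (hf : IsCoc a f) (hu : IsUnit (Fintype.card G : k)) :
    IsCob a f := by
  classical
  obtain ⟨u, hu⟩ := hu
  -- `w = -(1/#G) ∑ f g`
  refine ⟨-((↑u⁻¹ : k) • ∑ x : G, f x), fun g => ?_⟩
  have hsum : ∑ x : G, a g (f x) = ∑ x : G, f x - (Fintype.card G : k) • f g := by
    have h1 : ∀ x : G, a g (f x) = f (g * x) - f g := fun x => by rw [hf g x]; abel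
    rw [Finset.sum_congr rfl fun x _ => h1 x, Finset.sum_sub_distrib,
      Fintype.sum_bijective (fun x => g * x) (Group.mulLeft_bijective g) (fun x => f (g * x)) f
        (fun _ => rfl)]
    congr 1
    rw [Finset.sum_const, Finset.card_univ, Nat.cast_smul_eq_nsmul]
  rw [map_neg, map_smul, map_sum, hsum, smul_sub, ← hu, smul_smul, Units.inv_mul, one_smul]
  abel

/-- Restriction to a subgroup of invertible finite index is injective on `H¹`. -/
theorem isCob_of_restrict (H : Subgroup G) [H.FiniteIndex] (hu : IsUnit (H.index : k))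
    (hf : IsCoc a f) (hH : ∃ w : W, ∀ h ∈ H, f h = a h w - w) : IsCob a f := by
  classical
  obtain ⟨w₀, hw₀⟩ := hH
  -- replace `f` by `f₁ = f - ∂ w₀`, which vanishes on `H`
  set f₁ : G → W := fun g => f g - (a g w₀ - w₀) with hf₁def
  have hf₁ : IsCoc a f₁ := hf.sub (IsCob.isCoc ⟨w₀, fun g => rfl⟩)
  have hf₁H : ∀ h ∈ H, f₁ h = 0 := fun h hh => by rw [hf₁def]; simp only; rw [hw₀ h hh, sub_self]
  suffices h : IsCob a f₁ by
    have h2 : IsCob a (fun g => a g w₀ - w₀) := ⟨w₀, fun g => rfl⟩
    have := h.add h2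
    convert this using 1
    funext g
    simp [hf₁def]
  -- `f₁` is constant on left cosets `g H`
  have hconst : ∀ (g : G) (h : G), h ∈ H → f₁ (g * h) = f₁ g := fun g h hh =>
    hf₁.map_mul_right_of_eq_zero g (hf₁H h hh)
  -- descend to `G ⧸ H`
  let F : G ⧸ H → W := Quotient.lift f₁ (by
    intro x y hxy
    have hxy' : x⁻¹ * y ∈ H := QuotientGroup.leftRel_apply.mp hxy
    have := hconst x (x⁻¹ * y) hxy'
    rw [mul_inv_cancel_left] at this
    exact this.symm)
  have hF : ∀ g : G, F (QuotientGroup.mk g) = f₁ g := fun g => rfl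
  let _ : Fintype (G ⧸ H) := Subgroup.fintypeQuotientOfFiniteIndex
  obtain ⟨u, hu⟩ := hu
  refine ⟨-((↑u⁻¹ : k) • ∑ x : G ⧸ H, F x), fun g => ?_⟩
  have hcard : (Fintype.card (G ⧸ H) : k) = (H.index : k) := by
    rw [Subgroup.index_eq_card, Nat.card_eq_fintype_card]
  have hsum : ∑ x : G ⧸ H, a g (F x) = ∑ x : G ⧸ H, F x - (H.index : k) • f₁ g := by
    have h1 : ∀ x : G ⧸ H, a g (F x) = F (g • x) - f₁ g := by
      intro x
      induction x using QuotientGroup.induction_on with
      | H y =>
        rw [hF]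
        have : g • (QuotientGroup.mk y : G ⧸ H) = QuotientGroup.mk (g * y) := rfl
        rw [this, hF, hf₁ g y]
        abel
    rw [Finset.sum_congr rfl fun x _ => h1 x, Finset.sum_sub_distrib,
      Fintype.sum_bijective (fun x : G ⧸ H => g • x) (MulAction.bijective g)
        (fun x => F (g • x)) F (fun _ => rfl)]
    congr 1
    rw [Finset.sum_const, Finset.card_univ, ← hcard, Nat.cast_smul_eq_nsmul]
  rw [map_neg, map_smul, map_sum, hsum, smul_sub, ← hu, smul_smul, Units.inv_mul, one_smul]
  abel

/-- For `c` acting trivially and commuting with `g` up to an element on which `f` vanishes and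
which acts trivially, `f c` is fixed by `g`.  Precisely: `g * c = κ * (c * g)` with `f κ = 0`,
`a κ = 1`, `a c = 1` ⇒ `a g (f c) = f c`. -/
theorem IsCoc.map_fixed_of_comm (hf : IsCoc a f) {g c κ : G} (hκ : g * c = κ * (c * g))
    (hfκ : f κ = 0) (haκ : a κ = 1) (hac : a c = 1) : a g (f c) = f c := by
  have h1 : f (g * c) = f g + a g (f c) := hf g c
  have h2 : f (κ * (c * g)) = f c + f g := by
    rw [hf.map_mul_left_of_eq_zero _ hfκ haκ, hf c g, hac, Module.End.one_apply]
  rw [hκ, h2] at h1
  have : f c + f g = f g + a g (f c) := h1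
  rw [add_comm (f c)] at this
  exact (add_left_cancel this).symm

end Fermat.Agent.TW.GRP.Coc3
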