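/-
Programme T (S56, Taylor–Wiles primes), chapter T/GRP, file G7b (helper3): **independence of the place
and of the Frobenius element** over a given prime.  Mathlib + `Lib/FrobeniusExists`,
`ES/FROB/FrobFacts12`, `ES/J/CycloChar8`, `PT/BR/UnramBridge13`, `Coc3`.

* `primeZ V` (the prime of `ℤ̄` below `V`), `primeZ_under`, `map_mem_of_units`;
* `exists_smul_eq` : `G_ℚ` acts transitively on the valuation subrings of `ℚ̄` over `q`;
* `isFrobeniusAt_iff` (element-wise characterisation), `conj_isFrobeniusAt_smul`;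
* `exists_conj_frobenius` : two Frobenius elements `φ`, `φ'` over `q` satisfy
  `φ' = ι * (g * φ * g⁻¹)` with `ι` in the inertia group of the place of `φ'`;
* `mem_range_conj_iff`, `mem_range_mul_left_iff` : the condition `f φ ∈ range (a φ - 1)` on a
  cocycle is invariant under conjugation and under translation by elements acting trivially on
  which `f` vanishes.
-/
import Mathlib
import Fermat.Agent.Lib.FrobeniusExists
import Fermat.Agent.ES.FROB.FrobFacts12
import Fermat.Agent.ES.J.CycloChar8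
import Fermat.Agent.PT.BR.UnramBridge13
import Fermat.Agent.TW.GRP.Coc3

set_option autoImplicit false

open scoped Pointwise

namespace Fermat.Agent.TW.GRP.PlaceConj3

open Fermat.Agent.Lib.FrobeniusExists

attribute [local instance] isGalois_Qbar isIntegral_Qbar instTopZbar

local instance : DiscreteTopology Zbar := ⟨rfl⟩

attribute [local instance] continuousSMul_Zbar isInvariant_Zbar

/-- The prime of `ℤ̄` below a valuation subring of `ℚ̄`. -/
noncomputable def primeZ (V : ValuationSubring Qbar) : Ideal Zbar :=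
  Ideal.comap ((algebraMap Zbar Qbar).codRestrict V.toSubring
    fun b => mem_valuationSubring_of_isIntegral V b.2) (IsLocalRing.maximalIdeal V)

theorem mem_primeZ (V : ValuationSubring Qbar) (b : Zbar) :
    b ∈ primeZ V ↔ (b : Qbar) ∈ V.nonunits := by
  rw [primeZ, Ideal.mem_comap, ← ValuationSubring.coe_mem_nonunits_iff]
  rfl

instance primeZ_isPrime (V : ValuationSubring Qbar) : (primeZ V).IsPrime :=
  Ideal.comap_isPrime _ _

theorem primeZ_under {q : ℕ} (hq : q.Prime) {V : ValuationSubring Qbar} (hV : V.LiesOverPrime q) :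
    (primeZ V).under ℤ = Ideal.span {(q : ℤ)} := by
  have hPmax : (Ideal.span {(q : ℤ)}).IsMaximal := by
    have : Fact q.Prime := ⟨hq⟩
    exact Int.ideal_span_isMaximal_of_prime q
  symm
  refine hPmax.eq_of_le (Ideal.IsPrime.under ℤ (primeZ V)).ne_top ?_
  rw [Ideal.span_le]
  intro z hz
  rw [Set.mem_singleton_iff] at hz
  subst hz
  change algebraMap ℤ Zbar (q : ℤ) ∈ primeZ V
  rw [mem_primeZ]
  have hV' : (q : Qbar) ∈ V.nonunits := hV
  simpa using hV'

/-- An automorphism mapping the units among the algebraic integers of `V` to units of `V'` maps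
`V` into `V'`. -/
theorem map_mem_of_units {q : ℕ} (hq : q.Prime) {V V' : ValuationSubring Qbar}
    (hV : V.LiesOverPrime q) (g : GQ)
    (h : ∀ b : Qbar, IsIntegral ℤ b → b ∉ V.nonunits → g b ∉ V'.nonunits)
    {x : Qbar} (hx : x ∈ V) : g x ∈ V' := by
  obtain ⟨b, c, hb, hc, hbV, hxb⟩ := exists_num_den V q hq hV hx
  have hgb : g b ∈ V' := mem_valuationSubring_of_isIntegral V' (map_isIntegral_int g hb)
  have hgc : g c ∈ V' := mem_valuationSubring_of_isIntegral V' (map_isIntegral_int g hc)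
  have hgbu : g b ∉ V'.nonunits := h b hb hbV
  have hv1 : V'.valuation (g b) = 1 :=
    le_antisymm ((V'.valuation_le_one_iff _).mpr hgb) (not_lt.mp hgbu)
  have hgb0 : g b ≠ 0 := by
    intro h0
    rw [h0, map_zero] at hv1
    exact zero_ne_one hv1
  have hinv : (g b)⁻¹ ∈ V' := by
    rw [← V'.valuation_le_one_iff, map_inv₀, hv1, inv_one]
  have hx' : g x = g c * (g b)⁻¹ := by
    rw [← hxb, map_mul]
    field_simp
  rw [hx']
  exact mul_mem hgc hinv

/-- **`G_ℚ` acts transitively on the places of `ℚ̄` over a prime `q`.** -/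
theorem exists_smul_eq {q : ℕ} (hq : q.Prime) {V V' : ValuationSubring Qbar}
    (hV : V.LiesOverPrime q) (hV' : V'.LiesOverPrime q) : ∃ g : GQ, V' = g • V := by
  obtain ⟨g, hg⟩ := Algebra.IsInvariant.exists_smul_of_under_eq_of_profinite (A := ℤ) (B := Zbar)
    (G := GQ) (primeZ V) (primeZ V') (by rw [primeZ_under hq hV, primeZ_under hq hV'])
  refine ⟨g, ?_⟩
  apply SetLike.ext
  intro x
  rw [ValuationSubring.mem_pointwise_smul_iff_inv_smul_mem]
  constructor
  · intro hx
    refine map_mem_of_units hq hV' g⁻¹ (fun b hb hbu hcon => hbu ?_) hx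
    -- `g⁻¹ b ∈ 𝔪_V` ⇒ `b ∈ 𝔪_V'`
    have h1 : (g⁻¹ • (⟨b, hb⟩ : Zbar)) ∈ primeZ V := (mem_primeZ V _).mpr hcon
    have h2 : g • (g⁻¹ • (⟨b, hb⟩ : Zbar)) ∈ g • primeZ V :=
      Ideal.smul_mem_pointwise_smul_iff.mpr h1
    rw [smul_inv_smul, ← hg] at h2
    exact (mem_primeZ V' _).mp h2
  · intro hx
    have : g (g⁻¹ • x) ∈ V' := map_mem_of_units hq hV g (fun b hb hbu hcon => hbu ?_) hx
    · simpa using this
    -- `g b ∈ 𝔪_V'` ⇒ `b ∈ 𝔪_V`
    have h1 : (g • (⟨b, hb⟩ : Zbar)) ∈ primeZ V' := (mem_primeZ V' _).mpr hcon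
    rw [hg] at h1
    exact (mem_primeZ V _).mp (Ideal.smul_mem_pointwise_smul_iff.mp h1)


/-- Element-wise characterisation of Frobenius elements. -/
theorem isFrobeniusAt_iff {A : ValuationSubring Qbar} {σ : GQ} {ℓ : ℕ} :
    A.IsFrobeniusAt σ ℓ ↔
      σ ∈ A.decompositionSubgroup ℚ ∧ ∀ x ∈ A, σ x - x ^ ℓ ∈ A.nonunits := by
  constructor
  · intro h
    exact ⟨h.mem_decompositionSubgroup, fun x hx =>
      Fermat.Agent.ES.J.CycloChar8.frob_apply_sub_pow_mem_nonunits h hx⟩
  · rintro ⟨h, hx⟩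
    refine ⟨h, fun xbar => ?_⟩
    obtain ⟨x, rfl⟩ := IsLocalRing.residue_surjective xbar
    rw [← IsLocalRing.ResidueField.residue_smul, ← map_pow, ← sub_eq_zero, ← map_sub,
      IsLocalRing.residue_eq_zero_iff, ← ValuationSubring.coe_mem_nonunits_iff]
    exact hx x x.2

/-- Transport of a Frobenius element to a conjugate place. -/
theorem conj_isFrobeniusAt_smul {A : ValuationSubring Qbar} {σ : GQ} {ℓ : ℕ}
    (hσ : A.IsFrobeniusAt σ ℓ) (g : GQ) : (g • A).IsFrobeniusAt (g * σ * g⁻¹) ℓ := by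
  rw [isFrobeniusAt_iff] at hσ ⊢
  obtain ⟨hdec, hx⟩ := hσ
  refine ⟨?_, fun x hxA => ?_⟩
  · rw [ValuationSubring.decompositionSubgroup, MulAction.mem_stabilizer_iff] at hdec ⊢
    rw [← mul_smul, inv_mul_cancel_right, mul_smul, hdec]
  · rw [ValuationSubring.mem_pointwise_smul_iff_inv_smul_mem] at hxA
    rw [Fermat.Agent.PT.BR.UnramBridge13.mem_smul_nonunits_iff]
    have h1 := hx (g⁻¹ x) hxA
    have h3 : g⁻¹ ((g * σ * g⁻¹) x - x ^ ℓ) = σ (g⁻¹ x) - (g⁻¹ x) ^ ℓ := by
      rw [map_sub, map_pow, AlgEquiv.mul_apply, AlgEquiv.mul_apply, ← AlgEquiv.mul_apply g⁻¹ g,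
        inv_mul_cancel, AlgEquiv.one_apply]
    rw [h3]
    exact h1

/-- **Two Frobenius elements over the same prime are conjugate up to inertia.** -/
theorem exists_conj_frobenius {q : ℕ} (hq : q.Prime) {V V' : ValuationSubring Qbar}
    (hV : V.LiesOverPrime q) (hV' : V'.LiesOverPrime q) {φ φ' : GQ}
    (hφ : V.IsFrobeniusAt φ q) (hφ' : V'.IsFrobeniusAt φ' q) :
    ∃ g ι : GQ, ι ∈ V'.inertiaSubgroupIn ℚ ∧ φ' = ι * (g * φ * g⁻¹) := by
  obtain ⟨g, rfl⟩ := exists_smul_eq hq hV hV'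
  have h1 := conj_isFrobeniusAt_smul hφ g
  refine ⟨g, φ' * (g * φ * g⁻¹)⁻¹,
    Fermat.Agent.ES.FROB.FrobFacts12.mul_inv_mem_inertiaSubgroupIn _ h1 hφ', by group⟩


/-! ### the unramified condition `f φ ∈ (φ - 1) W` is independent of the Frobenius element -/

section Cocycle

open Fermat.Agent.TW.GRP.Coc3

variable {k Γ W : Type*} [Field k] [Group Γ] [AddCommGroup W] [Module k W]
  {a : Representation k Γ W} {f : Γ → W}

theorem mem_range_conj (hf : IsCoc a f) (g φ : Γ) (h : f φ ∈ LinearMap.range (a φ - 1)) :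
    f (g * φ * g⁻¹) ∈ LinearMap.range (a (g * φ * g⁻¹) - 1) := by
  obtain ⟨w, hw⟩ := h
  have hw' : f φ = a φ w - w := by
    rw [← hw, LinearMap.sub_apply, Module.End.one_apply]
  refine ⟨a g w - f g, ?_⟩
  rw [LinearMap.sub_apply, Module.End.one_apply, hf (g * φ) g⁻¹, hf g φ, hf.map_inv, hw']
  simp only [map_mul, Module.End.mul_apply, map_sub, map_neg, apply_inv_apply]
  abel

theorem mem_range_conj_iff (hf : IsCoc a f) (g φ : Γ) :
    f (g * φ * g⁻¹) ∈ LinearMap.range (a (g * φ * g⁻¹) - 1) ↔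
      f φ ∈ LinearMap.range (a φ - 1) := by
  refine ⟨fun h => ?_, mem_range_conj hf g φ⟩
  have e : g⁻¹ * (g * φ * g⁻¹) * g⁻¹⁻¹ = φ := by group
  have := mem_range_conj hf g⁻¹ (g * φ * g⁻¹) h
  rwa [e] at this

theorem mem_range_mul_left_iff (hf : IsCoc a f) {ι : Γ} (hι : f ι = 0) (haι : a ι = 1) (x : Γ) :
    f (ι * x) ∈ LinearMap.range (a (ι * x) - 1) ↔ f x ∈ LinearMap.range (a x - 1) := by
  rw [hf.map_mul_left_of_eq_zero x hι haι, map_mul, haι, one_mul]

end Cocycle

end Fermat.Agent.TW.GRP.PlaceConj3
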