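/-
Programme T (S56, Taylor–Wiles primes), chapter T/GRP, file G6a (helper3): **the bridge** from the
S56 data `ρbar : ResidualGaloisRep k` (+ `habs`, `hTW`, `hsplit`) to the matrix normal form of the
chapter.  Mathlib + Prelude (`Def_GaloisRep_Residual`) + `TWHyp3`.

* `detU ρ : G →* kˣ` : the determinant character of `ρ : G →* M2 k`;
* `basis ρbar`, `rhoM ρbar : G_ℚ →* M2 k` : the matrix form in a chosen basis;
  `charpoly_rhoM`, `det_rhoM`, `rhoM_eq_one_iff`, `rhoM_finiteLevel`, `rhoM_inertia`;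
* `trace_det_of_charpoly`, `disc2_rhoM` : `charpoly = (X - α)(X - β)` ⇒ `disc2 = (α - β)²`;
  `exists_roots_ne` : `disc2 (rhoM σ) ≠ 0` ⇒ the S56 conclusion `∃ α ≠ β, charpoly = …`;
* `isScalar_of_commute` (Schur over an algebraically closed field), `isScalar_of_map`,
  `stable_eq_bot_or_top` (stable subspaces of `K ⊗ V` versus `K²`), `isScalar_of_commute_on`;
* `twHyp` : `habs` + `hTW` ⇒ `TWHyp (rhoM ρbar)`.
-/
import Mathlib
import Fermat.Prelude.Def_GaloisRep_Residual
import Fermat.Agent.TW.GRP.TWHyp3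

set_option autoImplicit false

namespace Fermat.Agent.TW.GRP.Bridge3

open Matrix Polynomial Fermat.Agent.TW.GRP.Mat2x3 Fermat.Agent.TW.GRP.TWHyp3
open scoped TensorProduct

local notation "GQ" => (AlgebraicClosure ℚ ≃ₐ[ℚ] AlgebraicClosure ℚ)

variable {k : Type} [Field k] (ρbar : ResidualGaloisRep k)

/-- The determinant character of a matrix representation. -/
noncomputable def detU {k : Type*} [Field k] {G : Type*} [Group G] (ρ : G →* M2 k) : G →* kˣ :=
  (Matrix.detMonoidHom.comp ρ).toHomUnits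

theorem coe_detU {k : Type*} [Field k] {G : Type*} [Group G] (ρ : G →* M2 k) (g : G) :
    ((detU ρ g : kˣ) : k) = (ρ g).det := rfl

theorem detU_eq_one_iff {k : Type*} [Field k] {G : Type*} [Group G] (ρ : G →* M2 k) (g : G) :
    detU ρ g = 1 ↔ (ρ g).det = 1 := by
  rw [← Units.val_inj, coe_detU, Units.val_one]

/-- A basis of the underlying plane. -/
noncomputable def basis : Module.Basis (Fin 2) k ρbar.V :=
  Module.finBasisOfFinrankEq k ρbar.V ρbar.finrank_eq

/-- The matrix form of `ρbar` in the chosen basis. -/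
noncomputable def rhoM : GQ →* M2 k where
  toFun σ := LinearMap.toMatrix (basis ρbar) (basis ρbar) (ρbar.ρ σ)
  map_one' := by rw [map_one]; exact LinearMap.toMatrix_one _
  map_mul' σ τ := by rw [map_mul]; exact LinearMap.toMatrix_mul _ _ _

theorem rhoM_apply (σ : GQ) :
    rhoM ρbar σ = LinearMap.toMatrix (basis ρbar) (basis ρbar) (ρbar.ρ σ) := rfl

theorem charpoly_rhoM (σ : GQ) : (rhoM ρbar σ).charpoly = LinearMap.charpoly (ρbar.ρ σ) :=
  LinearMap.charpoly_toMatrix _ _

theorem det_rhoM (σ : GQ) : (rhoM ρbar σ).det = LinearMap.det (ρbar.ρ σ) :=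
  LinearMap.det_toMatrix _ _

theorem rhoM_eq_one_iff (σ : GQ) : rhoM ρbar σ = 1 ↔ ρbar.ρ σ = 1 := by
  rw [rhoM_apply, ← LinearMap.toMatrix_one (basis ρbar)]
  exact (LinearMap.toMatrix (basis ρbar) (basis ρbar)).injective.eq_iff

/-- trace and determinant from a factorisation of the characteristic polynomial. -/
theorem trace_det_of_charpoly {M : M2 k} {α β : k} (h : M.charpoly = (X - C α) * (X - C β)) :
    M.trace = α + β ∧ M.det = α * β := by
  rw [Matrix.charpoly_fin_two] at h
  have h1 := congrArg (fun q => q.coeff 1) h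
  have h0 := congrArg (fun q => q.coeff 0) h
  have e : (X - C α) * (X - C β) = X ^ 2 - C (α + β) * X + C (α * β) := by
    rw [C_add, C_mul]; ring
  rw [e] at h1 h0
  simp [coeff_X] at h1 h0
  exact ⟨by linear_combination (-1 : k) * h1, h0⟩


/-- **Schur's lemma** over an algebraically closed field, for a set of `2 × 2` matrices without
non-trivial stable subspace. -/
theorem isScalar_of_commute {K : Type*} [Field K] [IsAlgClosed K] (S : Set (M2 K))
    (hS : ∀ E : Submodule K (Fin 2 → K), (∀ B ∈ S, ∀ v ∈ E, B *ᵥ v ∈ E) → E = ⊥ ∨ E = ⊤)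
    (A : M2 K) (hA : ∀ B ∈ S, A * B = B * A) : IsScalar A := by
  obtain ⟨μ, hμ⟩ := Module.End.exists_eigenvalue (Matrix.toLin' A)
  set E := Module.End.eigenspace (Matrix.toLin' A) μ with hEdef
  have hE : E ≠ ⊥ := hμ
  have hst : ∀ B ∈ S, ∀ v ∈ E, B *ᵥ v ∈ E := by
    intro B hB v hv
    rw [hEdef, Module.End.mem_eigenspace_iff, Matrix.toLin'_apply] at hv ⊢
    rw [Matrix.mulVec_mulVec, hA B hB, ← Matrix.mulVec_mulVec, hv, Matrix.mulVec_smul]
  rcases hS E hst with h | h
  · exact absurd h hE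
  · refine ⟨μ, ?_⟩
    apply Matrix.toLin'.injective
    refine LinearMap.ext fun v => ?_
    have hv : v ∈ E := h ▸ Submodule.mem_top
    rw [hEdef, Module.End.mem_eigenspace_iff] at hv
    rw [hv]
    simp

/-- Scalar matrices descend along a field extension. -/
theorem isScalar_of_map {K : Type*} [Field K] [Algebra k K] {A : M2 k}
    (h : IsScalar (A.map (algebraMap k K))) : IsScalar A := by
  rw [isScalar_iff] at h ⊢
  simp only [Matrix.map_apply] at h
  obtain ⟨h1, h2, h3⟩ := h
  have inj := (algebraMap k K).injective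
  exact ⟨inj (by rw [h1, map_zero]), inj (by rw [h2, map_zero]), inj h3⟩

/-- Translation of the absence of stable subspaces from `K ⊗ V` to `K²`. -/
theorem stable_eq_bot_or_top (K : Type) [Field K] [Algebra k K] (H : Set GQ)
    (hH : ∀ V : Submodule K (ρbar.baseChange K).V,
      (∀ σ ∈ H, ∀ x ∈ V, (ρbar.baseChange K).ρ σ x ∈ V) → V = ⊥ ∨ V = ⊤)
    (E : Submodule K (Fin 2 → K))
    (hE : ∀ σ ∈ H, ∀ v ∈ E, ((rhoM ρbar σ).map (algebraMap k K)) *ᵥ v ∈ E) :
    E = ⊥ ∨ E = ⊤ := by
  let bK : Module.Basis (Fin 2) K (K ⊗[k] ρbar.V) := Algebra.TensorProduct.basis K (basis ρbar)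
  have key : ∀ (σ : GQ) (x : K ⊗[k] ρbar.V), bK.equivFun ((ρbar.ρ σ).baseChange K x) =
      ((rhoM ρbar σ).map (algebraMap k K)) *ᵥ (bK.equivFun x) := by
    intro σ x
    rw [rhoM_apply, ← LinearMap.toMatrix_baseChange]
    exact (LinearMap.toMatrix_mulVec_repr bK bK _ x).symm
  let V : Submodule K (ρbar.baseChange K).V :=
    E.comap (bK.equivFun : (K ⊗[k] ρbar.V) →ₗ[K] (Fin 2 → K))
  have hV : ∀ x : K ⊗[k] ρbar.V, x ∈ V ↔ bK.equivFun x ∈ E := fun x => Iff.rfl
  rcases hH V (fun σ hσ x hx => by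
      rw [hV] at hx
      show (ρbar.ρ σ).baseChange K x ∈ V
      rw [hV, key]
      exact hE σ hσ _ hx) with h | h
  · left
    rw [eq_bot_iff]
    intro v hv
    have : bK.equivFun.symm v ∈ V := by
      rw [hV, LinearEquiv.apply_symm_apply]; exact hv
    rw [h, Submodule.mem_bot] at this
    rw [Submodule.mem_bot, ← bK.equivFun.apply_symm_apply v, this, map_zero]
  · right
    rw [eq_top_iff]
    intro v _
    have : bK.equivFun.symm v ∈ V := h ▸ Submodule.mem_top
    rw [hV, LinearEquiv.apply_symm_apply] at this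
    exact this


/-- The commutant of `ρbar(H)` is scalar as soon as `H` has no stable line after base change to
an algebraically closed field. -/
theorem isScalar_of_commute_on (K : Type) [Field K] [IsAlgClosed K] [Algebra k K] (H : Set GQ)
    (hH : ∀ V : Submodule K (ρbar.baseChange K).V,
      (∀ σ ∈ H, ∀ x ∈ V, (ρbar.baseChange K).ρ σ x ∈ V) → V = ⊥ ∨ V = ⊤)
    (A : M2 k) (hA : ∀ σ ∈ H, A * rhoM ρbar σ = rhoM ρbar σ * A) : IsScalar A := by
  apply isScalar_of_map (K := K)
  refine isScalar_of_commute {B | ∃ σ ∈ H, B = (rhoM ρbar σ).map (algebraMap k K)} ?_ _ ?_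
  · intro E hE
    exact stable_eq_bot_or_top ρbar K H hH E fun σ hσ v hv => hE _ ⟨σ, hσ, rfl⟩ v hv
  · rintro B ⟨σ, hσ, rfl⟩
    rw [← Matrix.map_mul, ← Matrix.map_mul, hA σ hσ]

/-- **The bridge**: `habs` and `hTW` of S56 give the hypothesis package `TWHyp` for the matrix
form of `ρbar`. -/
theorem twHyp (habs : ρbar.IsAbsolutelyIrreducible)
    (hTW : ∀ (K : Type) [Field K] [Algebra k K] (G : Subgroup GQ), G.index = 2 →
      ∀ V : Submodule K (ρbar.baseChange K).V,
        (∀ σ ∈ G, ∀ x ∈ V, (ρbar.baseChange K).ρ σ x ∈ V) → V = ⊥ ∨ V = ⊤) :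
    TWHyp (rhoM ρbar) := by
  have huniv : ∀ V : Submodule (AlgebraicClosure k) (ρbar.baseChange (AlgebraicClosure k)).V,
      (∀ σ ∈ (Set.univ : Set GQ), ∀ x ∈ V, (ρbar.baseChange (AlgebraicClosure k)).ρ σ x ∈ V) →
        V = ⊥ ∨ V = ⊤ := fun V hV => habs V fun σ x hx => hV σ (Set.mem_univ σ) x hx
  refine ⟨?_, ?_, ?_⟩
  · intro v hv hall
    let f := algebraMap k (AlgebraicClosure k)
    have hvK : (f ∘ v) ≠ 0 := by
      intro h0
      apply hv
      funext i
      have := congrFun h0 i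
      exact f.injective (by rw [Pi.zero_apply, map_zero]; exact this)
    rcases stable_eq_bot_or_top ρbar (AlgebraicClosure k) Set.univ huniv
        (Submodule.span (AlgebraicClosure k) {f ∘ v}) (by
          intro σ _ w hw
          obtain ⟨a, rfl⟩ := Submodule.mem_span_singleton.mp hw
          obtain ⟨c, hc⟩ := hall σ
          rw [Matrix.mulVec_smul]
          apply Submodule.smul_mem
          have e : ((rhoM ρbar σ).map f) *ᵥ (f ∘ v) = f c • (f ∘ v) := by
            funext i
            rw [← RingHom.map_mulVec, hc]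
            simp
          rw [e]
          exact Submodule.smul_mem _ _ (Submodule.mem_span_singleton_self _)) with h | h
    · apply hvK
      have : f ∘ v ∈ Submodule.span (AlgebraicClosure k) {f ∘ v} :=
        Submodule.mem_span_singleton_self _
      rw [h] at this
      exact (Submodule.mem_bot _).mp this
    · have h1 := finrank_span_singleton (K := AlgebraicClosure k) hvK
      rw [h, finrank_top, Module.finrank_fin_fun] at h1
      omega
  · intro A hA
    exact isScalar_of_commute_on ρbar (AlgebraicClosure k) Set.univ huniv A fun σ _ => hA σ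
  · intro H hH A hA
    exact isScalar_of_commute_on ρbar (AlgebraicClosure k) (H : Set GQ)
      (hTW (AlgebraicClosure k) H hH) A fun σ hσ => hA σ hσ


/-- `disc2` of the matrix form in terms of the roots of the characteristic polynomial. -/
theorem disc2_rhoM {σ : GQ} {α β : k}
    (h : LinearMap.charpoly (ρbar.ρ σ) = (X - C α) * (X - C β)) :
    disc2 (rhoM ρbar σ) = (α - β) ^ 2 := by
  rw [← charpoly_rhoM] at h
  obtain ⟨h1, h2⟩ := trace_det_of_charpoly h
  exact disc2_eq_of_trace_det h1 h2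

/-- The S56 conclusion `α ≠ β` for an element with non-vanishing `disc2`. -/
theorem exists_roots_ne
    (hsplit : ∀ σ : GQ, ∃ α β : k, LinearMap.charpoly (ρbar.ρ σ) = (X - C α) * (X - C β))
    {σ : GQ} (hd : disc2 (rhoM ρbar σ) ≠ 0) :
    ∃ α β : k, α ≠ β ∧ LinearMap.charpoly (ρbar.ρ σ) = (X - C α) * (X - C β) := by
  obtain ⟨α, β, h⟩ := hsplit σ
  refine ⟨α, β, ?_, h⟩
  rintro rfl
  apply hd
  rw [disc2_rhoM ρbar h, sub_self]
  ring

/-- The matrix form has finite level. -/
theorem rhoM_finiteLevel : ∃ L : IntermediateField ℚ (AlgebraicClosure ℚ), FiniteDimensional ℚ L ∧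
    ∀ σ : GQ, (∀ x ∈ L, σ x = x) → rhoM ρbar σ = 1 := by
  obtain ⟨L, hL, h⟩ := ρbar.factorsThroughFiniteLevel
  exact ⟨L, hL, fun σ hσ => (rhoM_eq_one_iff ρbar σ).mpr (h σ hσ)⟩

/-- The matrix form is trivial on inertia at an unramified prime. -/
theorem rhoM_inertia {q : ℕ} (hq : ρbar.IsUnramifiedAt q)
    (A : ValuationSubring (AlgebraicClosure ℚ)) (hA : A.LiesOverPrime q) {σ : GQ}
    (hσ : σ ∈ A.inertiaSubgroupIn ℚ) : rhoM ρbar σ = 1 :=
  (rhoM_eq_one_iff ρbar σ).mpr (hq A hA σ hσ)

end Fermat.Agent.TW.GRP.Bridge3
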