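/-
Programme T (S56, Taylor–Wiles primes), chapter T/GRP, file G6b (helper3): **the cyclotomic tower**
`H_m = G_{ℚ(μ_{p^m})} ⊴ G_ℚ` and the determinant of `ρbar`.  Mathlib + Prelude + `ES/J/CycloChar8` +
`Bridge3`.

* `cycloMod p m`, `Hm p m` (kernel of the cyclotomic character mod `p ^ m`), `mem_Hm`, `Hm_normal`,
  `commutator_mem_Hm`, `Hm_finiteLevel`, `Hm_le`;
* `dvd_sub_one_of_frobenius_mem_Hm` : a Frobenius element at `q ≠ p` lying in `H_m` has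
  `p ^ m ∣ q - 1`;
* `natCast_eq_zero`, `two_ne_zero_of`, `det_eq_cyclo` (`hdet` at level `n = 1`),
  `det_rhoM_eq_one_of_mem_Hm`, `detU_eq_one_of_mem_Hm` : `det ρbar = 1` on `H_m`, `m ≥ 1`.
-/
import Mathlib
import Fermat.Prelude.Def_GaloisRep_LocalConditions
import Fermat.Agent.ES.J.CycloChar8
import Fermat.Agent.TW.GRP.Bridge3

set_option autoImplicit false

namespace Fermat.Agent.TW.GRP.CycSub3

open Matrix Fermat.Agent.TW.GRP.Mat2x3 Fermat.Agent.TW.GRP.Bridge3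
open Fermat.Agent.ES.J.CycloChar8

local notation "GQ" => (AlgebraicClosure ℚ ≃ₐ[ℚ] AlgebraicClosure ℚ)

variable (p : ℕ) [hp : Fact p.Prime]

/-- The cyclotomic character modulo `p ^ m`, as a monoid hom to `ZMod (p ^ m)`. -/
noncomputable def cycloMod (m : ℕ) : GQ →* ZMod (p ^ m) :=
  ((PadicInt.toZModPow m : ℤ_[p] →+* ZMod (p ^ m)) : ℤ_[p] →* ZMod (p ^ m)).comp
    ((Units.coeHom ℤ_[p]).comp (cyclo p))

theorem cycloMod_apply (m : ℕ) (σ : GQ) :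
    cycloMod p m σ = PadicInt.toZModPow m (cyclo p σ : ℤ_[p]) := rfl

/-- `H_m = G_{ℚ(μ_{p^m})}` : the kernel of the cyclotomic character modulo `p ^ m`. -/
noncomputable def Hm (m : ℕ) : Subgroup GQ := (cycloMod p m).ker

theorem mem_Hm {m : ℕ} {σ : GQ} :
    σ ∈ Hm p m ↔ PadicInt.toZModPow m (cyclo p σ : ℤ_[p]) = 1 := MonoidHom.mem_ker

instance Hm_normal (m : ℕ) : (Hm p m).Normal := MonoidHom.normal_ker _

/-- `H_m` contains all commutators. -/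
theorem commutator_mem_Hm (m : ℕ) (g g' : GQ) : g * g' * g⁻¹ * g'⁻¹ ∈ Hm p m := by
  rw [Hm, MonoidHom.mem_ker, map_mul, map_mul, map_mul, mul_assoc, mul_mul_mul_comm, ← map_mul,
    ← map_mul, mul_inv_cancel, mul_inv_cancel, map_one, mul_one]

/-- `H_m` has finite level. -/
theorem Hm_finiteLevel (m : ℕ) : ∃ L : IntermediateField ℚ (AlgebraicClosure ℚ),
    FiniteDimensional ℚ L ∧ ∀ σ : GQ, (∀ x ∈ L, σ x = x) → σ ∈ Hm p m := by
  obtain ⟨L, hL, h⟩ := cyclo_sub_one_mem p m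
  refine ⟨L, hL, fun σ hσ => ?_⟩
  have h1 := h σ hσ
  rw [← PadicInt.ker_toZModPow, RingHom.mem_ker, map_sub, map_one, sub_eq_zero] at h1
  exact (mem_Hm p).mpr h1

theorem Hm_le {m m' : ℕ} (h : m ≤ m') : Hm p m' ≤ Hm p m := by
  intro σ hσ
  rw [mem_Hm] at hσ ⊢
  have h1 : (cyclo p σ : ℤ_[p]) - 1 ∈ Ideal.span {(p : ℤ_[p]) ^ m'} := by
    rw [← PadicInt.ker_toZModPow, RingHom.mem_ker, map_sub, map_one, hσ, sub_self]
  have h2 : (cyclo p σ : ℤ_[p]) - 1 ∈ Ideal.span {(p : ℤ_[p]) ^ m} := by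
    obtain ⟨y, hy⟩ := Ideal.mem_span_singleton'.mp h1
    rw [Ideal.mem_span_singleton']
    refine ⟨y * (p : ℤ_[p]) ^ (m' - m), ?_⟩
    rw [mul_assoc, ← pow_add, Nat.sub_add_cancel h, hy]
  rw [← PadicInt.ker_toZModPow, RingHom.mem_ker, map_sub, map_one, sub_eq_zero] at h2
  exact h2

/-- A Frobenius element in `H_m` is at a prime `q ≡ 1 mod p ^ m`. -/
theorem dvd_sub_one_of_frobenius_mem_Hm {m q : ℕ} (hq : q.Prime) (hqp : q ≠ p)
    (A : ValuationSubring (AlgebraicClosure ℚ)) (hA : A.LiesOverPrime q) {φ : GQ}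
    (hφ : A.IsFrobeniusAt φ q) (hm : φ ∈ Hm p m) : p ^ m ∣ q - 1 := by
  rw [mem_Hm, cyclo_of_isFrobeniusAt p hq hqp A hA hφ, map_natCast] at hm
  have h1 : (q : ZMod (p ^ m)) = ((1 : ℕ) : ZMod (p ^ m)) := by rw [hm, Nat.cast_one]
  have h2 := (ZMod.natCast_eq_natCast_iff _ _ _).mp h1
  exact (Nat.modEq_iff_dvd' hq.one_le).mp h2.symm


/-! ### the determinant -/

variable {k : Type} [Field k] (ρbar : ResidualGaloisRep k)

omit hp in
/-- `p = 0` in `k` under `hdet`. -/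
theorem natCast_eq_zero (hdet : (GaloisRepAdic.ofResidualGaloisRep ρbar).DetIsCyclotomic p) :
    (p : k) = 0 := by
  have h := hdet.1
  rw [IsLocalRing.maximalIdeal_eq_bot] at h
  exact (Submodule.mem_bot k).mp h

/-- `2 ≠ 0` in `k` when `p` is odd. -/
theorem two_ne_zero_of (hp2 : p ≠ 2)
    (hdet : (GaloisRepAdic.ofResidualGaloisRep ρbar).DetIsCyclotomic p) : (2 : k) ≠ 0 := by
  intro h2
  have hp0 := natCast_eq_zero p ρbar hdet
  have hcop : Nat.Coprime 2 p :=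
    (Nat.coprime_primes Nat.prime_two hp.out).mpr (Ne.symm hp2)
  have h1 : ((Nat.gcd 2 p : ℕ) : k) = 0 := by
    have hb := Nat.gcd_eq_gcd_ab 2 p
    have : ((Nat.gcd 2 p : ℕ) : k) = (((Nat.gcd 2 p : ℕ) : ℤ) : k) := by push_cast; rfl
    rw [this, hb]
    push_cast
    rw [h2, hp0]
    ring
  rw [hcop.gcd_eq_one, Nat.cast_one] at h1
  exact one_ne_zero h1

/-- **`det ρbar` is the cyclotomic character modulo `p`.** -/
theorem det_eq_cyclo (hdet : (GaloisRepAdic.ofResidualGaloisRep ρbar).DetIsCyclotomic p)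
    (σ : GQ) : LinearMap.det (ρbar.ρ σ) =
      (((PadicInt.toZModPow 1 (cyclo p σ : ℤ_[p])).val : ℕ) : k) := by
  have hp0 := natCast_eq_zero p ρbar hdet
  have h := hdet.2 1 σ _ (fun μ hμ => cyclo_spec p σ μ hμ)
  have hz : ((p ^ 1 : ℕ) : k) = 0 := by rw [pow_one, hp0]
  rw [Ideal.span_singleton_eq_bot.mpr hz] at h
  exact sub_eq_zero.mp ((Submodule.mem_bot k).mp h)

/-- `det ρbar = 1` on `H_m`, `m ≥ 1`. -/
theorem det_rhoM_eq_one_of_mem_Hm
    (hdet : (GaloisRepAdic.ofResidualGaloisRep ρbar).DetIsCyclotomic p) {m : ℕ} (hm : 1 ≤ m)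
    {σ : GQ} (hσ : σ ∈ Hm p m) : (rhoM ρbar σ).det = 1 := by
  have h1 := (mem_Hm p).mp (Hm_le p hm hσ)
  rw [det_rhoM, det_eq_cyclo p ρbar hdet, h1, ZMod.val_one_eq_one_mod, pow_one,
    Nat.mod_eq_of_lt hp.out.one_lt, Nat.cast_one]


/-- the determinant character is trivial on `H_m`, `m ≥ 1`. -/
theorem detU_eq_one_of_mem_Hm
    (hdet : (GaloisRepAdic.ofResidualGaloisRep ρbar).DetIsCyclotomic p) {m : ℕ} (hm : 1 ≤ m)
    {σ : GQ} (hσ : σ ∈ Hm p m) : detU (rhoM ρbar) σ = 1 :=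
  (detU_eq_one_iff _ _).mpr (det_rhoM_eq_one_of_mem_Hm p ρbar hdet hm hσ)

end Fermat.Agent.TW.GRP.CycSub3
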