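/-
Programme T (S56, Taylor–Wiles primes), chapter T/GRP, file G2a (helper3): **`2 × 2` matrices over a
field** — the elementary identities used by `RegSS3` (regular semisimple elements), `Irred3`
(irreducibility of `ad⁰`) and `AdZero3`.  Mathlib only.

`M2 k := Matrix (Fin 2) (Fin 2) k`, `disc2 M := (tr M)² - 4 det M`, `IsScalar M := ∃ x, M = x • 1`.
* `mul_self_eq` (Cayley–Hamilton) `M * M = tr M • M - det M • 1`; `mul_self_of_trace_eq_zero`;
* `mul_mul_eq` : `N * x * N = tr (N * x) • N - det N • adj x`;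
* `isScalar_iff`, `not_isScalar_of_trace_eq_zero`;
* `commutant_of_not_isScalar` : `A * M = M * A`, `M` not scalar ⇒ `A = x • 1 + y • M`;
* `proportional_of_mulVec_eq_zero` : two vectors killed by a non-zero matrix are proportional;
* `nilp_sq` : `disc2 M = 0` ⇒ `(M - (tr M / 2) • 1)² = 0`;  `pow_eq_of_disc2_eq_zero`, `disc2_pow`;
* `disc2_conj`, `disc2_eq_of_eigenvalues`.
-/
import Mathlib

set_option autoImplicit false

namespace Fermat.Agent.TW.GRP.Mat2x3

open Matrix

variable {k : Type*} [Field k]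

/-- `2 × 2` matrices. -/
abbrev M2 (k : Type*) := Matrix (Fin 2) (Fin 2) k

/-- The disc2iminant of the characteristic polynomial. -/
def disc2 (M : M2 k) : k := M.trace ^ 2 - 4 * M.det

/-- Scalar matrices. -/
def IsScalar (M : M2 k) : Prop := ∃ x : k, M = x • (1 : M2 k)

/-- **Cayley–Hamilton** in rank `2`. -/
theorem mul_self_eq (M : M2 k) : M * M = M.trace • M - M.det • (1 : M2 k) := by
  ext i j
  fin_cases i <;> fin_cases j <;>
    simp [Matrix.mul_apply, Fin.sum_univ_two, Matrix.trace_fin_two, Matrix.det_fin_two] <;> ring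

theorem mul_self_of_trace_eq_zero {A : M2 k} (h : A.trace = 0) :
    A * A = -A.det • (1 : M2 k) := by
  rw [mul_self_eq, h, zero_smul, zero_sub, neg_smul]

theorem mul_mul_eq (N x : M2 k) :
    N * x * N = (N * x).trace • N - N.det • x.adjugate := by
  ext i j
  fin_cases i <;> fin_cases j <;>
    simp [Matrix.mul_apply, Fin.sum_univ_two, Matrix.trace_fin_two, Matrix.det_fin_two,
      Matrix.adjugate_fin_two] <;> ring

theorem isScalar_iff {M : M2 k} : IsScalar M ↔ M 0 1 = 0 ∧ M 1 0 = 0 ∧ M 0 0 = M 1 1 := by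
  constructor
  · rintro ⟨x, rfl⟩
    simp
  · rintro ⟨h1, h2, h3⟩
    refine ⟨M 0 0, ?_⟩
    ext i j
    fin_cases i <;> fin_cases j <;> simp [h1, h2, h3]

theorem isScalar_smul_one (x : k) : IsScalar (x • (1 : M2 k)) := ⟨x, rfl⟩

/-- A trace-zero scalar matrix vanishes (`2 ≠ 0`). -/
theorem eq_zero_of_isScalar_of_trace_eq_zero (h2 : (2 : k) ≠ 0) {A : M2 k} (hs : IsScalar A)
    (ht : A.trace = 0) : A = 0 := by
  obtain ⟨x, rfl⟩ := hs
  have : x = 0 := by
    have h := ht
    rw [Matrix.trace_fin_two] at h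
    simp only [Matrix.smul_apply, Matrix.one_apply_eq, smul_eq_mul, mul_one] at h
    have h' : (2 : k) * x = 0 := by linear_combination h
    exact (mul_eq_zero.mp h').resolve_left h2
  rw [this, zero_smul]

/-- Entrywise criterion for `A = x • 1 + y • M`. -/
theorem eq_smul_one_add_smul {A M : M2 k} {x y : k} (h00 : A 0 0 = x + y * M 0 0)
    (h01 : A 0 1 = y * M 0 1) (h10 : A 1 0 = y * M 1 0) (h11 : A 1 1 = x + y * M 1 1) :
    A = x • (1 : M2 k) + y • M := by
  ext i j
  fin_cases i <;> fin_cases j <;> simp [h00, h01, h10, h11]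

/-- The commutant of a non-scalar `2 × 2` matrix `M` is `k + k M`. -/
theorem commutant_of_not_isScalar {M A : M2 k} (hM : ¬ IsScalar M) (hA : A * M = M * A) :
    ∃ x y : k, A = x • (1 : M2 k) + y • M := by
  -- the four entry equations
  have e00 := congrFun (congrFun hA 0) 0
  have e01 := congrFun (congrFun hA 0) 1
  have e10 := congrFun (congrFun hA 1) 0
  have e11 := congrFun (congrFun hA 1) 1
  simp only [Matrix.mul_apply, Fin.sum_univ_two] at e00 e01 e10 e11
  by_cases hb : M 0 1 = 0
  · by_cases hc : M 1 0 = 0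
    · -- diagonal, `a ≠ d`
      have had : M 0 0 - M 1 1 ≠ 0 := by
        intro h
        exact hM (isScalar_iff.mpr ⟨hb, hc, sub_eq_zero.mp h⟩)
      rw [hb] at e01
      rw [hc] at e10
      have hq : A 0 1 = 0 := by
        have : A 0 1 * (M 0 0 - M 1 1) = 0 := by linear_combination -e01
        exact (mul_eq_zero.mp this).resolve_right had
      have hr : A 1 0 = 0 := by
        have : A 1 0 * (M 0 0 - M 1 1) = 0 := by linear_combination e10
        exact (mul_eq_zero.mp this).resolve_right had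
      refine ⟨A 0 0 - (A 0 0 - A 1 1) / (M 0 0 - M 1 1) * M 0 0,
        (A 0 0 - A 1 1) / (M 0 0 - M 1 1), eq_smul_one_add_smul ?_ ?_ ?_ ?_⟩
      · ring
      · rw [hq, hb, mul_zero]
      · rw [hr, hc, mul_zero]
      · field_simp
        ring
    · -- `c ≠ 0`
      refine ⟨A 0 0 - A 1 0 / M 1 0 * M 0 0, A 1 0 / M 1 0, eq_smul_one_add_smul ?_ ?_ ?_ ?_⟩
      · ring
      · field_simp
        linear_combination e00
      · field_simp
      · field_simp
        linear_combination e10
  · -- `b ≠ 0`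
    refine ⟨A 0 0 - A 0 1 / M 0 1 * M 0 0, A 0 1 / M 0 1, eq_smul_one_add_smul ?_ ?_ ?_ ?_⟩
    · ring
    · field_simp
    · field_simp
      linear_combination -e00
    · field_simp
      linear_combination -e01

/-- Two vectors killed by a non-zero `2 × 2` matrix are proportional. -/
theorem proportional_of_mulVec_eq_zero {N : M2 k} (hN : N ≠ 0) {v w : Fin 2 → k} (hv : v ≠ 0)
    (hNv : N *ᵥ v = 0) (hNw : N *ᵥ w = 0) : ∃ c : k, w = c • v := by
  have v0 := congrFun hNv 0
  have v1 := congrFun hNv 1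
  have w0 := congrFun hNw 0
  have w1 := congrFun hNw 1
  simp only [Matrix.mulVec, dotProduct, Fin.sum_univ_two, Pi.zero_apply] at v0 v1 w0 w1
  -- `det [v | w] = 0`
  have hdet : v 0 * w 1 - v 1 * w 0 = 0 := by
    by_contra hne
    apply hN
    ext i j
    have hi : N i 0 * v 0 + N i 1 * v 1 = 0 := by fin_cases i <;> assumption
    have hi' : N i 0 * w 0 + N i 1 * w 1 = 0 := by fin_cases i <;> assumption
    have h0 : N i 0 * (v 0 * w 1 - v 1 * w 0) = 0 := by linear_combination w 1 * hi - v 1 * hi'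
    have h1 : N i 1 * (v 0 * w 1 - v 1 * w 0) = 0 := by linear_combination -w 0 * hi + v 0 * hi'
    fin_cases j
    · exact (mul_eq_zero.mp h0).resolve_right hne
    · exact (mul_eq_zero.mp h1).resolve_right hne
  by_cases h0 : v 0 = 0
  · have h1 : v 1 ≠ 0 := by
      intro h1
      apply hv
      funext i
      fin_cases i <;> simp [h0, h1]
    refine ⟨w 1 / v 1, ?_⟩
    funext i
    fin_cases i
    · simp only [Fin.zero_eta, Pi.smul_apply, smul_eq_mul, h0, mul_zero]
      rw [h0, zero_mul, zero_sub, neg_eq_zero] at hdet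
      exact (mul_eq_zero.mp hdet).resolve_left h1
    · simp only [Fin.mk_one, Pi.smul_apply, smul_eq_mul]
      field_simp
  · refine ⟨w 0 / v 0, ?_⟩
    funext i
    fin_cases i
    · simp only [Fin.zero_eta, Pi.smul_apply, smul_eq_mul]
      field_simp
    · simp only [Fin.mk_one, Pi.smul_apply, smul_eq_mul]
      field_simp
      linear_combination hdet

/-- If `disc2 M = 0` then `M - (tr M / 2)` squares to zero. -/
theorem nilp_sq (h2 : (2 : k) ≠ 0) {M : M2 k} (hd : disc2 M = 0) :
    (M - (M.trace / 2) • (1 : M2 k)) * (M - (M.trace / 2) • (1 : M2 k)) = 0 := by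
  have hdet : M.det = M.trace ^ 2 / 4 := by
    have h4 : (4 : k) ≠ 0 := by
      have : (4 : k) = 2 * 2 := by norm_num
      rw [this]; exact mul_ne_zero h2 h2
    rw [disc2] at hd
    field_simp
    linear_combination -hd
  have hCH := mul_self_eq M
  rw [hdet] at hCH
  rw [sub_mul, mul_sub, mul_sub, hCH]
  simp only [smul_mul_assoc, mul_smul_comm, one_mul, mul_one, smul_smul]
  have h4 : (4 : k) ≠ 0 := by
    have : (4 : k) = 2 * 2 := by norm_num
    rw [this]; exact mul_ne_zero h2 h2
  ext i j
  simp only [Matrix.sub_apply, Matrix.smul_apply, smul_eq_mul, Matrix.zero_apply]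
  field_simp
  ring

theorem trace_sub_half (h2 : (2 : k) ≠ 0) (M : M2 k) :
    (M - (M.trace / 2) • (1 : M2 k)).trace = 0 := by
  simp [Matrix.trace_fin_two]
  field_simp
  ring

theorem disc2_conj (M P Q : M2 k) (hPQ : P * Q = 1) : disc2 (P * M * Q) = disc2 M := by
  have hQP : Q * P = 1 := mul_eq_one_comm.mp hPQ
  have ht : (P * M * Q).trace = M.trace := by
    rw [Matrix.trace_mul_comm, ← Matrix.mul_assoc, hQP, Matrix.one_mul]
  have hd : (P * M * Q).det = M.det := by
    have h1 : P.det * Q.det = 1 := by rw [← Matrix.det_mul, hPQ, Matrix.det_one]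
    rw [Matrix.det_mul, Matrix.det_mul]
    linear_combination M.det * h1
  rw [disc2, disc2, ht, hd]

/-- Powers of a matrix with vanishing disc2iminant. -/
theorem pow_eq_of_disc2_eq_zero (h2 : (2 : k) ≠ 0) {M : M2 k} (hd : disc2 M = 0) (j : ℕ) :
    M ^ (j + 1) = (M.trace / 2) ^ (j + 1) • (1 : M2 k) +
      ((j + 1 : ℕ) * (M.trace / 2) ^ j) • (M - (M.trace / 2) • (1 : M2 k)) := by
  set s := M.trace / 2 with hs
  set N := M - s • (1 : M2 k) with hN
  have hNN : N * N = 0 := nilp_sq h2 hd
  have hM : M = s • (1 : M2 k) + N := by rw [hN]; abel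
  induction j with
  | zero =>
    simp only [zero_add, pow_one, Nat.cast_one, pow_zero, mul_one, one_smul]
    exact hM
  | succ j ih =>
    rw [pow_succ, ih]
    conv_lhs => rw [hM]
    rw [add_mul, mul_add, mul_add]
    simp only [smul_mul_assoc, mul_smul_comm, one_mul, mul_one, smul_smul, hNN, smul_zero,
      add_zero]
    push_cast
    module

theorem disc2_pow (h2 : (2 : k) ≠ 0) {M : M2 k} (hd : disc2 M = 0) (j : ℕ) :
    disc2 (M ^ j) = 0 := by
  cases j with
  | zero =>
    simp [disc2]
    ring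
  | succ j =>
    have ht0 : (M - (M.trace / 2) • (1 : M2 k)).trace = 0 := trace_sub_half h2 M
    have hdet : M.det = (M.trace / 2) ^ 2 := by
      rw [disc2] at hd
      field_simp
      linear_combination -hd
    have htr : (M ^ (j + 1)).trace = 2 * (M.trace / 2) ^ (j + 1) := by
      rw [pow_eq_of_disc2_eq_zero h2 hd j, Matrix.trace_add, Matrix.trace_smul, Matrix.trace_smul,
        ht0, smul_zero, add_zero]
      simp [Matrix.trace_fin_two]
      ring
    rw [disc2, htr, Matrix.det_pow, hdet]
    ring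

/-- The disc2iminant in terms of eigenvalues. -/
theorem disc2_eq_of_trace_det {M : M2 k} {α β : k} (ht : M.trace = α + β) (hdet : M.det = α * β) :
    disc2 M = (α - β) ^ 2 := by
  rw [disc2, ht, hdet]
  ring

end Fermat.Agent.TW.GRP.Mat2x3
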