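/-
Programme T (S56, Taylor–Wiles primes), chapter T/GRP, file G2b (helper3): **the group-theoretic
hypothesis `TWHyp ρ`** on a rank-two matrix representation `ρ : G →* M2 k`, and its first
consequence.  Mathlib + `Mat2x3`.

`TWHyp ρ` packages what `habs`/`hTW` of S56 give (see `Bridge3`):
* `irr`       : no common eigenvector in `k²`;
* `schur_top` : the commutant of `ρ(G)` consists of scalar matrices;
* `schur_two` : the same for every subgroup of index two.

* `mul_inv_eq_one`, `det_ne_zero` : `ρ g` is invertible (`G` is a group);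
* `isScalar_of_comm_or_anticomm` : a matrix `A` which commutes or anticommutes with every `ρ g`
  is scalar (the commuting elements form a subgroup of index `≤ 2`).
-/
import Mathlib
import Fermat.Agent.TW.GRP.Mat2x3

set_option autoImplicit false

namespace Fermat.Agent.TW.GRP.TWHyp3

open Matrix Fermat.Agent.TW.GRP.Mat2x3

variable {k : Type*} [Field k] {G : Type*} [Group G]

/-- The Taylor–Wiles hypothesis on a rank-two matrix representation. -/
structure TWHyp (ρ : G →* M2 k) : Prop where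
  irr : ∀ v : Fin 2 → k, v ≠ 0 → ¬ ∀ g : G, ∃ c : k, ρ g *ᵥ v = c • v
  schur_top : ∀ A : M2 k, (∀ g : G, A * ρ g = ρ g * A) → IsScalar A
  schur_two : ∀ H : Subgroup G, H.index = 2 →
    ∀ A : M2 k, (∀ h ∈ H, A * ρ h = ρ h * A) → IsScalar A

variable {ρ : G →* M2 k}

theorem mul_inv_eq_one (ρ : G →* M2 k) (g : G) : ρ g * ρ g⁻¹ = 1 := by
  rw [← map_mul, mul_inv_cancel, map_one]

theorem inv_mul_eq_one (ρ : G →* M2 k) (g : G) : ρ g⁻¹ * ρ g = 1 := by
  rw [← map_mul, inv_mul_cancel, map_one]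

theorem det_mul_det_inv (ρ : G →* M2 k) (g : G) : (ρ g).det * (ρ g⁻¹).det = 1 := by
  rw [← Matrix.det_mul, mul_inv_eq_one, Matrix.det_one]

theorem det_ne_zero (ρ : G →* M2 k) (g : G) : (ρ g).det ≠ 0 := by
  intro h
  have := det_mul_det_inv ρ g
  rw [h, zero_mul] at this
  exact zero_ne_one this

theorem mulVec_ne_zero (ρ : G →* M2 k) (g : G) {v : Fin 2 → k} (hv : v ≠ 0) : ρ g *ᵥ v ≠ 0 := by
  intro h
  apply hv
  have : ρ g⁻¹ *ᵥ (ρ g *ᵥ v) = v := by
    rw [Matrix.mulVec_mulVec, inv_mul_eq_one, Matrix.one_mulVec]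
  rw [← this, h, Matrix.mulVec_zero]

/-- A matrix commuting or anticommuting with every `ρ g` is scalar. -/
theorem isScalar_of_comm_or_anticomm (hρ : TWHyp ρ) (A : M2 k)
    (hA : ∀ g : G, ρ g * A = A * ρ g ∨ ρ g * A = -(A * ρ g)) : IsScalar A := by
  by_cases hA0 : A = 0
  · exact ⟨0, by rw [hA0, zero_smul]⟩
  -- the commuting elements
  let K : Subgroup G :=
    { carrier := {g | ρ g * A = A * ρ g}
      one_mem' := by simp
      mul_mem' := by
        intro a b ha hb
        simp only [Set.mem_ofPred_eq] at ha hb ⊢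
        rw [map_mul, Matrix.mul_assoc, hb, ← Matrix.mul_assoc, ha, Matrix.mul_assoc]
      inv_mem' := by
        intro a ha
        simp only [Set.mem_ofPred_eq] at ha ⊢
        calc ρ a⁻¹ * A = ρ a⁻¹ * A * (ρ a * ρ a⁻¹) := by rw [mul_inv_eq_one, Matrix.mul_one]
          _ = ρ a⁻¹ * (A * ρ a) * ρ a⁻¹ := by simp only [Matrix.mul_assoc]
          _ = ρ a⁻¹ * (ρ a * A) * ρ a⁻¹ := by rw [ha]
          _ = (ρ a⁻¹ * ρ a) * A * ρ a⁻¹ := by simp only [Matrix.mul_assoc]
          _ = A * ρ a⁻¹ := by rw [inv_mul_eq_one, Matrix.one_mul] }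
  have hK : ∀ g, g ∈ K ↔ ρ g * A = A * ρ g := fun g => Iff.rfl
  by_cases htop : ∀ g, g ∈ K
  · exact hρ.schur_top A fun g => ((hK g).mp (htop g)).symm
  · push Not at htop
    obtain ⟨g₂, hg₂⟩ := htop
    have hg₂' : ρ g₂ * A = -(A * ρ g₂) := (hA g₂).resolve_left fun h => hg₂ ((hK g₂).mpr h)
    have hidx : K.index = 2 := by
      rw [Subgroup.index_eq_two_iff_exists_notMem_and]
      refine ⟨g₂, hg₂, fun b => ?_⟩
      by_cases hb : b ∈ K
      · exact Or.inr hb
      · left
        have hb' : ρ b * A = -(A * ρ b) := (hA b).resolve_left fun h => hb ((hK b).mpr h)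
        rw [hK, map_mul, Matrix.mul_assoc, hg₂', Matrix.mul_neg, ← Matrix.mul_assoc, hb',
          Matrix.neg_mul, neg_neg, Matrix.mul_assoc]
    exact hρ.schur_two K hidx A fun h hh => ((hK h).mp hh).symm

end Fermat.Agent.TW.GRP.TWHyp3
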