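/-
Programme T (S56, Taylor–Wiles primes), chapter T/GRP, file G3 (helper3): **`ad⁰` is irreducible**
(step (A1) of T10), matrix form.  Mathlib + `Mat2x3` + `TWHyp3`.

`k` a field, `2 ≠ 0`, `ρ : G →* M2 k` with `TWHyp ρ`.  `slM k` = trace-zero `2 × 2` matrices
(`finrank = 3`).
* `false_of_stable_line` : no line `k A ⊆ slM k` is stable under all conjugations `A ↦ ρ g A ρ g⁻¹`
  (if `det A ≠ 0`, `A` commutes or anticommutes with every `ρ g`, hence is scalar; if `det A = 0`,
  `im A` is a `G`-stable line of `k²`);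
* `stable_eq_bot_or_eq_slM` : a conjugation-stable subspace `U ≤ slM k` is `⊥` or `slM k`
  (a stable plane `k A + k B` produces the stable line `k [A, B]`);
* `eq_zero_of_fixed` : a trace-zero `A` with `c g • (ρ g A ρ g⁻¹) = A` for all `g` (any scalars
  `c g`) is `0`: `H⁰(G, ad⁰ ⊗ c) = 0`.
-/
import Mathlib
import Fermat.Agent.TW.GRP.TWHyp3

set_option autoImplicit false

namespace Fermat.Agent.TW.GRP.Irred3

open Matrix Module Fermat.Agent.TW.GRP.Mat2x3 Fermat.Agent.TW.GRP.TWHyp3

variable {k : Type*} [Field k] {G : Type*} [Group G] {ρ : G →* M2 k}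

/-- Trace-zero `2 × 2` matrices. -/
def slM (k : Type*) [Field k] : Submodule k (M2 k) :=
  LinearMap.ker (Matrix.traceLinearMap (Fin 2) k k)

theorem mem_slM {A : M2 k} : A ∈ slM k ↔ A.trace = 0 := by
  rw [slM, LinearMap.mem_ker, Matrix.traceLinearMap_apply]

theorem finrank_slM : finrank k (slM k) = 3 := by
  have h := LinearMap.finrank_range_add_finrank_ker (Matrix.traceLinearMap (Fin 2) k k)
  have hsurj : LinearMap.range (Matrix.traceLinearMap (Fin 2) k k) = ⊤ := by
    rw [LinearMap.range_eq_top]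
    intro x
    refine ⟨Matrix.of ![![x, 0], ![0, 0]], ?_⟩
    simp [Matrix.trace_fin_two]
  rw [hsurj, finrank_top, Module.finrank_self, Module.finrank_matrix] at h
  simp only [Fintype.card_fin, Module.finrank_self] at h
  have : finrank k (slM k) = finrank k (LinearMap.ker (Matrix.traceLinearMap (Fin 2) k k)) := rfl
  omega

/-- conjugation is multiplicative -/
theorem conj_mul (ρ : G →* M2 k) (g : G) (A B : M2 k) :
    ρ g * (A * B) * ρ g⁻¹ = (ρ g * A * ρ g⁻¹) * (ρ g * B * ρ g⁻¹) := by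
  have h := TWHyp3.inv_mul_eq_one ρ g
  calc ρ g * (A * B) * ρ g⁻¹ = ρ g * A * (1 : M2 k) * B * ρ g⁻¹ := by
        simp only [Matrix.mul_one, Matrix.mul_assoc]
    _ = ρ g * A * (ρ g⁻¹ * ρ g) * B * ρ g⁻¹ := by rw [h]
    _ = _ := by simp only [Matrix.mul_assoc]

theorem trace_conj (ρ : G →* M2 k) (g : G) (A : M2 k) : (ρ g * A * ρ g⁻¹).trace = A.trace := by
  rw [Matrix.trace_mul_comm, ← Matrix.mul_assoc, TWHyp3.inv_mul_eq_one, Matrix.one_mul]

theorem det_conj (ρ : G →* M2 k) (g : G) (A : M2 k) : (ρ g * A * ρ g⁻¹).det = A.det := by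
  rw [Matrix.det_mul, Matrix.det_mul]
  linear_combination A.det * det_mul_det_inv ρ g

/-- `ρ g A ρ g⁻¹ = μ A` ⇒ `ρ g A = μ A ρ g`. -/
theorem mul_eq_of_conj_eq {g : G} {A : M2 k} {μ : k} (h : ρ g * A * ρ g⁻¹ = μ • A) :
    ρ g * A = μ • (A * ρ g) := by
  have := congrArg (· * ρ g) h
  rwa [Matrix.mul_assoc, TWHyp3.inv_mul_eq_one, Matrix.mul_one, Matrix.smul_mul] at this

/-- **No stable line in `ad⁰`.** -/
theorem false_of_stable_line (h2 : (2 : k) ≠ 0) (hρ : TWHyp ρ) {A : M2 k} (hA0 : A ≠ 0)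
    (htr : A.trace = 0) (hst : ∀ g : G, ∃ μ : k, ρ g * A * ρ g⁻¹ = μ • A) : False := by
  have hAA := mul_self_of_trace_eq_zero htr
  by_cases hdet : A.det = 0
  · -- nilpotent: `im A` is a stable line
    rw [hdet, neg_zero, zero_smul] at hAA
    obtain ⟨e, he⟩ : ∃ e : Fin 2 → k, A *ᵥ e ≠ 0 := by
      by_contra hall
      push Not at hall
      apply hA0
      ext i j
      have := congrFun (hall (Pi.single j 1)) i
      simpa using this
    have hAv : A *ᵥ (A *ᵥ e) = 0 := by rw [Matrix.mulVec_mulVec, hAA, Matrix.zero_mulVec]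
    refine hρ.irr (A *ᵥ e) he fun g => ?_
    obtain ⟨μ, hμ⟩ := hst g
    refine proportional_of_mulVec_eq_zero hA0 he hAv ?_
    rw [Matrix.mulVec_mulVec, Matrix.mulVec_mulVec, Matrix.mul_assoc, mul_eq_of_conj_eq hμ,
      Matrix.mul_smul, ← Matrix.mul_assoc, hAA, Matrix.zero_mul, smul_zero, Matrix.zero_mulVec]
  · -- `μ = ± 1`
    have hsc : IsScalar A := by
      refine isScalar_of_comm_or_anticomm hρ A fun g => ?_
      obtain ⟨μ, hμ⟩ := hst g
      have hd := congrArg Matrix.det hμ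
      rw [det_conj, Matrix.det_smul, Fintype.card_fin] at hd
      have hμ2 : (μ - 1) * (μ + 1) = 0 := by
        have : A.det * ((μ - 1) * (μ + 1)) = 0 := by linear_combination -hd
        exact (mul_eq_zero.mp this).resolve_left hdet
      have h1 := mul_eq_of_conj_eq hμ
      rcases mul_eq_zero.mp hμ2 with h | h
      · left; rw [h1, sub_eq_zero.mp h, one_smul]
      · right; rw [h1, eq_neg_of_add_eq_zero_left h, neg_smul, one_smul]
    exact hA0 (eq_zero_of_isScalar_of_trace_eq_zero h2 hsc htr)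

/-- `H⁰(G, ad⁰ ⊗ c) = 0`. -/
theorem eq_zero_of_fixed (h2 : (2 : k) ≠ 0) (hρ : TWHyp ρ) (c : G → k) {A : M2 k}
    (htr : A.trace = 0) (hfix : ∀ g : G, c g • (ρ g * A * ρ g⁻¹) = A) : A = 0 := by
  by_contra hA0
  refine false_of_stable_line h2 hρ hA0 htr fun g => ?_
  have hc : c g ≠ 0 := by
    intro h0
    have := hfix g
    rw [h0, zero_smul] at this
    exact hA0 this.symm
  refine ⟨(c g)⁻¹, ?_⟩
  conv_rhs => rw [← hfix g]
  rw [smul_smul, inv_mul_cancel₀ hc, one_smul]

/-- two commuting trace-zero matrices are proportional -/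
theorem proportional_of_commute (h2 : (2 : k) ≠ 0) {A B : M2 k} (hA0 : A ≠ 0) (hA : A.trace = 0)
    (hB : B.trace = 0) (hAB : A * B = B * A) : ∃ y : k, B = y • A := by
  have hns : ¬ IsScalar A := fun h => hA0 (eq_zero_of_isScalar_of_trace_eq_zero h2 h hA)
  obtain ⟨x, y, hxy⟩ := commutant_of_not_isScalar hns hAB.symm
  refine ⟨y, ?_⟩
  have ht := congrArg Matrix.trace hxy
  rw [hB, Matrix.trace_add, Matrix.trace_smul, Matrix.trace_smul, hA, smul_zero, add_zero,
    Matrix.trace_one, Fintype.card_fin, smul_eq_mul] at ht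
  have hx : x = 0 := by
    have : x * 2 = 0 := by
      have h' : x * ((2 : ℕ) : k) = 0 := ht.symm
      simpa using h'
    exact (mul_eq_zero.mp this).resolve_right h2
  rw [hxy, hx, zero_smul, zero_add]

/-- **(A1) irreducibility of `ad⁰`** (matrix form, submodules of `M2 k` inside `slM k`). -/
theorem stable_eq_bot_or_eq_slM (h2 : (2 : k) ≠ 0) (hρ : TWHyp ρ) (U : Submodule k (M2 k))
    (hU : U ≤ slM k) (hst : ∀ g : G, ∀ A ∈ U, ρ g * A * ρ g⁻¹ ∈ U) : U = ⊥ ∨ U = slM k := by
  have hle : finrank k U ≤ 3 := by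
    rw [← finrank_slM (k := k)]
    exact Submodule.finrank_mono hU
  by_cases h0 : finrank k U = 0
  · left; exact Submodule.finrank_eq_zero.mp h0
  by_cases h3 : finrank k U = 3
  · right
    exact Submodule.eq_of_le_of_finrank_eq hU (by rw [h3, finrank_slM])
  exfalso
  by_cases h1 : finrank k U = 1
  · -- a stable line
    obtain ⟨⟨A, hAU⟩, hA0, hspan⟩ := finrank_eq_one_iff'.mp h1
    have hA0' : A ≠ 0 := fun h => hA0 (Subtype.ext h)
    refine false_of_stable_line h2 hρ hA0' (mem_slM.mp (hU hAU)) fun g => ?_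
    obtain ⟨μ, hμ⟩ := hspan ⟨ρ g * A * ρ g⁻¹, hst g A hAU⟩
    exact ⟨μ, (congrArg Subtype.val hμ).symm⟩
  · -- a stable plane
    have h2' : finrank k U = 2 := by omega
    let b := Module.finBasisOfFinrankEq k U h2'
    set A : M2 k := (b 0 : M2 k) with hA
    set B : M2 k := (b 1 : M2 k) with hB
    have hAU : A ∈ U := (b 0).2
    have hBU : B ∈ U := (b 1).2
    have hrepr : ∀ X ∈ U, ∃ x y : k, X = x • A + y • B := by
      intro X hX
      have := b.sum_repr ⟨X, hX⟩
      rw [Fin.sum_univ_two] at this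
      refine ⟨b.repr ⟨X, hX⟩ 0, b.repr ⟨X, hX⟩ 1, ?_⟩
      have h' := congrArg Subtype.val this
      simpa using h'.symm
    have hA0 : A ≠ 0 := fun h => b.ne_zero 0 (Subtype.ext h)
    have hAtr : A.trace = 0 := mem_slM.mp (hU hAU)
    have hBtr : B.trace = 0 := mem_slM.mp (hU hBU)
    -- the bracket
    set C : M2 k := A * B - B * A with hC
    have hC0 : C ≠ 0 := by
      intro h
      obtain ⟨y, hy⟩ := proportional_of_commute h2 hA0 hAtr hBtr (sub_eq_zero.mp h)
      -- `b 1 = y • b 0` contradicts independence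
      have hli := b.linearIndependent
      have hne : (b 1 : U) = y • b 0 := Subtype.ext hy
      have h' : LinearIndependent k ![b 0, b 1] := by
        convert hli using 1
        funext i; fin_cases i <;> rfl
      rw [LinearIndependent.pair_iff] at h'
      have := h' y (-1) (by rw [hne]; module)
      exact one_ne_zero (neg_eq_zero.mp this.2)
    have hCtr : C.trace = 0 := by
      rw [hC, Matrix.trace_sub, Matrix.trace_mul_comm, sub_self]
    refine false_of_stable_line h2 hρ hC0 hCtr fun g => ?_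
    obtain ⟨α, β, hαβ⟩ := hrepr _ (hst g A hAU)
    obtain ⟨γ, δ, hγδ⟩ := hrepr _ (hst g B hBU)
    refine ⟨α * δ - β * γ, ?_⟩
    rw [hC, Matrix.mul_sub, Matrix.sub_mul, conj_mul, conj_mul, hαβ, hγδ]
    simp only [Matrix.add_mul, Matrix.mul_add, Matrix.smul_mul, Matrix.mul_smul, smul_smul,
      smul_add, smul_sub]
    module

end Fermat.Agent.TW.GRP.Irred3
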