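/-
Programme T (S56, Taylor–Wiles primes), chapter T/GRP, file G2 (helper3): **the twisted adjoint
representation `ad⁰ρ ⊗ c` on trace-zero `2 × 2` matrices.**  Mathlib + `Mat2x3`, `TWHyp3`, `Irred3`.

`ρ : G →* M2 k`, `c : G →* kˣ`.
* `adM ρ c : Representation k G (M2 k)`, `adM ρ c g A = c g • (ρ g * A * ρ g⁻¹)`;
* `adSl ρ c : Representation k G (slM k)` its restriction to trace-zero matrices
  (`adSl_apply_coe`);
* `adSl_irreducible`   : under `TWHyp ρ`, `2 ≠ 0`: a stable subspace is `⊥` or `⊤`;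
* `adSl_fixed_eq_zero` : `H⁰ = 0`;
* `finrank_quot_range` : if `ρ g` is not scalar and `c g = 1` then
  `slM k ⧸ range (adSl ρ c g - 1)` is one-dimensional (kernel = `k (ρ g - tr/2)`), and
  `range_ne_top`.
-/
import Mathlib
import Fermat.Agent.TW.GRP.Irred3

set_option autoImplicit false

namespace Fermat.Agent.TW.GRP.AdZero3

open Matrix Module Fermat.Agent.TW.GRP.Mat2x3 Fermat.Agent.TW.GRP.TWHyp3
  Fermat.Agent.TW.GRP.Irred3

variable {k : Type*} [Field k] {G : Type*} [Group G]

/-- The twisted adjoint action on all `2 × 2` matrices. -/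
def adM (ρ : G →* M2 k) (c : G →* kˣ) : Representation k G (M2 k) where
  toFun g :=
    { toFun := fun A => (c g : k) • (ρ g * A * ρ g⁻¹)
      map_add' := fun A B => by rw [Matrix.mul_add, Matrix.add_mul, smul_add]
      map_smul' := fun x A => by
        rw [Matrix.mul_smul, Matrix.smul_mul, RingHom.id_apply, smul_comm] }
  map_one' := by
    ext A : 1
    simp
  map_mul' g h := by
    ext A : 1
    have e1 : ρ (g * h)⁻¹ = ρ h⁻¹ * ρ g⁻¹ := by rw [_root_.mul_inv_rev, map_mul]
    simp only [map_mul, Units.val_mul, LinearMap.coe_mk, AddHom.coe_mk, Module.End.mul_apply, e1,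
      Matrix.mul_smul, Matrix.smul_mul, smul_smul, Matrix.mul_assoc]

@[simp]
theorem adM_apply (ρ : G →* M2 k) (c : G →* kˣ) (g : G) (A : M2 k) :
    adM ρ c g A = (c g : k) • (ρ g * A * ρ g⁻¹) := rfl

theorem adM_mem_slM (ρ : G →* M2 k) (c : G →* kˣ) (g : G) {A : M2 k} (hA : A ∈ slM k) :
    adM ρ c g A ∈ slM k := by
  rw [mem_slM] at hA ⊢
  rw [adM_apply, Matrix.trace_smul, Irred3.trace_conj, hA, smul_zero]

/-- The twisted adjoint representation on trace-zero matrices: `ad⁰ρ ⊗ c`. -/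
def adSl (ρ : G →* M2 k) (c : G →* kˣ) : Representation k G (slM k) where
  toFun g := (adM ρ c g).restrict fun _ hA => adM_mem_slM ρ c g hA
  map_one' := by
    ext A : 2
    simp [LinearMap.restrict_apply]
  map_mul' g h := by
    ext A : 2
    simp only [LinearMap.restrict_apply, map_mul, Module.End.mul_apply]

@[simp]
theorem adSl_apply_coe (ρ : G →* M2 k) (c : G →* kˣ) (g : G) (A : slM k) :
    ((adSl ρ c g A : slM k) : M2 k) = (c g : k) • (ρ g * (A : M2 k) * ρ g⁻¹) := by
  simp [adSl, LinearMap.restrict_apply]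

variable {ρ : G →* M2 k} {c : G →* kˣ}

/-- **(A1)** `ad⁰ρ ⊗ c` is irreducible. -/
theorem adSl_irreducible (h2 : (2 : k) ≠ 0) (hρ : TWHyp ρ) (U : Submodule k (slM k))
    (hst : ∀ g : G, ∀ A ∈ U, adSl ρ c g A ∈ U) : U = ⊥ ∨ U = ⊤ := by
  -- the image of `U` in `M2 k`
  set U' : Submodule k (M2 k) := U.map (slM k).subtype with hU'
  have hle : U' ≤ slM k := by
    rintro _ ⟨A, -, rfl⟩
    exact A.2
  have hst' : ∀ g : G, ∀ A ∈ U', ρ g * A * ρ g⁻¹ ∈ U' := by
    rintro g _ ⟨A, hA, rfl⟩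
    have h1 := hst g A hA
    have h3 : ((c g : k)⁻¹ • adSl ρ c g A : slM k) ∈ U := U.smul_mem _ h1
    refine ⟨(c g : k)⁻¹ • adSl ρ c g A, h3, ?_⟩
    simp only [Submodule.subtype_apply, Submodule.coe_smul, adSl_apply_coe, smul_smul]
    rw [inv_mul_cancel₀ (Units.ne_zero _), one_smul]
  rcases stable_eq_bot_or_eq_slM h2 hρ U' hle hst' with h | h
  · left
    rw [Submodule.eq_bot_iff]
    intro A hA
    have hA' : (A : M2 k) ∈ U' := ⟨A, hA, rfl⟩
    rw [h] at hA'
    exact Subtype.ext ((Submodule.mem_bot k).mp hA')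
  · right
    rw [eq_top_iff]
    intro A _
    have hA : (A : M2 k) ∈ U' := by rw [h]; exact A.2
    obtain ⟨B, hB, hBA⟩ := hA
    have : B = A := Subtype.ext hBA
    rwa [← this]

/-- `H⁰(G, ad⁰ρ ⊗ c) = 0`. -/
theorem adSl_fixed_eq_zero (h2 : (2 : k) ≠ 0) (hρ : TWHyp ρ) {A : slM k}
    (hfix : ∀ g : G, adSl ρ c g A = A) : A = 0 := by
  apply Subtype.ext
  refine eq_zero_of_fixed h2 hρ (fun g => (c g : k)) (mem_slM.mp A.2) fun g => ?_
  have := congrArg Subtype.val (hfix g)
  rwa [adSl_apply_coe] at this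

/-- The kernel of `adSl ρ c g - 1` for non-scalar `ρ g`, `c g = 1`, is a line. -/
theorem finrank_ker (h2 : (2 : k) ≠ 0) {g : G} (hns : ¬ IsScalar (ρ g)) (hc : c g = 1) :
    finrank k (LinearMap.ker (adSl ρ c g - 1)) = 1 := by
  set M : M2 k := ρ g with hM
  set N : M2 k := M - (M.trace / 2) • (1 : M2 k) with hN
  have hNtr : N.trace = 0 := trace_sub_half h2 M
  have hN0 : N ≠ 0 := by
    intro h0
    exact hns ⟨M.trace / 2, sub_eq_zero.mp h0⟩
  have hcomm : M * N = N * M := by
    rw [hN, Matrix.mul_sub, Matrix.sub_mul, Matrix.mul_smul, Matrix.smul_mul, Matrix.mul_one,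
      Matrix.one_mul]
  -- membership in the kernel
  have hker : ∀ A : slM k, A ∈ LinearMap.ker (adSl ρ c g - 1) ↔ M * (A : M2 k) = (A : M2 k) * M := by
    intro A
    rw [LinearMap.mem_ker, LinearMap.sub_apply, Module.End.one_apply, sub_eq_zero]
    constructor
    · intro h
      have h' := congrArg Subtype.val h
      rw [adSl_apply_coe, hc, Units.val_one, one_smul] at h'
      have := congrArg (· * M) h'
      rwa [Matrix.mul_assoc, TWHyp3.inv_mul_eq_one, Matrix.mul_one] at this
    · intro h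
      apply Subtype.ext
      rw [adSl_apply_coe, hc, Units.val_one, one_smul, ← hM, h, Matrix.mul_assoc,
        TWHyp3.mul_inv_eq_one, Matrix.mul_one]
  let N' : slM k := ⟨N, mem_slM.mpr hNtr⟩
  have hN'ker : N' ∈ LinearMap.ker (adSl ρ c g - 1) := (hker N').mpr hcomm
  have hne : (⟨N', hN'ker⟩ : LinearMap.ker (adSl ρ c g - 1)) ≠ 0 := by
    intro h
    have h1 : N' = 0 := congrArg Subtype.val h
    have h2' : N = 0 := congrArg Subtype.val h1
    exact hN0 h2'
  -- every element of the kernel is a multiple of `N'`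
  have hspan : ∀ A : LinearMap.ker (adSl ρ c g - 1), ∃ y : k,
      y • (⟨N', hN'ker⟩ : LinearMap.ker (adSl ρ c g - 1)) = A := by
    rintro ⟨A, hA⟩
    have hAM := (hker A).mp hA
    obtain ⟨x, y, hxy⟩ := commutant_of_not_isScalar hns hAM.symm
    have htr : (A : M2 k).trace = 0 := mem_slM.mp A.2
    refine ⟨y, ?_⟩
    apply Subtype.ext
    apply Subtype.ext
    show y • N = (A : M2 k)
    have ht := congrArg Matrix.trace hxy
    rw [htr, Matrix.trace_add, Matrix.trace_smul, Matrix.trace_smul, Matrix.trace_one,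
      Fintype.card_fin, smul_eq_mul, smul_eq_mul] at ht
    have hx : x = -(y * (M.trace / 2)) := by
      have h2' : ((2 : ℕ) : k) = 2 := by norm_num
      rw [h2'] at ht
      field_simp
      linear_combination -ht
    rw [hxy, hN, hx]
    module
  let φ : k →ₗ[k] LinearMap.ker (adSl ρ c g - 1) :=
    LinearMap.toSpanSingleton k _ (⟨N', hN'ker⟩ : LinearMap.ker (adSl ρ c g - 1))
  have hφ : Function.Bijective φ := by
    constructor
    · intro x y hxy
      have h0 : x • N = y • N := by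
        have h1 := congrArg (fun A : LinearMap.ker (adSl ρ c g - 1) => ((A : slM k) : M2 k)) hxy
        exact h1
      have h1 : (x - y) • N = 0 := by rw [sub_smul, h0, sub_self]
      exact sub_eq_zero.mp ((smul_eq_zero.mp h1).resolve_right hN0)
    · intro A
      obtain ⟨y, hy⟩ := hspan A
      exact ⟨y, hy⟩
  rw [← (LinearEquiv.ofBijective φ hφ).finrank_eq, Module.finrank_self]

/-- **One-dimensionality of `H¹_ur` at a Taylor–Wiles prime.** -/
theorem finrank_quot_range (h2 : (2 : k) ≠ 0) {g : G} (hns : ¬ IsScalar (ρ g)) (hc : c g = 1) :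
    finrank k (slM k ⧸ LinearMap.range (adSl ρ c g - 1)) = 1 := by
  have h1 := LinearMap.finrank_range_add_finrank_ker (adSl ρ c g - 1)
  rw [finrank_ker h2 hns hc, finrank_slM] at h1
  have h3 := Submodule.finrank_quotient_add_finrank (LinearMap.range (adSl ρ c g - 1))
  rw [finrank_slM] at h3
  omega

theorem range_ne_top (h2 : (2 : k) ≠ 0) {g : G} (hns : ¬ IsScalar (ρ g)) (hc : c g = 1) :
    LinearMap.range (adSl ρ c g - 1) ≠ ⊤ := by
  intro h
  have h1 := finrank_quot_range (c := c) h2 hns hc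
  rw [h] at h1
  have : finrank k (slM k ⧸ (⊤ : Submodule k (slM k))) = 0 := by
    rw [finrank_eq_zero_of_subsingleton]
  omega

end Fermat.Agent.TW.GRP.AdZero3
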