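/-
Programme T (S56, Taylor–Wiles primes), chapter T/GRP, file G5 (helper3): **the killing lemma**
(abstract form of DDT Thm 2.49 / Wiles (3.8)): how to find the element `σ` whose Frobenius primes
kill a given dual Selmer class.  Mathlib + `Coc3`.

`a : Representation k Γ W` irreducible (stable subspaces are `⊥`, `⊤`), `K ⊴ Γ` acting trivially on
`W`, such that every cocycle of `Γ` vanishing on `K` is a coboundary (`H¹(Γ/K, W) = 0`), `σ₀ ∈ Γ`
with `range (a σ₀ - 1) ≠ ⊤`.  Then for every cocycle `ψ` which is not a coboundary there is `τ ∈ K`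
with `ψ (τ * σ₀) ∉ range (a (τ * σ₀) - 1)`; note `a (τ * σ₀) = a σ₀`.

(In the application `Γ = G_ℚ`, `W = ad⁰ρ̄(1)`, `K = G_{F(ζ_{p^m})}`, `σ₀ ∈ G_{ℚ(ζ_{p^m})}` with
`ρ̄(σ₀)` regular semisimple; the element `σ = τ σ₀` has the same image under `ρ̄` and the same
action on `ζ_{p^m}` as `σ₀`.)
-/
import Mathlib
import Fermat.Agent.TW.GRP.Coc3

set_option autoImplicit false

namespace Fermat.Agent.TW.GRP.Kill3

open Fermat.Agent.TW.GRP.Coc3

variable {k Γ W : Type*} [Field k] [Group Γ] [AddCommGroup W] [Module k W]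

/-- The span of the values of a cocycle on a normal subgroup acting trivially is stable. -/
theorem span_values_stable {a : Representation k Γ W} (K : Subgroup Γ) [hn : K.Normal]
    (hK : ∀ τ ∈ K, a τ = 1) {ψ : Γ → W} (hψ : IsCoc a ψ) (g : Γ) :
    ∀ w ∈ Submodule.span k (ψ '' (K : Set Γ)), a g w ∈ Submodule.span k (ψ '' (K : Set Γ)) := by
  intro w hw
  induction hw using Submodule.span_induction with
  | mem x hx =>
    obtain ⟨τ, hτ, rfl⟩ := hx
    rw [← hψ.map_conj g τ (hK τ hτ)]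
    exact Submodule.subset_span ⟨g * τ * g⁻¹, hn.conj_mem τ hτ g, rfl⟩
  | zero => rw [map_zero]; exact Submodule.zero_mem _
  | add x y _ _ hx hy => rw [map_add]; exact Submodule.add_mem _ hx hy
  | smul c x _ hx => rw [map_smul]; exact Submodule.smul_mem _ c hx

/-- **The killing lemma.** -/
theorem exists_killing_element (a : Representation k Γ W)
    (hirr : ∀ U : Submodule k W, (∀ g : Γ, ∀ w ∈ U, a g w ∈ U) → U = ⊥ ∨ U = ⊤)
    (K : Subgroup Γ) [K.Normal] (hK : ∀ τ ∈ K, a τ = 1)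
    (hvan : ∀ f : Γ → W, IsCoc a f → (∀ τ ∈ K, f τ = 0) → IsCob a f)
    (σ₀ : Γ) (hσ₀ : LinearMap.range (a σ₀ - 1) ≠ ⊤)
    {ψ : Γ → W} (hψ : IsCoc a ψ) (hnb : ¬ IsCob a ψ) :
    ∃ τ ∈ K, a (τ * σ₀) = a σ₀ ∧ ψ (τ * σ₀) ∉ LinearMap.range (a (τ * σ₀) - 1) := by
  set R := LinearMap.range (a σ₀ - 1) with hR
  have haτ : ∀ τ ∈ K, a (τ * σ₀) = a σ₀ := fun τ hτ => by
    rw [map_mul, hK τ hτ, one_mul]
  -- some value on `K` is outside `R`
  have hex : ∃ τ ∈ K, ψ τ ∉ R := by
    by_contra hall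
    push Not at hall
    set U := Submodule.span k (ψ '' (K : Set Γ)) with hU
    have hUR : U ≤ R := Submodule.span_le.mpr (by
      rintro _ ⟨τ, hτ, rfl⟩
      exact hall τ hτ)
    rcases hirr U (fun g => span_values_stable K hK hψ g) with h | h
    · -- `ψ` vanishes on `K`
      apply hnb
      refine hvan ψ hψ fun τ hτ => ?_
      have : ψ τ ∈ U := Submodule.subset_span ⟨τ, hτ, rfl⟩
      rw [h] at this
      exact (Submodule.mem_bot k).mp this
    · apply hσ₀
      rw [h] at hUR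
      exact top_le_iff.mp hUR
  obtain ⟨τ, hτ, hτR⟩ := hex
  by_cases h0 : ψ σ₀ ∈ R
  · refine ⟨τ, hτ, haτ τ hτ, ?_⟩
    rw [haτ τ hτ, hψ τ σ₀, hK τ hτ, Module.End.one_apply]
    intro hmem
    apply hτR
    have := R.sub_mem hmem h0
    rwa [add_sub_cancel_right] at this
  · refine ⟨1, K.one_mem, haτ 1 K.one_mem, ?_⟩
    rw [one_mul]
    exact h0

end Fermat.Agent.TW.GRP.Kill3
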