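/-
Programme T (S56, Taylor–Wiles primes), chapter T/GRP, file G4 (helper3): **a regular semisimple
element in a normal subgroup with abelian quotient** (step (A2) of T10).  Mathlib + `Mat2x3` +
`TWHyp3`.

`k` a field with `2 ≠ 0`, `ρ : G →* M2 k` with `TWHyp ρ` (no common eigenvector; scalar commutant
on `G` and on every subgroup of index two), `H ⊴ G` containing all commutators.  Then

  `exists_disc2_ne_zero : ∃ h ∈ H, disc2 (ρ h) ≠ 0`,

i.e. `ρ h` has distinct eigenvalues (in `k̄`).  Application: `G = G_ℚ`, `H = G_{ℚ(ζ_{p^m})}`.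

Proof.  Otherwise every `ρ h` is `s (1 + N)` with `N² = 0`.  If all `ρ h` are scalar, every
`ρ g₁` commutes or anticommutes with every `ρ g` (commutators are scalars of determinant one),
hence is scalar (`TWHyp3.isScalar_of_comm_or_anticomm`): contradiction with `irr`.  If some
`ρ h₀ = s + N` is not scalar, the vanishing of `disc2 (ρ (h₀ʲ h))`, `j = 0, 1, 2`, gives
`tr (N ρ h) = 0`, hence `N ρ(h) N = 0` for all `h ∈ H`: the line `im N = ker N` is `H`-stable; it is
the unique eigenline of `ρ h₀`, and the same for all conjugates of `h₀`, so it is `G`-stable: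
contradiction with `irr`.
-/
import Mathlib
import Fermat.Agent.TW.GRP.TWHyp3

set_option autoImplicit false

namespace Fermat.Agent.TW.GRP.RegSS3

open Matrix Fermat.Agent.TW.GRP.Mat2x3 Fermat.Agent.TW.GRP.TWHyp3

variable {k : Type*} [Field k] {G : Type*} [Group G] {ρ : G →* M2 k}

/-- All `ρ g` scalar contradicts `irr`. -/
theorem not_forall_isScalar (hρ : TWHyp ρ) : ¬ ∀ g : G, IsScalar (ρ g) := by
  intro h
  refine hρ.irr ![1, 0] ?_ fun g => ?_
  · intro h0
    have := congrFun h0 0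
    simp at this
  · obtain ⟨x, hx⟩ := h g
    refine ⟨x, ?_⟩
    rw [hx, Matrix.smul_mulVec, Matrix.one_mulVec]

/-- Case (a): if `ρ` is scalar on `H ⊇ [G, G]`, contradiction. -/
theorem false_of_scalar_on (hρ : TWHyp ρ) (H : Subgroup G)
    (hcomm : ∀ g g' : G, g * g' * g⁻¹ * g'⁻¹ ∈ H) (hsc : ∀ h ∈ H, IsScalar (ρ h)) : False := by
  refine not_forall_isScalar hρ fun g₁ => ?_
  refine isScalar_of_comm_or_anticomm hρ (ρ g₁) fun g => ?_
  obtain ⟨x, hx⟩ := hsc _ (hcomm g g₁)
  -- `ρ g ρ g₁ = x • ρ g₁ ρ g`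
  have h1 : ρ g * ρ g₁ = x • (ρ g₁ * ρ g) := by
    have : ρ (g * g₁ * g⁻¹ * g₁⁻¹) * (ρ g₁ * ρ g) = ρ g * ρ g₁ := by
      simp only [← map_mul]
      congr 1
      group
    rw [← this, hx, Matrix.smul_mul, Matrix.one_mul]
  -- `x² = 1`
  have hdet : x ^ 2 = 1 := by
    have h2 := congrArg Matrix.det hx
    rw [map_mul, map_mul, map_mul, Matrix.det_mul, Matrix.det_mul, Matrix.det_mul,
      Matrix.det_smul, Matrix.det_one, Fintype.card_fin, mul_one] at h2
    rw [← h2]
    linear_combination (ρ g₁).det * (ρ g₁⁻¹).det * det_mul_det_inv ρ g + det_mul_det_inv ρ g₁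
  rcases sq_eq_one_iff_of_ne_zero' hdet with h | h
  · left; rw [h1, h, one_smul]
  · right; rw [h1, h, neg_smul, one_smul]
where
  sq_eq_one_iff_of_ne_zero' {x : k} (h : x ^ 2 = 1) : x = 1 ∨ x = -1 := by
    have : (x - 1) * (x + 1) = 0 := by linear_combination h
    rcases mul_eq_zero.mp this with h | h
    · left; exact sub_eq_zero.mp h
    · right; exact eq_neg_of_add_eq_zero_left h

/-- **(A2)** A normal subgroup containing the commutators contains an element with non-zero
disc2iminant. -/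
theorem exists_disc2_ne_zero (h2 : (2 : k) ≠ 0) (hρ : TWHyp ρ) (H : Subgroup G) [hn : H.Normal]
    (hcomm : ∀ g g' : G, g * g' * g⁻¹ * g'⁻¹ ∈ H) : ∃ h ∈ H, disc2 (ρ h) ≠ 0 := by
  by_contra hcon
  push Not at hcon
  by_cases hsc : ∀ h ∈ H, IsScalar (ρ h)
  · exact false_of_scalar_on hρ H hcomm hsc
  push Not at hsc
  obtain ⟨h₀, hh₀, hns⟩ := hsc
  set u : M2 k := ρ h₀ with hu
  set s : k := u.trace / 2 with hs
  set N : M2 k := u - s • (1 : M2 k) with hN
  have hNN : N * N = 0 := nilp_sq h2 (hcon h₀ hh₀)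
  have hN0 : N ≠ 0 := by
    intro h0
    apply hns
    refine ⟨s, ?_⟩
    have : u - s • (1 : M2 k) = 0 := h0
    exact sub_eq_zero.mp this
  have hNtr : N.trace = 0 := trace_sub_half h2 u
  have hNdet : N.det = 0 := by
    have h1 := mul_self_of_trace_eq_zero hNtr
    rw [hNN] at h1
    have h2' := congrFun (congrFun h1 0) 0
    simpa using h2'.symm
  have hueq : u = s • (1 : M2 k) + N := by rw [hN]; abel
  have hudet : u.det = s ^ 2 := by
    have := hcon h₀ hh₀
    rw [disc2] at this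
    rw [hs]
    field_simp
    linear_combination -this
  have hs0 : s ≠ 0 := by
    intro h0
    have := det_ne_zero ρ h₀
    rw [← hu, hudet, h0] at this
    exact this (by ring)
  -- the trace trick
  have htrick : ∀ h ∈ H, (N * ρ h).trace = 0 := by
    intro h hh
    set x : M2 k := ρ h with hx
    have E0 := hcon h hh
    have E1 := hcon (h₀ * h) (H.mul_mem hh₀ hh)
    have E2 := hcon (h₀ * h₀ * h) (H.mul_mem (H.mul_mem hh₀ hh₀) hh)
    rw [disc2] at E0 E1 E2
    have hux : ρ (h₀ * h) = s • x + N * x := by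
      rw [map_mul, ← hu, hueq, Matrix.add_mul, Matrix.smul_mul, Matrix.one_mul]
    have huux : ρ (h₀ * h₀ * h) = s ^ 2 • x + (2 * s) • (N * x) := by
      rw [map_mul, map_mul, ← hu]
      have : u * u = s ^ 2 • (1 : M2 k) + (2 * s) • N := by
        rw [hueq, Matrix.add_mul, Matrix.mul_add, Matrix.mul_add, hNN]
        simp only [Matrix.smul_mul, Matrix.mul_smul, Matrix.one_mul, Matrix.mul_one, smul_smul]
        module
      rw [this, Matrix.add_mul, Matrix.smul_mul, Matrix.smul_mul, Matrix.one_mul]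
    have t1 : (ρ (h₀ * h)).trace = s * x.trace + (N * x).trace := by
      rw [hux, Matrix.trace_add, Matrix.trace_smul, smul_eq_mul]
    have t2 : (ρ (h₀ * h₀ * h)).trace = s ^ 2 * x.trace + 2 * s * (N * x).trace := by
      rw [huux, Matrix.trace_add, Matrix.trace_smul, Matrix.trace_smul, smul_eq_mul, smul_eq_mul]
    have d1 : (ρ (h₀ * h)).det = s ^ 2 * x.det := by
      rw [map_mul, Matrix.det_mul, ← hu, hudet]
    have d2 : (ρ (h₀ * h₀ * h)).det = s ^ 4 * x.det := by
      rw [map_mul, map_mul, Matrix.det_mul, Matrix.det_mul, ← hu, hudet]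
      ring
    rw [t1, d1] at E1
    rw [t2, d2] at E2
    have key : 2 * s ^ 2 * (N * x).trace ^ 2 = 0 := by
      linear_combination E2 - 2 * s ^ 2 * E1 + s ^ 4 * E0
    have h3 : (N * x).trace ^ 2 = 0 := by
      rcases mul_eq_zero.mp key with h | h
      · exact absurd h (mul_ne_zero h2 (pow_ne_zero 2 hs0))
      · exact h
    exact pow_eq_zero_iff (two_ne_zero) |>.mp h3
  have hNxN : ∀ h ∈ H, N * ρ h * N = 0 := by
    intro h hh
    rw [mul_mul_eq, htrick h hh, hNdet, zero_smul, zero_smul, sub_zero]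
  -- a vector spanning `im N`
  obtain ⟨e, he⟩ : ∃ e : Fin 2 → k, N *ᵥ e ≠ 0 := by
    by_contra hall
    push Not at hall
    apply hN0
    ext i j
    have := congrFun (hall (Pi.single j 1)) i
    simpa using this
  set v : Fin 2 → k := N *ᵥ e with hv
  have hNv : N *ᵥ v = 0 := by
    rw [hv, Matrix.mulVec_mulVec, hNN, Matrix.zero_mulVec]
  -- `v` is an eigenvector of `ρ h`, `h ∈ H`
  have hH : ∀ h ∈ H, ∃ c : k, ρ h *ᵥ v = c • v := by
    intro h hh
    refine proportional_of_mulVec_eq_zero hN0 he hNv ?_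
    rw [hv, Matrix.mulVec_mulVec, Matrix.mulVec_mulVec, hNxN h hh, Matrix.zero_mulVec]
  -- `v` is an eigenvector of every `ρ g`
  refine hρ.irr v he fun g => ?_
  have hmem : g⁻¹ * h₀ * g ∈ H := by
    have := hn.conj_mem h₀ hh₀ g⁻¹
    rwa [inv_inv] at this
  obtain ⟨c, hc⟩ := hH _ hmem
  set w : Fin 2 → k := ρ g *ᵥ v with hw
  have hw0 : w ≠ 0 := mulVec_ne_zero ρ g he
  -- `u w = c w`
  have huw : u *ᵥ w = c • w := by
    have : ρ g * ρ (g⁻¹ * h₀ * g) = u * ρ g := by
      rw [hu, ← map_mul, ← map_mul]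
      congr 1
      group
    rw [hw, Matrix.mulVec_mulVec, ← this, ← Matrix.mulVec_mulVec, hc, Matrix.mulVec_smul]
  -- `N w = (c - s) w`
  have hNw : N *ᵥ w = (c - s) • w := by
    rw [hN, Matrix.sub_mulVec, huw, Matrix.smul_mulVec, Matrix.one_mulVec, sub_smul]
  have hcs : c = s := by
    have h0 : N *ᵥ (N *ᵥ w) = 0 := by rw [Matrix.mulVec_mulVec, hNN, Matrix.zero_mulVec]
    rw [hNw, Matrix.mulVec_smul, hNw, smul_smul] at h0
    have : (c - s) * (c - s) = 0 := by
      by_contra hne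
      exact hw0 ((smul_eq_zero.mp h0).resolve_left hne)
    exact sub_eq_zero.mp (mul_self_eq_zero.mp this)
  rw [hcs, sub_self, zero_smul] at hNw
  exact proportional_of_mulVec_eq_zero hN0 he hNv hNw

end Fermat.Agent.TW.GRP.RegSS3
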