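/-
Programme T (S56, Taylor–Wiles primes), chapter T/GRP, file G9 (helper3): **selection of the element**
`σ` whose Frobenius primes kill a given dual Selmer class — the group-theoretic heart of the choice of
Taylor–Wiles primes.  Mathlib + `Coc3`, `AdZero3`, `RegSS3`, `Kill3`.

* `MatrixH1Vanishing ρ c` : the only input left to Phase 2 (`H¹(ρ(G), ad⁰ρ ⊗ c) = 0`, raw form);
* `adSl_eq_one` : `ker ρ ∩ ker c` acts trivially;
* `eq_zero_on_ker`, `isCob_of_vanish_on_inter` : a cocycle vanishing on `ker ρ ∩ H` (`H ⊴ G`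
  containing the commutators) vanishes on `ker ρ`, hence is a coboundary under `MatrixH1Vanishing`;
* `exists_element` : for `ψ` not a coboundary there is `σ ∈ H` with `disc2 (ρ σ) ≠ 0` and
  `ψ σ ∉ range (adSl ρ c σ - 1)`.
-/
import Mathlib
import Fermat.Agent.TW.GRP.Coc3
import Fermat.Agent.TW.GRP.AdZero3
import Fermat.Agent.TW.GRP.RegSS3
import Fermat.Agent.TW.GRP.Kill3

set_option autoImplicit false

namespace Fermat.Agent.TW.GRP.VanReduce3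

open Matrix Fermat.Agent.TW.GRP.Mat2x3 Fermat.Agent.TW.GRP.TWHyp3 Fermat.Agent.TW.GRP.Irred3
  Fermat.Agent.TW.GRP.AdZero3 Fermat.Agent.TW.GRP.Coc3

variable {k : Type*} [Field k] {G : Type*} [Group G] {ρ : G →* M2 k} {c : G →* kˣ}

/-- **The remaining Phase-2 input** of the chapter: `H¹(ρ(G), ad⁰ρ ⊗ c) = 0`, in the raw form
"every cocycle of `G` vanishing on `ker ρ` is a coboundary". -/
def MatrixH1Vanishing (ρ : G →* M2 k) (c : G →* kˣ) : Prop :=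
  ∀ f : G → slM k, IsCoc (adSl ρ c) f → (∀ g : G, ρ g = 1 → f g = 0) → IsCob (adSl ρ c) f

/-- The twisted adjoint action of an element of `ker ρ ∩ ker c` is trivial. -/
theorem adSl_eq_one {τ : G} (hρτ : ρ τ = 1) (hcτ : c τ = 1) : adSl ρ c τ = 1 := by
  have hinv : ρ τ⁻¹ = 1 := by
    have := TWHyp3.inv_mul_eq_one ρ τ
    rwa [hρτ, Matrix.mul_one] at this
  refine LinearMap.ext fun A => Subtype.ext ?_
  rw [adSl_apply_coe, hρτ, hinv, hcτ, Units.val_one, one_smul, Matrix.one_mul, Matrix.mul_one,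
    Module.End.one_apply]

/-- **Reduction of the vanishing hypothesis**: a cocycle vanishing on `ker ρ ∩ H`, `H ⊴ G`
containing the commutators, already vanishes on `ker ρ`; hence it is a coboundary as soon as
`MatrixH1Vanishing ρ c` holds. -/
theorem eq_zero_on_ker (h2 : (2 : k) ≠ 0) (hρ : TWHyp ρ) (hc : ∀ g : G, ρ g = 1 → c g = 1)
    (H : Subgroup G) (hcomm : ∀ g g' : G, g * g' * g⁻¹ * g'⁻¹ ∈ H)
    {f : G → slM k} (hf : IsCoc (adSl ρ c) f) (hfH : ∀ τ ∈ H, ρ τ = 1 → f τ = 0)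
    {τ : G} (hτ : ρ τ = 1) : f τ = 0 := by
  apply adSl_fixed_eq_zero (ρ := ρ) (c := c) h2 hρ
  intro g
  have hκρ : ρ (g * τ * g⁻¹ * τ⁻¹) = 1 := by
    have hinv : ρ τ⁻¹ = 1 := by
      have := TWHyp3.inv_mul_eq_one ρ τ
      rwa [hτ, Matrix.mul_one] at this
    rw [map_mul, map_mul, map_mul, hτ, hinv, Matrix.mul_one, Matrix.mul_one,
      TWHyp3.mul_inv_eq_one]
  refine hf.map_fixed_of_comm (κ := g * τ * g⁻¹ * τ⁻¹) (by group)
    (hfH _ (hcomm g τ) hκρ) (adSl_eq_one hκρ (hc _ hκρ)) (adSl_eq_one hτ (hc _ hτ))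

theorem isCob_of_vanish_on_inter (h2 : (2 : k) ≠ 0) (hρ : TWHyp ρ)
    (hc : ∀ g : G, ρ g = 1 → c g = 1) (hvan : MatrixH1Vanishing ρ c)
    (H : Subgroup G) (hcomm : ∀ g g' : G, g * g' * g⁻¹ * g'⁻¹ ∈ H)
    {f : G → slM k} (hf : IsCoc (adSl ρ c) f) (hfH : ∀ τ ∈ H, ρ τ = 1 → f τ = 0) :
    IsCob (adSl ρ c) f :=
  hvan f hf fun _ hτ => eq_zero_on_ker h2 hρ hc H hcomm hf hfH hτ


/-- A matrix with non-zero `disc2` is not scalar. -/
theorem not_isScalar_of_disc2_ne_zero {M : M2 k} (hd : disc2 M ≠ 0) : ¬ IsScalar M := by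
  rintro ⟨x, rfl⟩
  apply hd
  simp [disc2]
  ring

/-- **Selection of the element** (group-theoretic heart of the choice of Taylor–Wiles primes):
`H ⊴ G` contains the commutators and `c = 1` on `H`; then for every cocycle `ψ` of `ad⁰ρ ⊗ c`
which is not a coboundary there is `σ ∈ H` with `ρ σ` regular semisimple and
`ψ σ ∉ (σ - 1) ad⁰ρ`. -/
theorem exists_element (h2 : (2 : k) ≠ 0) (hρ : TWHyp ρ)
    (hc : ∀ g : G, ρ g = 1 → c g = 1) (hvan : MatrixH1Vanishing ρ c)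
    (H : Subgroup G) [hn : H.Normal] (hcomm : ∀ g g' : G, g * g' * g⁻¹ * g'⁻¹ ∈ H)
    (hcH : ∀ h ∈ H, c h = 1)
    {ψ : G → slM k} (hψ : IsCoc (adSl ρ c) ψ) (hnb : ¬ IsCob (adSl ρ c) ψ) :
    ∃ σ ∈ H, disc2 (ρ σ) ≠ 0 ∧ ψ σ ∉ LinearMap.range (adSl ρ c σ - 1) := by
  obtain ⟨σ₀, hσ₀H, hσ₀⟩ := RegSS3.exists_disc2_ne_zero h2 hρ H hcomm
  -- the normal subgroup `K = H ⊓ ker ρ`
  let K : Subgroup G := H ⊓ ρ.ker
  have hKn : K.Normal := Subgroup.normal_inf_normal H ρ.ker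
  have hKmem : ∀ τ, τ ∈ K ↔ τ ∈ H ∧ ρ τ = 1 := fun τ => by
    rw [Subgroup.mem_inf, MonoidHom.mem_ker]
  obtain ⟨τ, hτK, haτ, hτ⟩ := Kill3.exists_killing_element (adSl ρ c)
    (fun U hU => adSl_irreducible h2 hρ U hU) K
    (fun τ hτ => adSl_eq_one ((hKmem τ).mp hτ).2 (hc τ ((hKmem τ).mp hτ).2))
    (fun f hf hfK => isCob_of_vanish_on_inter h2 hρ hc hvan H hcomm hf
      fun τ hτH hτρ => hfK τ ((hKmem τ).mpr ⟨hτH, hτρ⟩))
    σ₀ (range_ne_top h2 (not_isScalar_of_disc2_ne_zero hσ₀) (hcH σ₀ hσ₀H)) hψ hnb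
  obtain ⟨hτH, hτρ⟩ := (hKmem τ).mp hτK
  refine ⟨τ * σ₀, H.mul_mem hτH hσ₀H, ?_, hτ⟩
  rw [map_mul, hτρ, Matrix.one_mul]
  exact hσ₀

end Fermat.Agent.TW.GRP.VanReduce3
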