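/-
Programme T (S56, Taylor–Wiles primes), chapter T/GRP, file G7 (helper3): **Chebotarev glue**.
Mathlib + `ES/Q58/Cheb2Sided12` (two-sided generator form of Chebotarev at finite level) +
`VanReduce3`.

* `inv_mul_fixes` : `g`, `h` agreeing on `L` ⇒ `g⁻¹ * h` fixes `L`;
* `exists_frobenius` : if `ρ`, `c`, the subgroup `H` and the cocycle `ψ` all have finite level and
  `σ ∈ H` has `disc2 (ρ σ) ≠ 0`, `ψ σ ∉ range (adSl ρ c σ - 1)`, then outside any finite set `T`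
  there are a prime `q`, a place `P | q` and a Frobenius element `φ` at `P` with the same three
  properties.  (Only `⟨φ|_L⟩ = ⟨σ|_L⟩` is available; the three properties are invariant under
  replacing `σ` by a generator of the same cyclic group: `disc2_pow`, `IsCoc.map_pow_eq`.)
-/
import Mathlib
import Fermat.Agent.ES.Q58.Cheb2Sided12
import Fermat.Agent.TW.GRP.VanReduce3

set_option autoImplicit false

namespace Fermat.Agent.TW.GRP.ChebGlue3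

open Matrix Fermat.Agent.TW.GRP.Mat2x3 Fermat.Agent.TW.GRP.TWHyp3 Fermat.Agent.TW.GRP.Irred3
  Fermat.Agent.TW.GRP.AdZero3 Fermat.Agent.TW.GRP.Coc3 Fermat.Agent.TW.GRP.VanReduce3

local notation "Qb" => AlgebraicClosure ℚ
local notation "GQ" => (AlgebraicClosure ℚ ≃ₐ[ℚ] AlgebraicClosure ℚ)

variable {k : Type*} [Field k]

/-- `g⁻¹ * h` fixes `L` pointwise when `g` and `h` agree on `L`. -/
theorem inv_mul_fixes {L : IntermediateField ℚ Qb} {g h : GQ} (hgh : ∀ x ∈ L, g x = h x) :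
    ∀ x ∈ L, (g⁻¹ * h) x = x := by
  intro x hx
  rw [AlgEquiv.mul_apply, ← hgh x hx, ← AlgEquiv.mul_apply, inv_mul_cancel, AlgEquiv.one_apply]

/-- **Chebotarev glue**: the properties of the selected element `σ` are inherited by a Frobenius
element at some prime outside any given finite set. -/
theorem exists_frobenius (h2 : (2 : k) ≠ 0) (ρ : GQ →* M2 k) (c : GQ →* kˣ)
    (hρL : ∃ L : IntermediateField ℚ Qb, FiniteDimensional ℚ L ∧
      ∀ σ : GQ, (∀ x ∈ L, σ x = x) → ρ σ = 1)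
    (hcL : ∃ L : IntermediateField ℚ Qb, FiniteDimensional ℚ L ∧
      ∀ σ : GQ, (∀ x ∈ L, σ x = x) → c σ = 1)
    (H : Subgroup GQ)
    (hHL : ∃ L : IntermediateField ℚ Qb, FiniteDimensional ℚ L ∧
      ∀ σ : GQ, (∀ x ∈ L, σ x = x) → σ ∈ H)
    {ψ : GQ → slM k} (hψ : IsCoc (adSl ρ c) ψ)
    (hψL : ∃ L : IntermediateField ℚ Qb, FiniteDimensional ℚ L ∧
      ∀ σ : GQ, (∀ x ∈ L, σ x = x) → ψ σ = 0)
    {σ : GQ} (hσH : σ ∈ H) (hσd : disc2 (ρ σ) ≠ 0)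
    (hσψ : ψ σ ∉ LinearMap.range (adSl ρ c σ - 1)) (T : Finset ℕ) :
    ∃ (q : ℕ) (P : ValuationSubring Qb) (φ : GQ), q.Prime ∧ q ∉ T ∧ P.LiesOverPrime q ∧
      P.IsFrobeniusAt φ q ∧ φ ∈ H ∧ disc2 (ρ φ) ≠ 0 ∧
      ψ φ ∉ LinearMap.range (adSl ρ c φ - 1) := by
  obtain ⟨L₁, hL₁, h₁⟩ := hρL
  obtain ⟨L₂, hL₂, h₂⟩ := hcL
  obtain ⟨L₃, hL₃, h₃⟩ := hHL
  obtain ⟨L₄, hL₄, h₄⟩ := hψL
  let L : IntermediateField ℚ Qb := L₁ ⊔ L₂ ⊔ L₃ ⊔ L₄
  have : FiniteDimensional ℚ L := by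
    have : FiniteDimensional ℚ ↥(L₁ ⊔ L₂) := IntermediateField.finiteDimensional_sup L₁ L₂
    have : FiniteDimensional ℚ ↥(L₁ ⊔ L₂ ⊔ L₃) := IntermediateField.finiteDimensional_sup _ L₃
    exact IntermediateField.finiteDimensional_sup _ L₄
  have le₁ : L₁ ≤ L := le_sup_left.trans (le_sup_left.trans le_sup_left)
  have le₂ : L₂ ≤ L := le_sup_right.trans (le_sup_left.trans le_sup_left)
  have le₃ : L₃ ≤ L := le_sup_right.trans le_sup_left
  have le₄ : L₄ ≤ L := le_sup_right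
  obtain ⟨q, P, φ, i, j, hq, hqT, hP, hφ, hj, hi⟩ :=
    Fermat.Agent.ES.Q58.Cheb2Sided12.exists_frobenius_pow_eq_on_both L σ T
  refine ⟨q, P, φ, hq, hqT, hP, hφ, ?_, ?_, ?_⟩
  · -- `φ = σ ^ i * η₂`
    have hη : ∀ x ∈ L, ((σ ^ i)⁻¹ * φ) x = x := inv_mul_fixes hi
    have : φ = σ ^ i * ((σ ^ i)⁻¹ * φ) := by group
    rw [this]
    exact H.mul_mem (H.pow_mem hσH i) (h₃ _ fun x hx => hη x (le₃ hx))
  · -- `ρ σ = ρ φ ^ j`
    have hη : ∀ x ∈ L, ((φ ^ j)⁻¹ * σ) x = x := inv_mul_fixes hj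
    have e : σ = φ ^ j * ((φ ^ j)⁻¹ * σ) := by group
    have hρσ : ρ σ = ρ φ ^ j := by
      rw [e, map_mul, h₁ _ fun x hx => hη x (le₁ hx), mul_one, map_pow]
    intro h0
    apply hσd
    rw [hρσ]
    exact disc2_pow h2 h0 j
  · rintro ⟨w, hw⟩
    apply hσψ
    have hη : ∀ x ∈ L, ((φ ^ j)⁻¹ * σ) x = x := inv_mul_fixes hj
    have e : σ = φ ^ j * ((φ ^ j)⁻¹ * σ) := by group
    have hw' : ψ φ = adSl ρ c φ w - w := by
      rw [← hw, LinearMap.sub_apply, Module.End.one_apply]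
    have hpow := hψ.map_pow_eq hw' j
    have hη1 : adSl ρ c ((φ ^ j)⁻¹ * σ) = 1 :=
      adSl_eq_one (h₁ _ fun x hx => hη x (le₁ hx)) (h₂ _ fun x hx => hη x (le₂ hx))
    have haσ : adSl ρ c σ = adSl ρ c (φ ^ j) := by
      conv_lhs => rw [e, map_mul, hη1, mul_one]
    have hψσ : ψ σ = ψ (φ ^ j) := by
      conv_lhs => rw [e]
      exact hψ.map_mul_right_of_eq_zero _ (h₄ _ fun x hx => hη x (le₄ hx))
    refine ⟨w, ?_⟩
    rw [LinearMap.sub_apply, Module.End.one_apply, haσ, hψσ, hpow]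

end Fermat.Agent.TW.GRP.ChebGlue3
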