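/-
Programme T (S56, Taylor–Wiles primes), chapter T/GRP, file G8 (helper3): **the inductive choice**
of the Taylor–Wiles primes, as pure linear algebra.  Mathlib only.

* `finrank_le_inf_ker_add_one` : `D ⊓ ker L` has codimension `≤ 1` in `D` if `dim (target L) ≤ 1`;
* `exists_family` : candidates `c : Q` with labels `lab c : ℕ` and hyperplane conditions `Z c`
  (each cutting any `D` by at most one dimension); if every non-zero `ψ ∈ D` is missed by some
  `Z c` with label outside any given finite set, then there are `r = dim D` candidates with
  pairwise distinct labels outside `T` whose conditions cut `D` down to `0`.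
-/
import Mathlib

set_option autoImplicit false

namespace Fermat.Agent.TW.GRP.Induct3

open Module

variable {k X : Type*} [Field k] [AddCommGroup X] [Module k X]

/-- `D ⊓ ker L` has codimension at most one in `D` when the target of `L` has dimension `≤ 1`. -/
theorem finrank_le_inf_ker_add_one {Y : Type*} [AddCommGroup Y] [Module k Y] [Module.Finite k Y]
    (hY : finrank k Y ≤ 1) (L : X →ₗ[k] Y) (D : Submodule k X) [FiniteDimensional k D] :
    finrank k D ≤ finrank k ↥(D ⊓ LinearMap.ker L) + 1 := by
  have h1 := LinearMap.finrank_range_add_finrank_ker (L.domRestrict D)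
  have h2 : finrank k (LinearMap.range (L.domRestrict D)) ≤ 1 :=
    (Submodule.finrank_le _).trans hY
  have h3 : finrank k ↥(D ⊓ LinearMap.ker L) = finrank k (LinearMap.ker (L.domRestrict D)) := by
    rw [LinearMap.ker_domRestrict, ← Submodule.map_comap_subtype,
      Submodule.finrank_map_subtype_eq]
  omega

/-- **Inductive choice** of a family of candidates cutting a finite-dimensional space `D` down to
zero, one dimension at a time, with pairwise distinct labels outside a given finite set. -/
theorem exists_family {Q : Type*} (lab : Q → ℕ) (Z : Q → Submodule k X)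
    (hZ : ∀ (c : Q) (D : Submodule k X), FiniteDimensional k D →
      finrank k D ≤ finrank k ↥(D ⊓ Z c) + 1) :
    ∀ (r : ℕ) (D : Submodule k X), FiniteDimensional k D → finrank k D = r →
      (∀ (T : Finset ℕ), ∀ ψ ∈ D, ψ ≠ 0 → ∃ c : Q, lab c ∉ T ∧ ψ ∉ Z c) →
      ∀ T : Finset ℕ, ∃ cs : Fin r → Q, Function.Injective (fun i => lab (cs i)) ∧
        (∀ i, lab (cs i) ∉ T) ∧ ∀ f ∈ D, (∀ i, f ∈ Z (cs i)) → f = 0 := by
  intro r
  induction r with
  | zero =>
    intro D hD hr _ T
    refine ⟨Fin.elim0, fun i => i.elim0, fun i => i.elim0, fun f hf _ => ?_⟩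
    have : D = ⊥ := Submodule.finrank_eq_zero.mp hr
    rw [this] at hf
    exact (Submodule.mem_bot k).mp hf
  | succ r ih =>
    intro D hD hr hex T
    have hne : D ≠ ⊥ := by
      intro h
      rw [h, finrank_bot] at hr
      omega
    obtain ⟨ψ, hψD, hψ0⟩ := Submodule.exists_mem_ne_zero_of_ne_bot hne
    obtain ⟨c₀, hc₀T, hψZ⟩ := hex T ψ hψD hψ0
    set D' : Submodule k X := D ⊓ Z c₀ with hD'
    have hle : D' ≤ D := inf_le_left
    have hD'fin : FiniteDimensional k D' := Submodule.finiteDimensional_of_le hle
    have hlt : D' < D := lt_of_le_of_ne hle fun h => hψZ (by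
      have : ψ ∈ D' := h ▸ hψD
      exact this.2)
    have h1 : finrank k D' < finrank k D := Submodule.finrank_lt_finrank_of_lt hlt
    have h2 : finrank k D ≤ finrank k D' + 1 := hZ c₀ D hD
    have hr' : finrank k D' = r := by omega
    obtain ⟨cs', hinj, hT', hkill⟩ := ih D' hD'fin hr'
      (fun T ψ hψ hψ0 => hex T ψ (hle hψ) hψ0) (insert (lab c₀) T)
    refine ⟨Fin.cons c₀ cs', ?_, ?_, ?_⟩
    · intro i j hij
      induction i using Fin.cases with
      | zero =>
        induction j using Fin.cases with
        | zero => rfl
        | succ j' =>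
          exfalso
          simp only [Fin.cons_zero, Fin.cons_succ] at hij
          exact hT' j' (hij ▸ Finset.mem_insert_self _ _)
      | succ i' =>
        induction j using Fin.cases with
        | zero =>
          exfalso
          simp only [Fin.cons_zero, Fin.cons_succ] at hij
          exact hT' i' (hij ▸ Finset.mem_insert_self _ _)
        | succ j' =>
          simp only [Fin.cons_succ] at hij
          rw [hinj hij]
    · intro i
      refine Fin.cases ?_ (fun i' => ?_) i
      · simpa using hc₀T
      · have := hT' i'
        simp only [Fin.cons_succ]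
        exact fun h => this (Finset.mem_insert_of_mem h)
    · intro f hf hall
      have h0 : f ∈ Z c₀ := by simpa using hall 0
      refine hkill f ⟨hf, h0⟩ fun i => ?_
      simpa using hall i.succ

end Fermat.Agent.TW.GRP.Induct3
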