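/-
Programme T (S56, Taylor–Wiles primes), chapter T/GRP, file G10 (helper3): **existence of
Taylor–Wiles primes** — assembly of the chapter.  Mathlib + Prelude + `Bridge3`, `CycSub3`,
`VanReduce3`, `ChebGlue3`, `PlaceConj3`, `Induct3`.

* `adOne ρbar` : `ad⁰ρ̄(1)` in matrix form (`adSl (rhoM ρbar) (detU (rhoM ρbar))`);
* `exists_prime_for` : one prime for one class (selection of the element + Chebotarev);
* `disc2_frob_indep`, `detU_frob_indep`, `mem_range_frob_indep` : independence of the place and of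
  the Frobenius element at an unramified prime;
* `condZ`, `finrank_le_condZ` : the local condition at a Taylor–Wiles prime is a hyperplane
  condition;
* `exists_tw_primes`, `exists_tw_primes_charpoly` : the main theorem.  The only hypothesis not
  coming from the S56 statement is `MatrixH1Vanishing (rhoM ρbar) (detU (rhoM ρbar))`
  (`H¹(ρ̄(G_ℚ), ad⁰ρ̄(1)) = 0`; Phase 2 of the chapter);
* `unramified_of_hmin`.
-/
import Mathlib
import Fermat.Agent.TW.GRP.Bridge3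
import Fermat.Agent.TW.GRP.CycSub3
import Fermat.Agent.TW.GRP.VanReduce3
import Fermat.Agent.TW.GRP.ChebGlue3
import Fermat.Agent.TW.GRP.PlaceConj3
import Fermat.Agent.TW.GRP.Induct3

set_option autoImplicit false

namespace Fermat.Agent.TW.GRP.Main3

open Matrix Module Fermat.Agent.TW.GRP.Mat2x3 Fermat.Agent.TW.GRP.TWHyp3 Fermat.Agent.TW.GRP.Irred3
  Fermat.Agent.TW.GRP.AdZero3 Fermat.Agent.TW.GRP.Coc3 Fermat.Agent.TW.GRP.VanReduce3
  Fermat.Agent.TW.GRP.Bridge3 Fermat.Agent.TW.GRP.CycSub3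

local notation "Qb" => AlgebraicClosure ℚ
local notation "GQ" => (AlgebraicClosure ℚ ≃ₐ[ℚ] AlgebraicClosure ℚ)

variable (p : ℕ) [hp : Fact p.Prime] {k : Type} [Field k] (ρbar : ResidualGaloisRep k)

/-- The Galois module `ad⁰ρ̄(1)` in matrix form: trace-zero matrices with the action
`A ↦ det ρ̄(σ) • ρ̄(σ) A ρ̄(σ)⁻¹`. -/
noncomputable abbrev adOne : Representation k GQ (slM k) :=
  adSl (rhoM ρbar) (detU (rhoM ρbar))

theorem detU_eq_one_of_rhoM_eq_one {g : GQ} (h : rhoM ρbar g = 1) :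
    detU (rhoM ρbar) g = 1 := by
  rw [detU_eq_one_iff, h, Matrix.det_one]

/-- **Step A**: one prime for one class. -/
theorem exists_prime_for (hp2 : p ≠ 2) (habs : ρbar.IsAbsolutelyIrreducible)
    (hdet : (GaloisRepAdic.ofResidualGaloisRep ρbar).DetIsCyclotomic p)
    (hTW : ∀ (K : Type) [Field K] [Algebra k K] (G : Subgroup GQ), G.index = 2 →
      ∀ V : Submodule K (ρbar.baseChange K).V,
        (∀ σ ∈ G, ∀ x ∈ V, (ρbar.baseChange K).ρ σ x ∈ V) → V = ⊥ ∨ V = ⊤)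
    (hvan : MatrixH1Vanishing (rhoM ρbar) (detU (rhoM ρbar)))
    {ψ : GQ → slM k} (hψ : IsCoc (adOne ρbar) ψ)
    (hψL : ∃ L : IntermediateField ℚ Qb, FiniteDimensional ℚ L ∧
      ∀ σ : GQ, (∀ x ∈ L, σ x = x) → ψ σ = 0)
    (hnb : ¬ IsCob (adOne ρbar) ψ) {m : ℕ} (hm : 1 ≤ m) (T : Finset ℕ) :
    ∃ (q : ℕ) (P : ValuationSubring Qb) (φ : GQ), q.Prime ∧ q ∉ T ∧ P.LiesOverPrime q ∧
      P.IsFrobeniusAt φ q ∧ φ ∈ Hm p m ∧ disc2 (rhoM ρbar φ) ≠ 0 ∧
      ψ φ ∉ LinearMap.range (adOne ρbar φ - 1) := by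
  have h2 : (2 : k) ≠ 0 := two_ne_zero_of p ρbar hp2 hdet
  have hρ : TWHyp (rhoM ρbar) := twHyp ρbar habs hTW
  obtain ⟨σ, hσH, hσd, hσψ⟩ := exists_element h2 hρ
    (fun g hg => detU_eq_one_of_rhoM_eq_one ρbar hg) hvan (Hm p m) (commutator_mem_Hm p m)
    (fun h hh => detU_eq_one_of_mem_Hm p ρbar hdet hm hh) hψ hnb
  obtain ⟨L, hL, hLρ⟩ := rhoM_finiteLevel ρbar
  exact ChebGlue3.exists_frobenius h2 (rhoM ρbar) (detU (rhoM ρbar)) ⟨L, hL, hLρ⟩
    ⟨L, hL, fun σ hσ => detU_eq_one_of_rhoM_eq_one ρbar (hLρ σ hσ)⟩ (Hm p m)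
    (Hm_finiteLevel p m) hψ hψL hσH hσd hσψ T


/-! ### independence of the Frobenius element -/

section Indep

variable {ρbar}
variable {q : ℕ} (hq : q.Prime) (hρq : ρbar.IsUnramifiedAt q) {V V' : ValuationSubring Qb}
  (hV : V.LiesOverPrime q) (hV' : V'.LiesOverPrime q) {φ φ' : GQ}
  (hφ : V.IsFrobeniusAt φ q) (hφ' : V'.IsFrobeniusAt φ' q)

include hq hρq hV hV' hφ hφ'

theorem disc2_frob_indep : disc2 (rhoM ρbar φ') = disc2 (rhoM ρbar φ) := by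
  obtain ⟨g, ι, hι, rfl⟩ := PlaceConj3.exists_conj_frobenius hq hV hV' hφ hφ'
  rw [map_mul, rhoM_inertia ρbar hρq V' hV' hι, one_mul, map_mul, map_mul]
  exact disc2_conj _ _ _ (TWHyp3.mul_inv_eq_one _ g)

theorem detU_frob_indep : detU (rhoM ρbar) φ' = detU (rhoM ρbar) φ := by
  obtain ⟨g, ι, hι, rfl⟩ := PlaceConj3.exists_conj_frobenius hq hV hV' hφ hφ'
  rw [map_mul, detU_eq_one_of_rhoM_eq_one ρbar (rhoM_inertia ρbar hρq V' hV' hι), one_mul,
    map_mul, map_mul, map_inv, mul_inv_cancel_comm]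

theorem mem_range_frob_indep {f : GQ → slM k} (hf : IsCoc (adOne ρbar) f)
    (hfI : ∀ ι ∈ V'.inertiaSubgroupIn ℚ, f ι = 0) :
    f φ' ∈ LinearMap.range (adOne ρbar φ' - 1) ↔ f φ ∈ LinearMap.range (adOne ρbar φ - 1) := by
  obtain ⟨g, ι, hι, rfl⟩ := PlaceConj3.exists_conj_frobenius hq hV hV' hφ hφ'
  have hρι := rhoM_inertia ρbar hρq V' hV' hι
  rw [PlaceConj3.mem_range_mul_left_iff hf (hfI ι hι)
    (adSl_eq_one hρι (detU_eq_one_of_rhoM_eq_one ρbar hρι)), PlaceConj3.mem_range_conj_iff hf]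

end Indep


/-! ### the inductive choice -/

/-- The unramified condition at a Frobenius element, as a subspace of the space of functions. -/
noncomputable def condZ (φ : GQ) : Submodule k (GQ → slM k) :=
  (LinearMap.range (adOne ρbar φ - 1)).comap (LinearMap.proj φ)

theorem mem_condZ {φ : GQ} {f : GQ → slM k} :
    f ∈ condZ ρbar φ ↔ f φ ∈ LinearMap.range (adOne ρbar φ - 1) := Iff.rfl

theorem finrank_le_condZ (h2 : (2 : k) ≠ 0) {φ : GQ} (hd : disc2 (rhoM ρbar φ) ≠ 0)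
    (hc : detU (rhoM ρbar) φ = 1) (D : Submodule k (GQ → slM k)) [FiniteDimensional k D] :
    finrank k D ≤ finrank k ↥(D ⊓ condZ ρbar φ) + 1 := by
  have hY : finrank k (slM k ⧸ LinearMap.range (adOne ρbar φ - 1)) ≤ 1 :=
    (finrank_quot_range h2 (not_isScalar_of_disc2_ne_zero hd) hc).le
  have := Induct3.finrank_le_inf_ker_add_one hY
    ((LinearMap.range (adOne ρbar φ - 1)).mkQ ∘ₗ LinearMap.proj φ) D
  rwa [LinearMap.ker_comp, Submodule.ker_mkQ] at this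

/-- **Existence of Taylor–Wiles primes** (group-theoretic form, raw cocycles).

`D` is a finite-dimensional space of `1`-cocycles of `G_ℚ` with values in `ad⁰ρ̄(1)` (matrix form),
each of finite level and unramified outside `S`, containing no non-zero coboundary (so `D` maps
isomorphically onto a subspace of `H¹(G_{ℚ,S}, ad⁰ρ̄(1))`, e.g. a dual Selmer group).  Then for
every `n` there are `r = dim D` distinct primes `q_i ∉ S`, `q_i ≡ 1 mod p ^ (n + 1)`, such that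
`ρ̄(Frob)` is regular semisimple for every Frobenius element at every place above every `q_i`, and
such that no non-zero element of `D` is locally trivial at all the `q_i`. -/
theorem exists_tw_primes (hp2 : p ≠ 2) (habs : ρbar.IsAbsolutelyIrreducible)
    (hdet : (GaloisRepAdic.ofResidualGaloisRep ρbar).DetIsCyclotomic p)
    (hTW : ∀ (K : Type) [Field K] [Algebra k K] (G : Subgroup GQ), G.index = 2 →
      ∀ V : Submodule K (ρbar.baseChange K).V,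
        (∀ σ ∈ G, ∀ x ∈ V, (ρbar.baseChange K).ρ σ x ∈ V) → V = ⊥ ∨ V = ⊤)
    (hvan : MatrixH1Vanishing (rhoM ρbar) (detU (rhoM ρbar)))
    (S : Finset ℕ) (hpS : p ∈ S)
    (hρS : ∀ q : ℕ, q.Prime → q ∉ S → ρbar.IsUnramifiedAt q)
    (D : Submodule k (GQ → slM k)) [FiniteDimensional k D]
    (hcoc : ∀ f ∈ D, IsCoc (adOne ρbar) f)
    (hlev : ∀ f ∈ D, ∃ L : IntermediateField ℚ Qb, FiniteDimensional ℚ L ∧
      ∀ σ : GQ, (∀ x ∈ L, σ x = x) → f σ = 0)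
    (hur : ∀ f ∈ D, ∀ q : ℕ, q.Prime → q ∉ S → ∀ P : ValuationSubring Qb, P.LiesOverPrime q →
      ∀ ι ∈ P.inertiaSubgroupIn ℚ, f ι = 0)
    (hncob : ∀ f ∈ D, IsCob (adOne ρbar) f → f = 0) (n : ℕ) :
    ∃ qv : Fin (finrank k D) → ℕ, Function.Injective qv ∧
      (∀ i, (qv i).Prime ∧ qv i ∉ S ∧ p ^ (n + 1) ∣ qv i - 1) ∧
      (∀ i, ∀ P : ValuationSubring Qb, P.LiesOverPrime (qv i) → ∀ φ : GQ,
        P.IsFrobeniusAt φ (qv i) → disc2 (rhoM ρbar φ) ≠ 0 ∧ detU (rhoM ρbar) φ = 1) ∧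
      ∀ (P : Fin (finrank k D) → ValuationSubring Qb) (φ : Fin (finrank k D) → GQ),
        (∀ i, (P i).LiesOverPrime (qv i)) → (∀ i, (P i).IsFrobeniusAt (φ i) (qv i)) →
        ∀ f ∈ D, (∀ i, f (φ i) ∈ LinearMap.range (adOne ρbar (φ i) - 1)) → f = 0 := by
  classical
  have h2 : (2 : k) ≠ 0 := two_ne_zero_of p ρbar hp2 hdet
  have hm : 1 ≤ n + 1 := Nat.le_add_left 1 n
  -- the candidates
  let Q : Type := {x : ℕ × ValuationSubring Qb × GQ // x.1.Prime ∧ x.1 ∉ S ∧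
    x.2.1.LiesOverPrime x.1 ∧ x.2.1.IsFrobeniusAt x.2.2 x.1 ∧ x.2.2 ∈ Hm p (n + 1) ∧
    disc2 (rhoM ρbar x.2.2) ≠ 0}
  obtain ⟨cs, hinj, -, hkill⟩ := Induct3.exists_family (k := k) (X := GQ → slM k) (Q := Q)
    (fun c => c.1.1) (fun c => condZ ρbar c.1.2.2)
    (fun c D' hD' => by
      have := hD'
      exact finrank_le_condZ ρbar h2 c.2.2.2.2.2.2
        (detU_eq_one_of_mem_Hm p ρbar hdet hm c.2.2.2.2.2.1) D')
    (finrank k D) D inferInstance rfl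
    (fun T ψ hψD hψ0 => by
      obtain ⟨q, P, φ, hq, hqT, hP, hφ, hH, hd, hψφ⟩ := exists_prime_for p ρbar hp2 habs hdet hTW
        hvan (hcoc ψ hψD) (hlev ψ hψD) (fun hcb => hψ0 (hncob ψ hψD hcb)) hm (T ∪ S)
      rw [Finset.mem_union, not_or] at hqT
      exact ⟨⟨(q, P, φ), hq, hqT.2, hP, hφ, hH, hd⟩, hqT.1, hψφ⟩) ∅
  refine ⟨fun i => (cs i).1.1, hinj, fun i => ?_, fun i P hP φ hφ => ?_, ?_⟩
  · obtain ⟨hq, hqS, hP, hφ, hH, -⟩ := (cs i).2
    have hqp : (cs i).1.1 ≠ p := fun h => hqS (by rw [h]; exact hpS)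
    exact ⟨hq, hqS, dvd_sub_one_of_frobenius_mem_Hm p hq hqp _ hP hφ hH⟩
  · obtain ⟨hq, hqS, hP₀, hφ₀, hH, hd⟩ := (cs i).2
    constructor
    · rw [disc2_frob_indep hq (hρS _ hq hqS) hP₀ hP hφ₀ hφ]
      exact hd
    · rw [detU_frob_indep hq (hρS _ hq hqS) hP₀ hP hφ₀ hφ]
      exact detU_eq_one_of_mem_Hm p ρbar hdet hm hH
  · intro P φ hP hφ f hfD hall
    refine hkill f hfD fun i => ?_
    obtain ⟨hq, hqS, hP₀, hφ₀, -, -⟩ := (cs i).2
    rw [mem_condZ, ← mem_range_frob_indep hq (hρS _ hq hqS) hP₀ (hP i) hφ₀ (hφ i) (hcoc f hfD)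
      (hur f hfD _ hq hqS (P i) (hP i))]
    exact hall i


omit hp in
/-- `hmin` of S56 gives unramifiedness outside `S`. -/
theorem unramified_of_hmin {S Smin : Finset ℕ} (hpSmin : p ∈ Smin) (hSmin : Smin ⊆ S)
    (hmin : ∀ q : ℕ, q.Prime → q ≠ p → (q ∈ Smin ↔ ¬ ρbar.IsUnramifiedAt q))
    (q : ℕ) (hq : q.Prime) (hqS : q ∉ S) : ρbar.IsUnramifiedAt q := by
  have hqp : q ≠ p := fun h => hqS (hSmin (by rw [h]; exact hpSmin))
  by_contra hcon
  exact hqS (hSmin ((hmin q hq hqp).mpr hcon))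

open Polynomial in
/-- The same with the second clause in the form of the S56 statement. -/
theorem exists_tw_primes_charpoly (hp2 : p ≠ 2) (habs : ρbar.IsAbsolutelyIrreducible)
    (hdet : (GaloisRepAdic.ofResidualGaloisRep ρbar).DetIsCyclotomic p)
    (hsplit : ∀ σ : GQ, ∃ α β : k, LinearMap.charpoly (ρbar.ρ σ) = (X - C α) * (X - C β))
    (hTW : ∀ (K : Type) [Field K] [Algebra k K] (G : Subgroup GQ), G.index = 2 →
      ∀ V : Submodule K (ρbar.baseChange K).V,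
        (∀ σ ∈ G, ∀ x ∈ V, (ρbar.baseChange K).ρ σ x ∈ V) → V = ⊥ ∨ V = ⊤)
    (hvan : MatrixH1Vanishing (rhoM ρbar) (detU (rhoM ρbar)))
    (S : Finset ℕ) (hpS : p ∈ S)
    (hρS : ∀ q : ℕ, q.Prime → q ∉ S → ρbar.IsUnramifiedAt q)
    (D : Submodule k (GQ → slM k)) [FiniteDimensional k D]
    (hcoc : ∀ f ∈ D, IsCoc (adOne ρbar) f)
    (hlev : ∀ f ∈ D, ∃ L : IntermediateField ℚ Qb, FiniteDimensional ℚ L ∧
      ∀ σ : GQ, (∀ x ∈ L, σ x = x) → f σ = 0)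
    (hur : ∀ f ∈ D, ∀ q : ℕ, q.Prime → q ∉ S → ∀ P : ValuationSubring Qb, P.LiesOverPrime q →
      ∀ ι ∈ P.inertiaSubgroupIn ℚ, f ι = 0)
    (hncob : ∀ f ∈ D, IsCob (adOne ρbar) f → f = 0) (n : ℕ) :
    ∃ qv : Fin (finrank k D) → ℕ, Function.Injective qv ∧
      (∀ i, (qv i).Prime ∧ qv i ∉ S ∧ p ^ (n + 1) ∣ qv i - 1) ∧
      (∀ i, ∀ P : ValuationSubring Qb, P.LiesOverPrime (qv i) → ∀ φ : GQ,
        P.IsFrobeniusAt φ (qv i) →
          ∃ α β : k, α ≠ β ∧ LinearMap.charpoly (ρbar.ρ φ) = (X - C α) * (X - C β)) ∧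
      (∀ i, ∀ P : ValuationSubring Qb, P.LiesOverPrime (qv i) → ∀ φ : GQ,
        P.IsFrobeniusAt φ (qv i) → detU (rhoM ρbar) φ = 1) ∧
      ∀ (P : Fin (finrank k D) → ValuationSubring Qb) (φ : Fin (finrank k D) → GQ),
        (∀ i, (P i).LiesOverPrime (qv i)) → (∀ i, (P i).IsFrobeniusAt (φ i) (qv i)) →
        ∀ f ∈ D, (∀ i, f (φ i) ∈ LinearMap.range (adOne ρbar (φ i) - 1)) → f = 0 := by
  obtain ⟨qv, h1, h2, h3, h4⟩ := exists_tw_primes p ρbar hp2 habs hdet hTW hvan S hpS hρS D hcoc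
    hlev hur hncob n
  exact ⟨qv, h1, h2, fun i P hP φ hφ => exists_roots_ne ρbar hsplit (h3 i P hP φ hφ).1,
    fun i P hP φ hφ => (h3 i P hP φ hφ).2, h4⟩

end Fermat.Agent.TW.GRP.Main3
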