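/-
Programme T (S56), chapter T/GRP, Phase 2 (lead + helper3's design, msg 225), item (a) **BorelCoc**:
cocycles of a group `Γ ⊂ GL₂(k)` restricted to the unipotent radical `P` of a "Borel" subgroup `B`
(upper triangular elements) are coboundaries on `P`, provided the torus normalising `P` is large.

Setting: `ρ : Γ →* M2 k` injective, `c : Γ →* kˣ` with `c b = det ρ b` on `B`, `B ≤ Γ` with
`(ρ b) 1 0 = 0`, `P = B ⊓ unipSub ρ` (`= {g ∈ B | ρ g 0 0 = 1 ∧ ρ g 1 1 = 1}`, `mem_P_iff`),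
`u₀ ∈ P` with `x₀ = ρ u₀ 0 1 ≠ 0`.
Hypotheses:
* `(fin)` every `τ_b = ρ b 0 0 / ρ b 1 1` (`b ∈ B`) has finite order invertible in `k`;
* `(R')`  every `x u` (`u ∈ P`) lies in the additive subgroup generated by `{τ_b x₀ | b ∈ B, det ρ b = 1}`;
* `(C1')` `(3 : k) = 0`, or some `b ∈ B` has `τ_b² ≠ det ρ b`.
Conclusion `exists_primitive_on_unip`: every cocycle of `adSl ρ c` is a coboundary on `P`.
-/
import Mathlib
import Fermat.Agent.TW.GRP.CyclicCase0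

set_option autoImplicit false

namespace Fermat.Agent.TW.GRP.BorelCoc0

open Matrix
open Fermat.Agent.TW.GRP.Mat2x3 Fermat.Agent.TW.GRP.Irred3 Fermat.Agent.TW.GRP.AdZero3
open Fermat.Agent.TW.GRP.AdFormulas0 Fermat.Agent.TW.GRP.UnipCoc0 Fermat.Agent.TW.GRP.CyclicCase0
open Fermat.Agent.TW.GRP

variable {k : Type*} [Field k] {Γ : Type*} [Group Γ]
variable (ρ : Γ →* M2 k) (c : Γ →* kˣ) (B : Subgroup Γ)

/-! ### Upper triangular elements -/

theorem upper_form {b : Γ} (hb : ρ b 1 0 = 0) : ρ b = !![ρ b 0 0, ρ b 0 1; 0, ρ b 1 1] := by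
  conv_lhs => rw [Matrix.eta_fin_two (ρ b)]
  rw [hb]

theorem det_upper {b : Γ} (hb : ρ b 1 0 = 0) : (ρ b).det = ρ b 0 0 * ρ b 1 1 := by
  rw [Matrix.det_fin_two, hb, mul_zero, sub_zero]

theorem diag_ne_zero {b : Γ} (hb : ρ b 1 0 = 0) : ρ b 0 0 ≠ 0 ∧ ρ b 1 1 ≠ 0 := by
  have h := TWHyp3.det_ne_zero ρ b
  rw [det_upper ρ hb] at h
  exact ⟨left_ne_zero_of_mul h, right_ne_zero_of_mul h⟩

theorem mem_P_iff (hB : ∀ b ∈ B, ρ b 1 0 = 0) {g : Γ} :
    g ∈ B ⊓ unipSub ρ ↔ g ∈ B ∧ ρ g 0 0 = 1 ∧ ρ g 1 1 = 1 := by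
  rw [Subgroup.mem_inf, mem_unipSub]
  constructor
  · rintro ⟨hg, h⟩
    refine ⟨hg, ?_, ?_⟩
    · have := congrFun (congrFun h 0) 0
      simpa using this
    · have := congrFun (congrFun h 1) 1
      simpa using this
  · rintro ⟨hg, h0, h1⟩
    refine ⟨hg, ?_⟩
    conv_lhs => rw [upper_form ρ (hB g hg), h0, h1]

/-- The full entry formulas for the action of an upper triangular element. -/
theorem adSl_upper_00 {g : Γ} {s t y : k} (hs : s ≠ 0) (ht : t ≠ 0) (hg : ρ g = !![s, y; 0, t])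
    (A : slM k) : ((adSl ρ c g A : slM k) : M2 k) 0 0 =
      (c g : k) * ((A : M2 k) 0 0 + y * s⁻¹ * (A : M2 k) 1 0) := by
  rw [adSl_apply_coe, hg, rho_inv_upper ρ hs ht hg, coe_eq_of A, Matrix.mul_fin_two,
    Matrix.mul_fin_two]
  simp
  field_simp

theorem adSl_upper_01_of {g : Γ} {s t y : k} (hs : s ≠ 0) (ht : t ≠ 0)
    (hg : ρ g = !![s, y; 0, t]) (A : slM k) (h00 : (A : M2 k) 0 0 = 0) (h10 : (A : M2 k) 1 0 = 0) :
    ((adSl ρ c g A : slM k) : M2 k) 0 1 = (c g : k) * (s * t⁻¹ * (A : M2 k) 0 1) := by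
  rw [adSl_apply_coe, hg, rho_inv_upper ρ hs ht hg, coe_eq_of A, h00, h10, Matrix.mul_fin_two,
    Matrix.mul_fin_two]
  simp
  ring

/-! ### The lower-left coordinate vanishes (general `P`) -/

section ccvanish

variable {ρ c}
variable {P : Subgroup Γ} {x : Γ → k}
variable (hP : ∀ u ∈ P, ρ u = !![1, x u; 0, 1]) (hcP : ∀ u ∈ P, c u = 1)
variable {f : Γ → slM k} (hf : Coc3.IsCoc (adSl ρ c) f)
variable (hcomm : ∀ u ∈ P, ∀ v ∈ P, f (u * v) = f (v * u))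

include hP hcP hf hcomm in
/-- `cc u₀ = 0` if some upper triangular `g` normalising `P` at `u₀` has
`c g * (t / s) ≠ s / t`. -/
theorem cc_eq_zero_of_upper {u₀ : Γ} (hu₀ : u₀ ∈ P) (hx₀ : x u₀ ≠ 0)
    {g : Γ} {s t y : k} (hs : s ≠ 0) (ht : t ≠ 0)
    (hg : ρ g = !![s, y; 0, t]) (hgu : g * u₀ * g⁻¹ ∈ P)
    (hne : (c g : k) * (t * s⁻¹) ≠ s * t⁻¹) : (f u₀ : M2 k) 1 0 = 0 := by
  have h1 := cc_conj hP hcP hf hs ht hg hu₀ hgu
  have h2 := cc_eq hP hcP hf hcomm hu₀ hx₀ hgu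
  rw [x_conj hP hs ht hg hu₀ hgu] at h2
  rw [h1] at h2
  have h3 : ((c g : k) * (t * s⁻¹) - s * t⁻¹) * (f u₀ : M2 k) 1 0 = 0 := by
    have : (f u₀ : M2 k) 1 0 / x u₀ * (s * t⁻¹ * x u₀) = s * t⁻¹ * (f u₀ : M2 k) 1 0 := by
      field_simp
    rw [this] at h2
    linear_combination h2
  rcases mul_eq_zero.mp h3 with h | h
  · exact absurd (sub_eq_zero.mp h) hne
  · exact h

end ccvanish

/-! ### The main theorem -/

section main

variable {ρ c B}

/-- Diagonal entries are multiplicative on upper triangular elements. -/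
theorem diag_mul {a b : Γ} (ha : ρ a 1 0 = 0) (hb : ρ b 1 0 = 0) :
    ρ (a * b) 0 0 = ρ a 0 0 * ρ b 0 0 ∧ ρ (a * b) 1 1 = ρ a 1 1 * ρ b 1 1 ∧
      ρ (a * b) 1 0 = 0 := by
  rw [map_mul, upper_form ρ ha, upper_form ρ hb, Matrix.mul_fin_two]
  simp

theorem diag_pow {b : Γ} (hb : ρ b 1 0 = 0) (n : ℕ) :
    ρ (b ^ n) 0 0 = (ρ b 0 0) ^ n ∧ ρ (b ^ n) 1 1 = (ρ b 1 1) ^ n ∧ ρ (b ^ n) 1 0 = 0 := by
  induction n with
  | zero => simp
  | succ n ih =>
    obtain ⟨h0, h1, h2⟩ := ih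
    obtain ⟨g0, g1, g2⟩ := diag_mul (ρ := ρ) h2 hb
    rw [pow_succ]
    refine ⟨?_, ?_, g2⟩
    · rw [g0, h0, pow_succ]
    · rw [g1, h1, pow_succ]

/-- **BorelCoc.** -/
theorem exists_primitive_on_unip (h2 : (2 : k) ≠ 0) (hinj : Function.Injective ρ)
    (hB : ∀ b ∈ B, ρ b 1 0 = 0) (hc : ∀ b ∈ B, (c b : k) = (ρ b).det)
    {u₀ : Γ} (hu₀ : u₀ ∈ B ⊓ unipSub ρ) (hx₀ : ρ u₀ 0 1 ≠ 0)
    (hfin : ∀ b ∈ B, ∃ o : ℕ, (o : k) ≠ 0 ∧ (ρ b 0 0 / ρ b 1 1) ^ o = 1)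
    (hR : ∀ g ∈ B ⊓ unipSub ρ, ρ g 0 1 ∈ AddSubgroup.closure
      {z : k | ∃ b ∈ B, (ρ b).det = 1 ∧ z = ρ b 0 0 / ρ b 1 1 * ρ u₀ 0 1})
    (hC1 : (3 : k) = 0 ∨ ∃ b ∈ B, (ρ b 0 0 / ρ b 1 1) ^ 2 ≠ (ρ b).det)
    (f : Γ → slM k) (hf : Coc3.IsCoc (adSl ρ c) f) :
    ∃ w : slM k, ∀ g ∈ B ⊓ unipSub ρ, f g = adSl ρ c g w - w := by
  classical
  set P : Subgroup Γ := B ⊓ unipSub ρ with hPdef
  set x : Γ → k := fun g => ρ g 0 1 with hxdef
  set x₀ : k := ρ u₀ 0 1 with hx₀def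
  have hP : ∀ u ∈ P, ρ u = !![1, x u; 0, 1] := fun u hu => (Subgroup.mem_inf.mp hu).2
  have hPB : ∀ u ∈ P, u ∈ B := fun u hu => (Subgroup.mem_inf.mp hu).1
  have hcP : ∀ u ∈ P, c u = 1 := by
    intro u hu
    apply Units.ext
    rw [hc u (hPB u hu), hP u hu, Matrix.det_fin_two_of, Units.val_one]
    ring
  have hcommP : ∀ u ∈ P, ∀ v ∈ P, u * v = v * u := by
    intro u hu v hv
    apply hinj
    rw [map_mul, map_mul, hP u hu, hP v hv, Matrix.mul_fin_two, Matrix.mul_fin_two]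
    simp [add_comm]
  have hcomm : ∀ u ∈ P, ∀ v ∈ P, f (u * v) = f (v * u) := fun u hu v hv => by
    rw [hcommP u hu v hv]
  have hxu₀ : x u₀ ≠ 0 := hx₀
  -- `B` normalises `P`, with `x (b u b⁻¹) = τ_b x u`
  have hnorm : ∀ b ∈ B, ∀ u ∈ P, b * u * b⁻¹ ∈ P := by
    intro b hb u hu
    obtain ⟨hs, ht⟩ := diag_ne_zero ρ (hB b hb)
    refine Subgroup.mem_inf.mpr ⟨B.mul_mem (B.mul_mem hb (hPB u hu)) (B.inv_mem hb), ?_⟩
    exact mem_unipSub_of ρ (upper_conj_unip ρ hs ht (upper_form ρ (hB b hb)) (hP u hu))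
  have hxconj : ∀ b ∈ B, ∀ u ∈ P, x (b * u * b⁻¹) = ρ b 0 0 * (ρ b 1 1)⁻¹ * x u := by
    intro b hb u hu
    obtain ⟨hs, ht⟩ := diag_ne_zero ρ (hB b hb)
    exact x_conj hP hs ht (upper_form ρ (hB b hb)) hu (hnorm b hb u hu)
  -- Step 2: the lower-left coordinate vanishes on `P`
  have hcc0 : (f u₀ : M2 k) 1 0 = 0 := by
    rcases hC1 with h3 | ⟨b, hb, hne⟩
    · have hu₀3 : u₀ ^ 3 = 1 := by
        apply hinj
        have e3 : u₀ ^ 3 = u₀ * (u₀ * u₀) := by rw [pow_succ, pow_two, mul_assoc]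
        have h1 : u₀ * u₀ ∈ P := P.mul_mem hu₀ hu₀
        have h2' : u₀ * (u₀ * u₀) ∈ P := P.mul_mem hu₀ h1
        rw [e3, hP _ h2', x_mul hP hu₀ h1, x_mul hP hu₀ hu₀, map_one]
        have : x u₀ + (x u₀ + x u₀) = 3 * x u₀ := by ring
        rw [this, h3, zero_mul, Matrix.one_fin_two]
      refine cc_eq_zero_of_char_three hxu₀ (hP u₀ hu₀) (hcP u₀ hu₀) hf h3 ?_
      rw [hu₀3, hf.map_one]
    · obtain ⟨hs, ht⟩ := diag_ne_zero ρ (hB b hb)
      refine cc_eq_zero_of_upper hP hcP hf hcomm hu₀ hxu₀ hs ht (upper_form ρ (hB b hb))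
        (hnorm b hb u₀ hu₀) ?_
      intro h
      apply hne
      rw [hc b hb, det_upper ρ (hB b hb)] at h
      rw [det_upper ρ (hB b hb)]
      field_simp at h ⊢
      linear_combination -h
  have hccP : ∀ u ∈ P, (f u : M2 k) 1 0 = 0 := by
    intro u hu
    rw [cc_eq hP hcP hf hcomm hu₀ hxu₀ hu, hcc0, zero_div, zero_mul]
  -- Step 3: the diagonal coordinate
  set β : k := (f u₀ : M2 k) 0 0 / x u₀ with hβ
  have hbP : ∀ u ∈ P, (f u : M2 k) 0 0 = β * x u := fun u hu =>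
    b_eq hP hcP hf hcomm h2 hccP hu₀ hxu₀ hu
  -- Step 4: subtract the coboundary of `β f_`
  set wβ : slM k := mkSl 0 0 β with hwβ
  set f' : Γ → slM k := fun g => f g - (adSl ρ c g wβ - wβ) with hf'def
  have hf' : Coc3.IsCoc (adSl ρ c) f' := hf.sub (Coc3.IsCob.isCoc ⟨wβ, fun g => rfl⟩)
  have hf'00 : ∀ u ∈ P, (f' u : M2 k) 0 0 = 0 := by
    intro u hu
    simp only [hf'def, AddSubgroupClass.coe_sub, Matrix.sub_apply, adSl_unip_00 ρ c (hP u hu),
      hcP u hu, Units.val_one, one_mul, hwβ, mkSl_00, mkSl_10, hbP u hu]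
    ring
  have hf'10 : ∀ u ∈ P, (f' u : M2 k) 1 0 = 0 := by
    intro u hu
    simp only [hf'def, AddSubgroupClass.coe_sub, Matrix.sub_apply, adSl_unip_10 ρ c (hP u hu),
      hcP u hu, Units.val_one, one_mul, hwβ, mkSl_10, hccP u hu]
    ring
  have hf'01 : ∀ u ∈ P, (f' u : M2 k) 0 1 = (f u : M2 k) 0 1 + β * (x u) ^ 2 := by
    intro u hu
    simp only [hf'def, AddSubgroupClass.coe_sub, Matrix.sub_apply, adSl_unip_01 ρ c (hP u hu),
      hcP u hu, Units.val_one, one_mul, hwβ, mkSl_00, mkSl_10, mkSl_01]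
    ring
  set α : Γ → k := fun u => (f' u : M2 k) 0 1 with hα
  have hα_mul : ∀ u ∈ P, ∀ v ∈ P, α (u * v) = α u + α v := by
    intro u hu v hv
    have h := a_mul hP hcP hf' hu hv
    rw [hf'00 v hv, hf'10 v hv] at h
    show (f' (u * v) : M2 k) 0 1 = (f' u : M2 k) 0 1 + (f' v : M2 k) 0 1
    rw [h]; ring
  -- the conjugation formula (E) for `f'`
  have hE : ∀ b ∈ B, (f' b : M2 k) 1 0 = 0 ∧ ∀ u ∈ P, α (b * u * b⁻¹) =
      (c b : k) * (ρ b 0 0 * (ρ b 1 1)⁻¹ * α u) +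
        2 * (ρ b 0 0 * (ρ b 1 1)⁻¹ * x u) * (f' b : M2 k) 0 0 := by
    intro b hb
    obtain ⟨hs, ht⟩ := diag_ne_zero ρ (hB b hb)
    have hbform := upper_form ρ (hB b hb)
    have key : ∀ u ∈ P, (0 : k) = -(x (b * u * b⁻¹) * (f' b : M2 k) 1 0) ∧
        α (b * u * b⁻¹) = (c b : k) * (ρ b 0 0 * (ρ b 1 1)⁻¹ * α u) +
          2 * x (b * u * b⁻¹) * (f' b : M2 k) 0 0 + (x (b * u * b⁻¹)) ^ 2 * (f' b : M2 k) 1 0 := by
      intro u hu
      have hu' := hnorm b hb u hu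
      have hconj := f_conj hf' b u
      constructor
      · have h := congrArg (fun A : slM k => (A : M2 k) 0 0) hconj
        simp only [AddSubgroupClass.coe_sub, Submodule.coe_add, Matrix.add_apply,
          Matrix.sub_apply] at h
        rw [hf'00 _ hu', adSl_upper_00 ρ c hs ht hbform, hf'00 u hu, hf'10 u hu,
          adSl_unip_00 ρ c (hP _ hu'), hcP _ hu', Units.val_one, one_mul] at h
        linear_combination h
      · have h := congrArg (fun A : slM k => (A : M2 k) 0 1) hconj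
        simp only [AddSubgroupClass.coe_sub, Submodule.coe_add, Matrix.add_apply,
          Matrix.sub_apply] at h
        rw [adSl_upper_01_of ρ c hs ht hbform (f' u) (hf'00 u hu) (hf'10 u hu),
          adSl_unip_01 ρ c (hP _ hu'), hcP _ hu', Units.val_one, one_mul] at h
        show (f' (b * u * b⁻¹) : M2 k) 0 1 = _
        rw [h]
        ring
    have h10 : (f' b : M2 k) 1 0 = 0 := by
      have h := (key u₀ hu₀).1
      rw [hxconj b hb u₀ hu₀] at h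
      have hne : ρ b 0 0 * (ρ b 1 1)⁻¹ * x u₀ ≠ 0 :=
        mul_ne_zero (mul_ne_zero hs (inv_ne_zero ht)) hxu₀
      have h' : ρ b 0 0 * (ρ b 1 1)⁻¹ * x u₀ * (f' b : M2 k) 1 0 = 0 := by
        linear_combination h
      exact (mul_eq_zero.mp h').resolve_left hne
    refine ⟨h10, fun u hu => ?_⟩
    have h := (key u hu).2
    rw [h10, mul_zero, add_zero, hxconj b hb u hu] at h
    exact h
  -- additivity of `β_b = (f' b) 0 0` on the determinant-one part of `B`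
  have hβ_mul : ∀ a ∈ B, ∀ b ∈ B, (ρ a).det = 1 →
      (f' (a * b) : M2 k) 0 0 = (f' a : M2 k) 0 0 + (f' b : M2 k) 0 0 := by
    intro a ha b hb hdet
    obtain ⟨hs, ht⟩ := diag_ne_zero ρ (hB a ha)
    have h := congrArg (fun A : slM k => (A : M2 k) 0 0) (hf' a b)
    simp only [Submodule.coe_add, Matrix.add_apply] at h
    rw [h, adSl_upper_00 ρ c hs ht (upper_form ρ (hB a ha)), (hE b hb).1, hc a ha, hdet]
    ring
  have hβ_pow : ∀ b ∈ B, (ρ b).det = 1 → ∀ n : ℕ,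
      (f' (b ^ n) : M2 k) 0 0 = n * (f' b : M2 k) 0 0 := by
    intro b hb hdet n
    induction n with
    | zero => simp [hf'.map_one]
    | succ n ih =>
      rw [pow_succ', hβ_mul b hb (b ^ n) (B.pow_mem hb n) hdet, ih]
      push_cast
      ring
  -- `β_b = 0` on the determinant-one part of `B`
  have hβ0 : ∀ b ∈ B, (ρ b).det = 1 → (f' b : M2 k) 0 0 = 0 := by
    intro b hb hdet
    obtain ⟨o, ho, hτo⟩ := hfin b hb
    obtain ⟨hs, ht⟩ := diag_ne_zero ρ (hB b hb)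
    have hbo : b ^ o ∈ B := B.pow_mem hb o
    obtain ⟨d0, d1, d2⟩ := diag_pow (ρ := ρ) (hB b hb) o
    have hτ1 : ρ (b ^ o) 0 0 * (ρ (b ^ o) 1 1)⁻¹ = 1 := by
      rw [d0, d1, ← inv_pow, ← mul_pow, ← div_eq_mul_inv, hτo]
    have hdeto : (ρ (b ^ o)).det = 1 := by rw [map_pow, Matrix.det_pow, hdet, one_pow]
    have hfix : b ^ o * u₀ * (b ^ o)⁻¹ = u₀ := by
      apply hinj
      have hu' := hnorm _ hbo u₀ hu₀
      rw [hP _ hu', hxconj _ hbo u₀ hu₀, hτ1, one_mul, ← hP u₀ hu₀]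
    have h := (hE _ hbo).2 u₀ hu₀
    rw [hfix, hτ1, hc _ hbo, hdeto, one_mul, one_mul, one_mul, hβ_pow b hb hdet o] at h
    have h' : 2 * x u₀ * (o : k) * (f' b : M2 k) 0 0 = 0 := by linear_combination -h
    have hne : 2 * x u₀ * (o : k) ≠ 0 := mul_ne_zero (mul_ne_zero h2 hxu₀) ho
    exact (mul_eq_zero.mp h').resolve_left hne
  -- `α` is `τ`-equivariant for the determinant-one part of `B`
  have hα_conj : ∀ b ∈ B, (ρ b).det = 1 → ∀ u ∈ P,
      α (b * u * b⁻¹) = ρ b 0 0 * (ρ b 1 1)⁻¹ * α u := by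
    intro b hb hdet u hu
    rw [(hE b hb).2 u hu, hβ0 b hb hdet, hc b hb, hdet]
    ring
  -- Step 5: `α = λ x` on `P`
  set lam : k := α u₀ / x u₀ with hlam
  let K : Subgroup Γ :=
    { carrier := {u | u ∈ P ∧ α u = lam * x u}
      mul_mem' := by
        rintro a b ⟨ha, ha'⟩ ⟨hb, hb'⟩
        refine ⟨P.mul_mem ha hb, ?_⟩
        show α (a * b) = lam * x (a * b)
        rw [hα_mul a ha b hb, x_mul hP ha hb, ha', hb']
        ring
      one_mem' := by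
        refine ⟨P.one_mem, ?_⟩
        show α 1 = lam * x 1
        have h1 : x (1 : Γ) = 0 := by rw [hxdef]; simp
        rw [h1, mul_zero]
        show (f' 1 : M2 k) 0 1 = 0
        rw [hf'.map_one]; simp
      inv_mem' := by
        rintro a ⟨ha, ha'⟩
        refine ⟨P.inv_mem ha, ?_⟩
        have h := hα_mul a ha a⁻¹ (P.inv_mem ha)
        have hx := x_mul hP ha (P.inv_mem ha)
        rw [mul_inv_cancel] at h hx
        have h1 : x (1 : Γ) = 0 := by rw [hxdef]; simp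
        have hα1 : α 1 = 0 := by
          show (f' 1 : M2 k) 0 1 = 0
          rw [hf'.map_one]; simp
        rw [hα1] at h
        rw [h1] at hx
        show α a⁻¹ = lam * x a⁻¹
        have hx' : x a⁻¹ = -x a := by linear_combination -hx
        have h' : α a⁻¹ = -α a := by linear_combination -h
        rw [h', hx', ha']
        ring }
  have hu₀K : u₀ ∈ K := by
    refine ⟨hu₀, ?_⟩
    show α u₀ = lam * x u₀
    rw [hlam]
    field_simp
  -- the image of `K` under `x` is an additive subgroup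
  let AK : AddSubgroup k :=
    { carrier := {z | ∃ u ∈ K, x u = z}
      add_mem' := by
        rintro _ _ ⟨u, hu, rfl⟩ ⟨v, hv, rfl⟩
        exact ⟨u * v, K.mul_mem hu hv, x_mul hP hu.1 hv.1⟩
      zero_mem' := ⟨1, K.one_mem, by rw [hxdef]; simp⟩
      neg_mem' := by
        rintro _ ⟨u, hu, rfl⟩
        refine ⟨u⁻¹, K.inv_mem hu, ?_⟩
        have hx := x_mul hP hu.1 (P.inv_mem hu.1)
        rw [mul_inv_cancel] at hx
        have h1 : x (1 : Γ) = 0 := by rw [hxdef]; simp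
        rw [h1] at hx
        linear_combination -hx }
  have hgen : {z : k | ∃ b ∈ B, (ρ b).det = 1 ∧ z = ρ b 0 0 / ρ b 1 1 * ρ u₀ 0 1} ⊆
      (AK : Set k) := by
    rintro z ⟨b, hb, hdet, rfl⟩
    refine ⟨b * u₀ * b⁻¹, ⟨hnorm b hb u₀ hu₀, ?_⟩, ?_⟩
    · show α (b * u₀ * b⁻¹) = lam * x (b * u₀ * b⁻¹)
      rw [hα_conj b hb hdet u₀ hu₀, hxconj b hb u₀ hu₀, hu₀K.2]
      ring
    · rw [hxconj b hb u₀ hu₀, div_eq_mul_inv]
  have hPK : ∀ g ∈ P, g ∈ K := by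
    intro g hg
    have h1 := (AddSubgroup.closure_le AK).mpr hgen (hR g hg)
    obtain ⟨u, hu, hxu⟩ := h1
    have : u = g := by
      apply hinj
      rw [hP u hu.1, hP g hg]
      have : x u = x g := hxu
      rw [this]
    rw [← this]
    exact hu
  have hαP : ∀ u ∈ P, (f u : M2 k) 0 1 + β * (x u) ^ 2 = lam * x u := by
    intro u hu
    rw [← hf'01 u hu]
    exact (hPK u hu).2
  exact ⟨_, isCob_on hP hcP h2 β lam hccP hbP hαP⟩

end main

end Fermat.Agent.TW.GRP.BorelCoc0
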