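/-
Programme T (S56), chapter T/GRP, Phase 2 brick (lead): **killing `H¹` with a normal subgroup of
invertible order without invariants**, in the raw-cocycle language of the chapter.

`a : Representation k G W`, `IsCoc a f := ∀ g h, f (g * h) = f g + a g (f h)`,
`IsCob a f := ∃ w, ∀ g, f g = a g w - w`.

* `isCob_of_normal` (N1): `N` a finite normal subgroup of `G` whose order is invertible in `k`, with no
  nonzero `N`-invariant vector in `W`: every cocycle is a coboundary.
* `isCob_of_surjective` (N1'): cocycles vanishing on the kernel of a surjection `π : G →* Gb`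
  through which the action factors descend to `Gb`; if all cocycles of `Gb` are coboundaries, so
  is `f`.
-/
import Mathlib

set_option autoImplicit false

namespace Fermat.Agent.TW.GRP.NormalKill0

variable {k G W : Type*} [Field k] [Group G] [AddCommGroup W] [Module k W]

/-- Raw 1-cocycles. -/
def IsCoc (a : Representation k G W) (f : G → W) : Prop :=
  ∀ g h, f (g * h) = f g + a g (f h)

/-- Raw 1-coboundaries. -/
def IsCob (a : Representation k G W) (f : G → W) : Prop :=
  ∃ w, ∀ g, f g = a g w - w

theorem IsCoc.apply_one {a : Representation k G W} {f : G → W} (hf : IsCoc a f) : f 1 = 0 := by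
  have h := hf 1 1
  simp only [mul_one, _root_.map_one, Module.End.one_apply] at h
  have : f 1 + f 1 = f 1 + 0 := by rw [add_zero]; exact h.symm
  exact add_left_cancel this

/-- Subtracting a coboundary from a cocycle gives a cocycle. -/
theorem IsCoc.sub_cob {a : Representation k G W} {f : G → W} (hf : IsCoc a f) (w : W) :
    IsCoc a (fun g => f g - (a g w - w)) := by
  intro g h
  simp only [hf g h, map_mul, Module.End.mul_apply, map_sub]
  abel

/-- **(N1)** A finite normal subgroup of invertible order without invariants kills `H¹`. -/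
theorem isCob_of_normal (a : Representation k G W) (N : Subgroup G) [N.Normal] [Finite N]
    (hcard : (Nat.card N : k) ≠ 0)
    (hinv : ∀ w : W, (∀ n ∈ N, a n w = w) → w = 0)
    (f : G → W) (hf : IsCoc a f) : IsCob a f := by
  classical
  letI : Fintype N := Fintype.ofFinite N
  set s : W := ∑ m : N, f (m : G) with hs
  set c : k := (Nat.card N : k) with hc
  set w : W := -(c⁻¹ • s) with hw
  -- on `N` the cocycle is the coboundary of `w`
  have hN : ∀ n : N, c • f (n : G) = s - a (n : G) s := by
    intro n
    have h1 : ∑ m : N, f ((n : G) * (m : G)) = s := by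
      rw [hs]
      exact Fintype.sum_equiv (Equiv.mulLeft n) (fun m : N => f ((n : G) * (m : G)))
        (fun m : N => f (m : G)) (fun m => rfl)
    have h2 : ∑ m : N, f ((n : G) * (m : G)) = c • f (n : G) + a (n : G) s := by
      rw [Finset.sum_congr rfl (fun (m : N) _ => hf (n : G) (m : G))]
      rw [Finset.sum_add_distrib, Finset.sum_const, Finset.card_univ, hs, map_sum, hc,
        Nat.card_eq_fintype_card, Nat.cast_smul_eq_nsmul]
    rw [h1] at h2
    rw [eq_sub_iff_add_eq]
    exact h2.symm
  have hN' : ∀ n : N, f (n : G) = a (n : G) w - w := by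
    intro n
    have h := hN n
    have : f (n : G) = c⁻¹ • (s - a (n : G) s) := by
      rw [← h, smul_smul, inv_mul_cancel₀ hcard, one_smul]
    rw [this, hw, map_neg, map_smul, smul_sub]
    abel
  -- the corrected cocycle vanishes on `N`, hence takes `N`-invariant values
  set f' : G → W := fun g => f g - (a g w - w) with hf'
  have hf'c : IsCoc a f' := hf.sub_cob w
  have hf'N : ∀ n ∈ N, f' n = 0 := by
    intro n hn
    have := hN' ⟨n, hn⟩
    simp only [hf', this, sub_self]
  have hzero : ∀ g, f' g = 0 := by
    intro g
    apply hinv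
    intro n hn
    have h1 : f' (n * g) = a n (f' g) := by
      rw [hf'c n g, hf'N n hn, zero_add]
    have hconj : g⁻¹ * n * g ∈ N := by
      have := (inferInstance : N.Normal).conj_mem n hn g⁻¹
      simpa using this
    have h2 : f' (n * g) = f' g := by
      have : n * g = g * (g⁻¹ * n * g) := by group
      rw [this, hf'c g _, hf'N _ hconj, map_zero, add_zero]
    rw [← h1, h2]
  refine ⟨w, fun g => ?_⟩
  have := hzero g
  simp only [hf'] at this
  exact sub_eq_zero.mp this

/-- **(N1')** Descent through a surjection. -/
theorem isCob_of_surjective {Gb : Type*} [Group Gb] (π : G →* Gb) (hπ : Function.Surjective π)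
    (ab : Representation k Gb W) (a : Representation k G W) (ha : ∀ g, a g = ab (π g))
    (f : G → W) (hf : IsCoc a f) (hker : ∀ g, π g = 1 → f g = 0)
    (H : ∀ fb : Gb → W, IsCoc ab fb → IsCob ab fb) : IsCob a f := by
  classical
  set fb : Gb → W := fun x => f (Function.surjInv hπ x) with hfb
  have hfbπ : ∀ g, fb (π g) = f g := by
    intro g
    set g' := Function.surjInv hπ (π g) with hg'
    have hπg' : π g' = π g := Function.surjInv_eq hπ (π g)
    have hk : π (g⁻¹ * g') = 1 := by
      rw [map_mul, map_inv, hπg', inv_mul_cancel]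
    have h0 := hker _ hk
    have : g' = g * (g⁻¹ * g') := by group
    show f g' = f g
    rw [this, hf g _, h0, map_zero, add_zero]
  have hcoc : IsCoc ab fb := by
    intro x y
    obtain ⟨g, rfl⟩ := hπ x
    obtain ⟨h, rfl⟩ := hπ y
    rw [← map_mul, hfbπ, hfbπ, hfbπ, hf g h, ha g]
  obtain ⟨w, hw⟩ := H fb hcoc
  refine ⟨w, fun g => ?_⟩
  rw [← hfbπ g, hw (π g), ha g]

end Fermat.Agent.TW.GRP.NormalKill0
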