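/-
Programme T (S56), chapter T/GRP, Phase 2 brick G11 (lead): **`MatrixH1Vanishing` in the easy cases**,
in helper3's vocabulary (`Coc3.IsCoc/IsCob`, `AdZero3.adSl ρ c`, `ρ : G →* M2 k`, `c : G →* kˣ`).

Throughout `hcρ : ∀ g, ρ g = 1 → c g = 1` (true for `c = det ∘ ρ`) and cocycles are assumed to
vanish on `ker ρ`.

* `eq_of_rho_eq`            : such a cocycle only depends on `ρ g`;
* descent to the image: `Gb ρ = G ⧸ ker ρ`, `ρb`, `cb`, `isCob_of_quotient`
  (if every cocycle of `adSl (ρb ρ) (cb ρ c hcρ)` is a coboundary, so is every cocycle of `adSl ρ c`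
  vanishing on `ker ρ`), `ρb_injective`, `finite_Gb`;
* **(A)** `isCob_of_scalar` : an element `z` with `ρ z` scalar and `c z ≠ 1` (Sah's lemma modulo
  `ker ρ`);
* **(B1)** `isCob_of_no_order_p` : `k` finite of characteristic `p` and no element of order `p` in
  the image of `ρ`.
-/
import Mathlib
import Fermat.Agent.TW.GRP.NormalKill0
import Fermat.Agent.TW.GRP.AdZero3
import Fermat.Agent.TW.GRP.Coc3

set_option autoImplicit false

namespace Fermat.Agent.TW.GRP.CaseAB0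

open Matrix
open Fermat.Agent.TW.GRP.Mat2x3 Fermat.Agent.TW.GRP.Irred3 Fermat.Agent.TW.GRP.AdZero3
open Fermat.Agent.TW.GRP

variable {k : Type*} [Field k] {G : Type*} [Group G]

/-- `adSl ρ c n = 1` when `ρ n = 1` and `c n = 1`. -/
theorem adSl_eq_one (ρ : G →* M2 k) (c : G →* kˣ) {n : G} (hρ : ρ n = 1) (hc : c n = 1) :
    adSl ρ c n = 1 := by
  apply LinearMap.ext; intro A
  apply Subtype.ext
  have hinv : ρ n⁻¹ = 1 := by
    have := TWHyp3.mul_inv_eq_one ρ n
    rwa [hρ, Matrix.one_mul] at this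
  rw [adSl_apply_coe, hρ, hinv, hc, Units.val_one, one_smul, Matrix.one_mul, Matrix.mul_one]
  rfl

/-- A cocycle vanishing on `ker ρ` only depends on `ρ g`. -/
theorem eq_of_rho_eq (ρ : G →* M2 k) (c : G →* kˣ) {f : G → slM k}
    (hf : Coc3.IsCoc (adSl ρ c) f) (hker : ∀ g, ρ g = 1 → f g = 0) {x y : G} (hxy : ρ x = ρ y) :
    f x = f y := by
  have hn : ρ (x⁻¹ * y) = 1 := by
    rw [map_mul, ← hxy, TWHyp3.inv_mul_eq_one]
  have : y = x * (x⁻¹ * y) := by group
  rw [this, hf x _, hker _ hn, map_zero, add_zero]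

/-! ### Descent to the image -/

/-- The image of `ρ` as an abstract group: `G ⧸ ker ρ`. -/
abbrev Gb (ρ : G →* M2 k) : Type _ := G ⧸ ρ.toHomUnits.ker

theorem mem_ker_iff (ρ : G →* M2 k) (g : G) : g ∈ ρ.toHomUnits.ker ↔ ρ g = 1 := by
  rw [MonoidHom.mem_ker]
  constructor
  · intro h
    have := congrArg Units.val h
    rwa [MonoidHom.coe_toHomUnits, Units.val_one] at this
  · intro h
    apply Units.ext
    rw [MonoidHom.coe_toHomUnits, Units.val_one, h]

/-- The induced faithful representation of the image. -/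
def ρb (ρ : G →* M2 k) : Gb ρ →* M2 k :=
  (Units.coeHom (M2 k)).comp (QuotientGroup.kerLift ρ.toHomUnits)

@[simp] theorem ρb_mk (ρ : G →* M2 k) (g : G) : ρb ρ (QuotientGroup.mk g) = ρ g := by
  rw [ρb, MonoidHom.comp_apply, QuotientGroup.kerLift_mk, Units.coeHom_apply,
    MonoidHom.coe_toHomUnits]

theorem ρb_injective (ρ : G →* M2 k) : Function.Injective (ρb ρ) := by
  intro x y h
  apply QuotientGroup.kerLift_injective ρ.toHomUnits
  exact Units.ext h

theorem finite_Gb [Finite k] (ρ : G →* M2 k) : Finite (Gb ρ) :=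
  Finite.of_injective (ρb ρ) (ρb_injective ρ)

/-- The induced character of the image. -/
def cb (ρ : G →* M2 k) (c : G →* kˣ) (hcρ : ∀ g, ρ g = 1 → c g = 1) : Gb ρ →* kˣ :=
  QuotientGroup.lift ρ.toHomUnits.ker c (fun g hg => by
    rw [MonoidHom.mem_ker]
    exact hcρ g ((mem_ker_iff ρ g).mp hg))

@[simp] theorem cb_mk (ρ : G →* M2 k) (c : G →* kˣ) (hcρ : ∀ g, ρ g = 1 → c g = 1) (g : G) :
    cb ρ c hcρ (QuotientGroup.mk g) = c g := by
  rw [cb, QuotientGroup.lift_mk]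

theorem adSl_mk (ρ : G →* M2 k) (c : G →* kˣ) (hcρ : ∀ g, ρ g = 1 → c g = 1) (g : G) :
    adSl ρ c g = adSl (ρb ρ) (cb ρ c hcρ) (QuotientGroup.mk' ρ.toHomUnits.ker g) := by
  apply LinearMap.ext; intro A
  apply Subtype.ext
  rw [adSl_apply_coe, adSl_apply_coe, QuotientGroup.mk'_apply, ← QuotientGroup.mk_inv, ρb_mk,
    ρb_mk, cb_mk]

/-- **Descent**: vanishing of `H¹` for the image implies `MatrixH1Vanishing`. -/
theorem isCob_of_quotient (ρ : G →* M2 k) (c : G →* kˣ) (hcρ : ∀ g, ρ g = 1 → c g = 1)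
    (H : ∀ fb : Gb ρ → slM k, Coc3.IsCoc (adSl (ρb ρ) (cb ρ c hcρ)) fb →
      Coc3.IsCob (adSl (ρb ρ) (cb ρ c hcρ)) fb)
    (f : G → slM k) (hf : Coc3.IsCoc (adSl ρ c) f) (hker : ∀ g, ρ g = 1 → f g = 0) :
    Coc3.IsCob (adSl ρ c) f := by
  refine NormalKill0.isCob_of_surjective (QuotientGroup.mk' ρ.toHomUnits.ker)
    (QuotientGroup.mk'_surjective _) (adSl (ρb ρ) (cb ρ c hcρ)) (adSl ρ c)
    (adSl_mk ρ c hcρ) f hf ?_ H
  intro g hg
  apply hker
  rw [QuotientGroup.mk'_apply, QuotientGroup.eq_one_iff] at hg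
  exact (mem_ker_iff ρ g).mp hg

/-! ### Case (A): a scalar with nontrivial twist -/

theorem adSl_of_isScalar (ρ : G →* M2 k) (c : G →* kˣ) {z : G} (hz : IsScalar (ρ z)) :
    adSl ρ c z = (c z : k) • (1 : Module.End k (slM k)) := by
  obtain ⟨l, hl⟩ := hz
  apply LinearMap.ext; intro A
  apply Subtype.ext
  rw [adSl_apply_coe, LinearMap.smul_apply, Module.End.one_apply, Submodule.coe_smul]
  congr 1
  have h1 : ρ z * (A : M2 k) = (A : M2 k) * ρ z := by
    rw [hl, Matrix.smul_mul, Matrix.mul_smul, Matrix.one_mul, Matrix.mul_one]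
  rw [h1, Matrix.mul_assoc, TWHyp3.mul_inv_eq_one, Matrix.mul_one]

/-- **(A)** Sah's lemma modulo `ker ρ`. -/
theorem isCob_of_scalar (ρ : G →* M2 k) (c : G →* kˣ)
    {z : G} (hz : IsScalar (ρ z)) (hcz : c z ≠ 1)
    (f : G → slM k) (hf : Coc3.IsCoc (adSl ρ c) f) (hker : ∀ g, ρ g = 1 → f g = 0) :
    Coc3.IsCob (adSl ρ c) f := by
  have hne : (c z : k) - 1 ≠ 0 := by
    intro h
    apply hcz
    apply Units.ext
    rw [Units.val_one]
    exact sub_eq_zero.mp h
  refine ⟨((c z : k) - 1)⁻¹ • f z, fun g => ?_⟩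
  have hcomm : f (z * g) = f (g * z) := by
    apply eq_of_rho_eq ρ c hf hker
    obtain ⟨l, hl⟩ := hz
    rw [map_mul, map_mul, hl, Matrix.smul_mul, Matrix.mul_smul, Matrix.one_mul, Matrix.mul_one]
  rw [hf z g, hf g z, adSl_of_isScalar ρ c hz, LinearMap.smul_apply, Module.End.one_apply] at hcomm
  -- `f z + c z • f g = f g + a g (f z)`
  have h2 : ((c z : k) - 1) • f g = adSl ρ c g (f z) - f z := by
    have h0 : ((c z : k) - 1) • f g = (f z + (c z : k) • f g) - f g - f z := by module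
    rw [h0, hcomm]
    abel
  have h3 : f g = ((c z : k) - 1)⁻¹ • (((c z : k) - 1) • f g) := by
    rw [smul_smul, inv_mul_cancel₀ hne, one_smul]
  rw [h3, h2, map_smul, smul_sub]

/-! ### Case (B1): no element of order `p` in the image -/

/-- **(B1)** `k` finite of characteristic `p`, no element of order `p` in the image of `ρ`. -/
theorem isCob_of_no_order_p [Finite k] (p : ℕ) [hp : Fact p.Prime] [CharP k p]
    (ρ : G →* M2 k) (c : G →* kˣ) (hcρ : ∀ g, ρ g = 1 → c g = 1)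
    (hno : ∀ g : G, ρ g ^ p = 1 → ρ g = 1)
    (f : G → slM k) (hf : Coc3.IsCoc (adSl ρ c) f) (hker : ∀ g, ρ g = 1 → f g = 0) :
    Coc3.IsCob (adSl ρ c) f := by
  classical
  refine isCob_of_quotient ρ c hcρ ?_ f hf hker
  intro fb hfb
  have : Finite (Gb ρ) := finite_Gb ρ
  let _ : Fintype (Gb ρ) := Fintype.ofFinite _
  refine Coc3.isCob_of_isUnit_card hfb ?_
  rw [isUnit_iff_ne_zero]
  intro h0
  rw [CharP.cast_eq_zero_iff k p, ← Nat.card_eq_fintype_card] at h0
  obtain ⟨x, hx⟩ := exists_prime_orderOf_dvd_card' p h0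
  induction x using QuotientGroup.induction_on with
  | H g =>
    have h1 : ρb ρ ((QuotientGroup.mk g : Gb ρ) ^ p) = 1 := by
      rw [← hx, pow_orderOf_eq_one, map_one]
    rw [map_pow, ρb_mk] at h1
    have h2 := hno g h1
    have h3 : (QuotientGroup.mk g : Gb ρ) = 1 := by
      apply ρb_injective ρ
      rw [ρb_mk, h2, map_one]
    rw [h3, orderOf_one] at hx
    exact hp.out.one_lt.ne hx

end Fermat.Agent.TW.GRP.CaseAB0
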