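/-
Programme T (S56), chapter T/GRP, Phase 2 (lead): **entry formulas for the twisted adjoint action**
`adSl ρ c g` when `ρ g` is upper unitriangular or diagonal (general group `G`, `ρ : G →* M2 k`).
-/
import Mathlib
import Fermat.Agent.TW.GRP.AdZero3
import Fermat.Agent.TW.GRP.Coc3

set_option autoImplicit false

namespace Fermat.Agent.TW.GRP.AdFormulas0

open Matrix
open Fermat.Agent.TW.GRP.Mat2x3 Fermat.Agent.TW.GRP.Irred3 Fermat.Agent.TW.GRP.AdZero3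
open Fermat.Agent.TW.GRP

variable {k : Type*} [Field k] {G : Type*} [Group G]

/-- `ρ g⁻¹` is any right inverse of `ρ g`. -/
theorem rho_inv_eq (ρ : G →* M2 k) (g : G) {M : M2 k} (hM : ρ g * M = 1) : ρ g⁻¹ = M := by
  calc ρ g⁻¹ = ρ g⁻¹ * (ρ g * M) := by rw [hM, Matrix.mul_one]
    _ = (ρ g⁻¹ * ρ g) * M := by rw [Matrix.mul_assoc]
    _ = M := by rw [TWHyp3.inv_mul_eq_one, Matrix.one_mul]

theorem rho_inv_unip (ρ : G →* M2 k) {g : G} {x : k} (hg : ρ g = !![1, x; 0, 1]) :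
    ρ g⁻¹ = !![1, -x; 0, 1] := by
  apply rho_inv_eq
  rw [hg, Matrix.mul_fin_two]
  simp [Matrix.one_fin_two]

theorem rho_inv_diag (ρ : G →* M2 k) {g : G} {s t : k} (hs : s ≠ 0) (ht : t ≠ 0)
    (hg : ρ g = !![s, 0; 0, t]) : ρ g⁻¹ = !![s⁻¹, 0; 0, t⁻¹] := by
  apply rho_inv_eq
  rw [hg, Matrix.mul_fin_two]
  simp [Matrix.one_fin_two, hs, ht]

/-- Coordinates on `sl₂`. -/
theorem coe_eq_of (A : slM k) :
    (A : M2 k) = !![(A : M2 k) 0 0, (A : M2 k) 0 1; (A : M2 k) 1 0, -(A : M2 k) 0 0] := by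
  have h := mem_slM.mp A.2
  rw [Matrix.trace_fin_two] at h
  have h2 : (A : M2 k) 1 1 = -(A : M2 k) 0 0 := eq_neg_of_add_eq_zero_right h
  conv_lhs => rw [Matrix.eta_fin_two (A : M2 k)]
  rw [h2]

theorem ext_entries {A B : slM k} (h00 : (A : M2 k) 0 0 = (B : M2 k) 0 0)
    (h01 : (A : M2 k) 0 1 = (B : M2 k) 0 1) (h10 : (A : M2 k) 1 0 = (B : M2 k) 1 0) : A = B := by
  apply Subtype.ext
  rw [coe_eq_of A, coe_eq_of B, h00, h01, h10]

theorem eq_zero_of_entries {A : slM k} (h00 : (A : M2 k) 0 0 = 0)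
    (h01 : (A : M2 k) 0 1 = 0) (h10 : (A : M2 k) 1 0 = 0) : A = 0 := by
  apply ext_entries <;> simp [h00, h01, h10]

/-- The trace-zero matrix with given coordinates `(a, b, c) ↦ [[b, a], [c, -b]]`. -/
def mkSl (a b c : k) : slM k := ⟨!![b, a; c, -b], by
  rw [mem_slM, Matrix.trace_fin_two_of]; ring⟩

@[simp] theorem mkSl_00 (a b c : k) : ((mkSl a b c : slM k) : M2 k) 0 0 = b := rfl
@[simp] theorem mkSl_01 (a b c : k) : ((mkSl a b c : slM k) : M2 k) 0 1 = a := rfl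
@[simp] theorem mkSl_10 (a b c : k) : ((mkSl a b c : slM k) : M2 k) 1 0 = c := rfl

section unip

variable (ρ : G →* M2 k) (c : G →* kˣ) {g : G} {x : k}

theorem adSl_unip_00 (hg : ρ g = !![1, x; 0, 1]) (A : slM k) :
    ((adSl ρ c g A : slM k) : M2 k) 0 0 = (c g : k) * ((A : M2 k) 0 0 + x * (A : M2 k) 1 0) := by
  rw [adSl_apply_coe, hg, rho_inv_unip ρ hg, coe_eq_of A, Matrix.mul_fin_two, Matrix.mul_fin_two]
  simp

theorem adSl_unip_10 (hg : ρ g = !![1, x; 0, 1]) (A : slM k) :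
    ((adSl ρ c g A : slM k) : M2 k) 1 0 = (c g : k) * (A : M2 k) 1 0 := by
  rw [adSl_apply_coe, hg, rho_inv_unip ρ hg, coe_eq_of A, Matrix.mul_fin_two, Matrix.mul_fin_two]
  simp

theorem adSl_unip_01 (hg : ρ g = !![1, x; 0, 1]) (A : slM k) :
    ((adSl ρ c g A : slM k) : M2 k) 0 1 =
      (c g : k) * ((A : M2 k) 0 1 - 2 * x * (A : M2 k) 0 0 - x ^ 2 * (A : M2 k) 1 0) := by
  rw [adSl_apply_coe, hg, rho_inv_unip ρ hg, coe_eq_of A, Matrix.mul_fin_two, Matrix.mul_fin_two]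
  simp
  ring

end unip

section diag

variable (ρ : G →* M2 k) (c : G →* kˣ) {g : G} {s t : k}

theorem adSl_diag_00 (hs : s ≠ 0) (ht : t ≠ 0) (hg : ρ g = !![s, 0; 0, t]) (A : slM k) :
    ((adSl ρ c g A : slM k) : M2 k) 0 0 = (c g : k) * (A : M2 k) 0 0 := by
  rw [adSl_apply_coe, hg, rho_inv_diag ρ hs ht hg, coe_eq_of A, Matrix.mul_fin_two,
    Matrix.mul_fin_two]
  simp
  field_simp

theorem adSl_diag_01 (hs : s ≠ 0) (ht : t ≠ 0) (hg : ρ g = !![s, 0; 0, t]) (A : slM k) :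
    ((adSl ρ c g A : slM k) : M2 k) 0 1 = (c g : k) * (s * t⁻¹ * (A : M2 k) 0 1) := by
  rw [adSl_apply_coe, hg, rho_inv_diag ρ hs ht hg, coe_eq_of A, Matrix.mul_fin_two,
    Matrix.mul_fin_two]
  simp
  ring

theorem adSl_diag_10 (hs : s ≠ 0) (ht : t ≠ 0) (hg : ρ g = !![s, 0; 0, t]) (A : slM k) :
    ((adSl ρ c g A : slM k) : M2 k) 1 0 = (c g : k) * (t * s⁻¹ * (A : M2 k) 1 0) := by
  rw [adSl_apply_coe, hg, rho_inv_diag ρ hs ht hg, coe_eq_of A, Matrix.mul_fin_two,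
    Matrix.mul_fin_two]
  simp
  ring

end diag

section upper

variable (ρ : G →* M2 k) (c : G →* kˣ) {g : G} {s t y : k}

theorem rho_inv_upper (hs : s ≠ 0) (ht : t ≠ 0) (hg : ρ g = !![s, y; 0, t]) :
    ρ g⁻¹ = !![s⁻¹, -(y * s⁻¹ * t⁻¹); 0, t⁻¹] := by
  apply rho_inv_eq
  rw [hg, Matrix.mul_fin_two]
  simp only [Matrix.one_fin_two, mul_zero, add_zero, zero_mul, zero_add]
  have h01 : s * -(y * s⁻¹ * t⁻¹) + y * t⁻¹ = 0 := by field_simp; ring
  rw [h01, mul_inv_cancel₀ hs, mul_inv_cancel₀ ht]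

/-- The lower-left coordinate under an upper triangular element. -/
theorem adSl_upper_10 (hs : s ≠ 0) (ht : t ≠ 0) (hg : ρ g = !![s, y; 0, t]) (A : slM k) :
    ((adSl ρ c g A : slM k) : M2 k) 1 0 = (c g : k) * (t * s⁻¹ * (A : M2 k) 1 0) := by
  rw [adSl_apply_coe, hg, rho_inv_upper ρ hs ht hg, coe_eq_of A, Matrix.mul_fin_two,
    Matrix.mul_fin_two]
  simp
  ring

/-- Conjugating an upper unitriangular matrix by an upper triangular one. -/
theorem upper_conj_unip (hs : s ≠ 0) (ht : t ≠ 0) (hg : ρ g = !![s, y; 0, t]) {u : G} {x : k}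
    (hu : ρ u = !![1, x; 0, 1]) : ρ (g * u * g⁻¹) = !![1, s * t⁻¹ * x; 0, 1] := by
  rw [map_mul, map_mul, hg, hu, rho_inv_upper ρ hs ht hg, Matrix.mul_fin_two, Matrix.mul_fin_two]
  ext i j; fin_cases i <;> fin_cases j <;> simp <;> field_simp
  ring

end upper

end Fermat.Agent.TW.GRP.AdFormulas0
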