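/-
Programme T (S56), chapter T/GRP, Phase 2 (lead), plan T/plan/DICKSON: **cocycles on a unipotent
subgroup** `P` (`ρ u = [[1, x u], [0, 1]]`, `c u = 1` for `u ∈ P`) with values in `sl₂(k) ⊗ c`.

Write `f u = [[b u, a u], [cc u, -b u]]`.
* `cc_mul`, `b_mul`, `a_mul` : the cocycle relations in coordinates;
* `cc_eq` (U1) : `cc u = γ x u`;
* `b_eq` (U3)  : if `cc = 0` on `P` then `b u = β x u`, and `α u := a u + β (x u)²` is additive
  (`alpha_mul`);
* `isCob_on` (U4) : if moreover `α u = α₀ x u` on `P`, then `f u = (u - 1) w` on `P` with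
  `w = [[-α₀/2, 0], [β, α₀/2]]`;
* `cc_conj` : exact equivariance of the `cc`-coordinate under any `g` with `ρ g` upper triangular
  normalising `P` (no normalisation of `f` needed);
* `f_conj_of_eq_zero` : equivariance `f (g u g⁻¹) = g • f u` when `f g = 0`.
-/
import Mathlib
import Fermat.Agent.TW.GRP.AdFormulas0

set_option autoImplicit false

namespace Fermat.Agent.TW.GRP.UnipCoc0

open Matrix
open Fermat.Agent.TW.GRP.Mat2x3 Fermat.Agent.TW.GRP.Irred3 Fermat.Agent.TW.GRP.AdZero3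
open Fermat.Agent.TW.GRP.AdFormulas0 Fermat.Agent.TW.GRP

variable {k : Type*} [Field k] {G : Type*} [Group G]
variable (ρ : G →* M2 k) (c : G →* kˣ) (P : Subgroup G) (x : G → k)

section relations

variable {ρ c P x}
variable (hP : ∀ u ∈ P, ρ u = !![1, x u; 0, 1]) (hcP : ∀ u ∈ P, c u = 1)
variable {f : G → slM k} (hf : Coc3.IsCoc (adSl ρ c) f)

include hP in
theorem x_mul {u v : G} (hu : u ∈ P) (hv : v ∈ P) : x (u * v) = x u + x v := by
  have h := hP (u * v) (P.mul_mem hu hv)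
  rw [map_mul, hP u hu, hP v hv, Matrix.mul_fin_two] at h
  have h01 := congrFun (congrFun h 0) 1
  simp at h01
  rw [← h01]; ring

include hP hcP hf in
theorem cc_mul {u v : G} (hu : u ∈ P) (_hv : v ∈ P) :
    (f (u * v) : M2 k) 1 0 = (f u : M2 k) 1 0 + (f v : M2 k) 1 0 := by
  have h := congrArg (fun A : slM k => (A : M2 k) 1 0) (hf u v)
  simp only [Submodule.coe_add, Matrix.add_apply] at h
  rw [h, adSl_unip_10 ρ c (hP u hu), hcP u hu, Units.val_one, one_mul]

include hP hcP hf in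
theorem b_mul {u v : G} (hu : u ∈ P) (_hv : v ∈ P) :
    (f (u * v) : M2 k) 0 0 = (f u : M2 k) 0 0 + (f v : M2 k) 0 0 + x u * (f v : M2 k) 1 0 := by
  have h := congrArg (fun A : slM k => (A : M2 k) 0 0) (hf u v)
  simp only [Submodule.coe_add, Matrix.add_apply] at h
  rw [h, adSl_unip_00 ρ c (hP u hu), hcP u hu, Units.val_one, one_mul]
  ring

include hP hcP hf in
theorem a_mul {u v : G} (hu : u ∈ P) (_hv : v ∈ P) :
    (f (u * v) : M2 k) 0 1 = (f u : M2 k) 0 1 + (f v : M2 k) 0 1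
      - 2 * x u * (f v : M2 k) 0 0 - (x u) ^ 2 * (f v : M2 k) 1 0 := by
  have h := congrArg (fun A : slM k => (A : M2 k) 0 1) (hf u v)
  simp only [Submodule.coe_add, Matrix.add_apply] at h
  rw [h, adSl_unip_01 ρ c (hP u hu), hcP u hu, Units.val_one, one_mul]
  ring

variable (hcomm : ∀ u ∈ P, ∀ v ∈ P, f (u * v) = f (v * u))

include hP hcP hf hcomm in
/-- **(U1)** the lower-left coordinate is proportional to `x`. -/
theorem cc_eq {u₀ : G} (hu₀ : u₀ ∈ P) (hx₀ : x u₀ ≠ 0) {u : G} (hu : u ∈ P) :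
    (f u : M2 k) 1 0 = (f u₀ : M2 k) 1 0 / x u₀ * x u := by
  have h1 := b_mul hP hcP hf hu hu₀
  have h2 := b_mul hP hcP hf hu₀ hu
  rw [hcomm u hu u₀ hu₀] at h1
  have h3 : x u * (f u₀ : M2 k) 1 0 = x u₀ * (f u : M2 k) 1 0 := by
    linear_combination h2 - h1
  field_simp
  linear_combination -h3

include hP hcP hf hcomm in
/-- **(U3)** if the lower-left coordinate vanishes on `P`, the diagonal coordinate is proportional
to `x`. -/
theorem b_eq (h2 : (2 : k) ≠ 0) (hcc : ∀ u ∈ P, (f u : M2 k) 1 0 = 0)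
    {u₀ : G} (hu₀ : u₀ ∈ P) (hx₀ : x u₀ ≠ 0) {u : G} (hu : u ∈ P) :
    (f u : M2 k) 0 0 = (f u₀ : M2 k) 0 0 / x u₀ * x u := by
  have h1 := a_mul hP hcP hf hu hu₀
  have h2' := a_mul hP hcP hf hu₀ hu
  rw [hcomm u hu u₀ hu₀] at h1
  rw [hcc u₀ hu₀] at h1
  rw [hcc u hu] at h2'
  have h3 : 2 * (x u * (f u₀ : M2 k) 0 0 - x u₀ * (f u : M2 k) 0 0) = 0 := by
    linear_combination h1 - h2'
  have h4 : x u * (f u₀ : M2 k) 0 0 = x u₀ * (f u : M2 k) 0 0 := by
    rcases mul_eq_zero.mp h3 with h | h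
    · exact absurd h h2
    · exact sub_eq_zero.mp h
  field_simp
  linear_combination -h4

include hP hcP hf in
/-- `α u = a u + β (x u)²` is additive when `cc = 0` and `b = β x`. -/
theorem alpha_mul (β : k) (hcc : ∀ u ∈ P, (f u : M2 k) 1 0 = 0)
    (hb : ∀ u ∈ P, (f u : M2 k) 0 0 = β * x u) {u v : G} (hu : u ∈ P) (hv : v ∈ P) :
    (f (u * v) : M2 k) 0 1 + β * (x (u * v)) ^ 2 =
      ((f u : M2 k) 0 1 + β * (x u) ^ 2) + ((f v : M2 k) 0 1 + β * (x v) ^ 2) := by
  rw [a_mul hP hcP hf hu hv, x_mul hP hu hv, hcc v hv, hb v hv]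
  ring

include hP hcP in
/-- **(U4)** a cocycle of the shape `u ↦ [[β x, α₀ x - β x²], [0, -β x]]` on `P` is the coboundary
of `[[-α₀/2, 0], [β, α₀/2]]`. -/
theorem isCob_on (h2 : (2 : k) ≠ 0) (β α₀ : k) (hcc : ∀ u ∈ P, (f u : M2 k) 1 0 = 0)
    (hb : ∀ u ∈ P, (f u : M2 k) 0 0 = β * x u)
    (hα : ∀ u ∈ P, (f u : M2 k) 0 1 + β * (x u) ^ 2 = α₀ * x u) :
    ∀ u ∈ P, f u = adSl ρ c u (mkSl 0 (-(α₀ / 2)) β) - mkSl 0 (-(α₀ / 2)) β := by
  intro u hu
  apply ext_entries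
  · simp only [AddSubgroupClass.coe_sub, Matrix.sub_apply, adSl_unip_00 ρ c (hP u hu), hcP u hu,
      Units.val_one, one_mul, mkSl_00, mkSl_10, hb u hu]
    ring
  · simp only [AddSubgroupClass.coe_sub, Matrix.sub_apply, adSl_unip_01 ρ c (hP u hu), hcP u hu,
      Units.val_one, one_mul, mkSl_00, mkSl_10, mkSl_01]
    have h3 : (f u : M2 k) 0 1 = α₀ * x u - β * (x u) ^ 2 := by linear_combination hα u hu
    rw [h3]
    field_simp
    ring
  · simp only [AddSubgroupClass.coe_sub, Matrix.sub_apply, adSl_unip_10 ρ c (hP u hu), hcP u hu,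
      Units.val_one, one_mul, mkSl_10, hcc u hu]
    ring

end relations

section equivariance

variable {ρ c P x}
variable (hP : ∀ u ∈ P, ρ u = !![1, x u; 0, 1]) (hcP : ∀ u ∈ P, c u = 1)
variable {f : G → slM k} (hf : Coc3.IsCoc (adSl ρ c) f)

include hf in
/-- The general conjugation formula `f (g u g⁻¹) = f g + g • f u - (g u g⁻¹) • f g`. -/
theorem f_conj (g u : G) :
    f (g * u * g⁻¹) = f g + adSl ρ c g (f u) - adSl ρ c (g * u * g⁻¹) (f g) := by
  rw [hf (g * u) g⁻¹, hf g u, hf.map_inv, map_neg]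
  have h : adSl ρ c (g * u) (adSl ρ c g⁻¹ (f g)) = adSl ρ c (g * u * g⁻¹) (f g) := by
    rw [← Module.End.mul_apply, ← map_mul]
  rw [h]
  abel

include hf in
/-- Equivariance under an element where the cocycle vanishes. -/
theorem f_conj_of_eq_zero {g : G} (hg : f g = 0) (u : G) :
    f (g * u * g⁻¹) = adSl ρ c g (f u) := by
  rw [f_conj hf g u, hg, map_zero, zero_add, sub_zero]

include hP in
theorem x_conj {g : G} {s t y : k} (hs : s ≠ 0) (ht : t ≠ 0) (hg : ρ g = !![s, y; 0, t])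
    {u : G} (hu : u ∈ P) (hgu : g * u * g⁻¹ ∈ P) : x (g * u * g⁻¹) = s * t⁻¹ * x u := by
  have h1 := hP _ hgu
  rw [upper_conj_unip ρ hs ht hg (hP u hu)] at h1
  have := congrFun (congrFun h1 0) 1
  simpa using this.symm

include hP hcP hf in
/-- Exact equivariance of the lower-left coordinate under upper triangular elements normalising
`P` (no normalisation of `f` needed). -/
theorem cc_conj {g : G} {s t y : k} (hs : s ≠ 0) (ht : t ≠ 0) (hg : ρ g = !![s, y; 0, t])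
    {u : G} (_hu : u ∈ P) (hgu : g * u * g⁻¹ ∈ P) :
    (f (g * u * g⁻¹) : M2 k) 1 0 = (c g : k) * (t * s⁻¹ * (f u : M2 k) 1 0) := by
  have h := congrArg (fun A : slM k => (A : M2 k) 1 0) (f_conj hf g u)
  simp only [AddSubgroupClass.coe_sub, Submodule.coe_add, Matrix.add_apply, Matrix.sub_apply] at h
  rw [h, adSl_unip_10 ρ c (hP _ hgu), hcP _ hgu, Units.val_one, one_mul,
    adSl_upper_10 ρ c hs ht hg]
  ring

end equivariance

end Fermat.Agent.TW.GRP.UnipCoc0
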