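/-
Programme T (S56), chapter T/GRP, Phase 2 (lead), plan T/plan/DICKSON cases R1/R3 (`q = p`):
**cocycles on the cyclic group generated by a nontrivial unipotent element**.

`ρ u₀ = [[1, x₀], [0, 1]]`, `x₀ ≠ 0`, `c u₀ = 1`, `P = zpowers u₀`.
* `exists_primitive_on_zpowers` : if the lower-left coordinate of `f u₀` vanishes, `f` is a
  coboundary on `P`;
* `cc_eq_zero_of_char_three` : in characteristic `3`, if `f (u₀ ^ 3) = 0`, that coordinate vanishes;
* `cc_eq_zero_of_normalizer` : it also vanishes if some `g` with `ρ g = [[s, y], [0, t]]`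
  normalising `P` has `c g * t / s ≠ s / t`.
-/
import Mathlib
import Fermat.Agent.TW.GRP.UnipCoc0

set_option autoImplicit false

namespace Fermat.Agent.TW.GRP.CyclicCase0

open Matrix
open Fermat.Agent.TW.GRP.Mat2x3 Fermat.Agent.TW.GRP.Irred3 Fermat.Agent.TW.GRP.AdZero3
open Fermat.Agent.TW.GRP.AdFormulas0 Fermat.Agent.TW.GRP.UnipCoc0 Fermat.Agent.TW.GRP

variable {k : Type*} [Field k] {G : Type*} [Group G]
variable (ρ : G →* M2 k) (c : G →* kˣ)

/-- The preimage of the upper unitriangular matrices. -/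
def unipSub : Subgroup G where
  carrier := {g | ρ g = !![1, (ρ g) 0 1; 0, 1]}
  mul_mem' := by
    intro a b ha hb
    simp only [Set.mem_ofPred_eq] at ha hb ⊢
    rw [map_mul]
    rw [ha, hb, Matrix.mul_fin_two]
    ext i j; fin_cases i <;> fin_cases j <;> simp
  one_mem' := by
    simp only [Set.mem_ofPred_eq, map_one]
    ext i j; fin_cases i <;> fin_cases j <;> simp
  inv_mem' := by
    intro a ha
    simp only [Set.mem_ofPred_eq] at ha ⊢
    rw [rho_inv_unip ρ ha]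
    ext i j; fin_cases i <;> fin_cases j <;> simp

theorem mem_unipSub {g : G} : g ∈ unipSub ρ ↔ ρ g = !![1, (ρ g) 0 1; 0, 1] := Iff.rfl

theorem mem_unipSub_of {g : G} {x : k} (hg : ρ g = !![1, x; 0, 1]) : g ∈ unipSub ρ := by
  rw [mem_unipSub, hg]
  simp

section cyclic

variable {ρ c}
variable {u₀ : G} {x₀ : k} (hx₀ : x₀ ≠ 0) (hu₀ : ρ u₀ = !![1, x₀; 0, 1]) (hc₀ : c u₀ = 1)
variable {f : G → slM k} (hf : Coc3.IsCoc (adSl ρ c) f)

include hu₀ in
theorem zpowers_le_unipSub : Subgroup.zpowers u₀ ≤ unipSub ρ :=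
  Subgroup.zpowers_le.mpr (mem_unipSub_of ρ hu₀)

include hu₀ in
theorem rho_of_mem_zpowers {u : G} (hu : u ∈ Subgroup.zpowers u₀) :
    ρ u = !![1, (ρ u) 0 1; 0, 1] :=
  zpowers_le_unipSub hu₀ hu

include hc₀ in
theorem c_of_mem_zpowers {u : G} (hu : u ∈ Subgroup.zpowers u₀) : c u = 1 := by
  have : Subgroup.zpowers u₀ ≤ c.ker := Subgroup.zpowers_le.mpr (MonoidHom.mem_ker.mpr hc₀)
  exact MonoidHom.mem_ker.mp (this hu)

theorem comm_of_mem_zpowers {u v : G} (hu : u ∈ Subgroup.zpowers u₀)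
    (hv : v ∈ Subgroup.zpowers u₀) : u * v = v * u := by
  obtain ⟨m, rfl⟩ := Subgroup.mem_zpowers_iff.mp hu
  obtain ⟨n, rfl⟩ := Subgroup.mem_zpowers_iff.mp hv
  rw [← _root_.zpow_add, ← _root_.zpow_add, add_comm]

include hx₀ hu₀ hc₀ hf in
/-- If the lower-left coordinate of `f u₀` vanishes, `f` is a coboundary on `zpowers u₀`. -/
theorem exists_primitive_on_zpowers (h2 : (2 : k) ≠ 0) (hcc : (f u₀ : M2 k) 1 0 = 0) :
    ∃ w : slM k, ∀ u ∈ Subgroup.zpowers u₀, f u = adSl ρ c u w - w := by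
  set P := Subgroup.zpowers u₀ with hPdef
  set x : G → k := fun g => (ρ g) 0 1 with hxdef
  have hP : ∀ u ∈ P, ρ u = !![1, x u; 0, 1] := fun u hu => rho_of_mem_zpowers hu₀ hu
  have hcP : ∀ u ∈ P, c u = 1 := fun u hu => c_of_mem_zpowers hc₀ hu
  have hcomm : ∀ u ∈ P, ∀ v ∈ P, f (u * v) = f (v * u) := fun u hu v hv => by
    rw [comm_of_mem_zpowers hu hv]
  have hu₀P : u₀ ∈ P := Subgroup.mem_zpowers u₀
  have hxu₀ : x u₀ = x₀ := by rw [hxdef]; simp only; rw [hu₀]; simp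
  have hxu₀' : x u₀ ≠ 0 := by rw [hxu₀]; exact hx₀
  have hccP : ∀ u ∈ P, (f u : M2 k) 1 0 = 0 := by
    intro u hu
    rw [cc_eq hP hcP hf hcomm hu₀P hxu₀' hu, hcc, zero_div, zero_mul]
  set β : k := (f u₀ : M2 k) 0 0 / x u₀ with hβ
  have hbP : ∀ u ∈ P, (f u : M2 k) 0 0 = β * x u := fun u hu =>
    b_eq hP hcP hf hcomm h2 hccP hu₀P hxu₀' hu
  set α : G → k := fun u => (f u : M2 k) 0 1 + β * (x u) ^ 2 with hα
  set α₀ : k := α u₀ / x u₀ with hα₀
  -- `α = α₀ x` on `P`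
  let R : Subgroup G :=
    { carrier := {u | u ∈ P ∧ α u = α₀ * x u}
      mul_mem' := by
        rintro a b ⟨ha, ha'⟩ ⟨hb, hb'⟩
        refine ⟨P.mul_mem ha hb, ?_⟩
        have h := alpha_mul hP hcP hf β hccP hbP ha hb
        show α (a * b) = α₀ * x (a * b)
        rw [x_mul hP ha hb, mul_add, ← ha', ← hb']
        exact h
      one_mem' := by
        refine ⟨P.one_mem, ?_⟩
        show α 1 = α₀ * x 1
        have h1 : x (1 : G) = 0 := by rw [hxdef]; simp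
        rw [hα]
        simp only
        rw [h1, hf.map_one]
        simp
      inv_mem' := by
        rintro a ⟨ha, ha'⟩
        refine ⟨P.inv_mem ha, ?_⟩
        have h := alpha_mul hP hcP hf β hccP hbP ha (P.inv_mem ha)
        have hx := x_mul hP ha (P.inv_mem ha)
        rw [mul_inv_cancel] at h hx
        have h1 : x (1 : G) = 0 := by rw [hxdef]; simp
        have hα1 : (f 1 : M2 k) 0 1 + β * x 1 ^ 2 = 0 := by
          rw [h1, hf.map_one]; simp
        rw [hα1] at h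
        rw [h1] at hx
        show α a⁻¹ = α₀ * x a⁻¹
        have hx' : x a⁻¹ = -x a := by linear_combination -hx
        have h' : α a⁻¹ = -α a := by
          show (f a⁻¹ : M2 k) 0 1 + β * x a⁻¹ ^ 2 = -((f a : M2 k) 0 1 + β * x a ^ 2)
          linear_combination -h
        rw [h', hx', ha']
        ring }
  have hR : P ≤ R := by
    rw [hPdef]
    refine Subgroup.zpowers_le.mpr ⟨hu₀P, ?_⟩
    show α u₀ = α₀ * x u₀
    rw [hα₀]
    field_simp
  have hαP : ∀ u ∈ P, (f u : M2 k) 0 1 + β * (x u) ^ 2 = α₀ * x u := fun u hu => (hR hu).2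
  exact ⟨_, isCob_on hP hcP h2 β α₀ hccP hbP hαP⟩

include hx₀ hu₀ hc₀ hf in
/-- In characteristic `3`, if `f (u₀ ^ 3) = 0` then the lower-left coordinate of `f u₀` vanishes. -/
theorem cc_eq_zero_of_char_three (h3 : (3 : k) = 0) (hf3 : f (u₀ ^ 3) = 0) :
    (f u₀ : M2 k) 1 0 = 0 := by
  set P := Subgroup.zpowers u₀ with hPdef
  set x : G → k := fun g => (ρ g) 0 1 with hxdef
  have hP : ∀ u ∈ P, ρ u = !![1, x u; 0, 1] := fun u hu => rho_of_mem_zpowers hu₀ hu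
  have hcP : ∀ u ∈ P, c u = 1 := fun u hu => c_of_mem_zpowers hc₀ hu
  have hu₀P : u₀ ∈ P := Subgroup.mem_zpowers u₀
  have hu₀2 : u₀ * u₀ ∈ P := P.mul_mem hu₀P hu₀P
  have hxu₀ : x u₀ = x₀ := by rw [hxdef]; simp only; rw [hu₀]; simp
  have e3 : u₀ ^ 3 = u₀ * (u₀ * u₀) := by rw [pow_succ, pow_two, mul_assoc]
  rw [e3] at hf3
  have hc2 := cc_mul hP hcP hf hu₀P hu₀P
  have hb2 := b_mul hP hcP hf hu₀P hu₀P
  have ha2 := a_mul hP hcP hf hu₀P hu₀P
  have ha3 := a_mul hP hcP hf hu₀P hu₀2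
  rw [hf3] at ha3
  simp only [ZeroMemClass.coe_zero, Matrix.zero_apply] at ha3
  rw [ha2, hb2, hc2, hxu₀] at ha3
  -- `0 = 3A - 6 x₀ B - 5 x₀² C`
  have h5 : x₀ ^ 2 * (f u₀ : M2 k) 1 0 = 0 := by
    have h6 : (6 : k) = 0 := by
      have : (6 : k) = 2 * 3 := by norm_num
      rw [this, h3, mul_zero]
    have h5' : (5 : k) = -1 := by
      have : (5 : k) = 6 - 1 := by norm_num
      rw [this, h6, zero_sub]
    have : 3 * (f u₀ : M2 k) 0 1 - 6 * x₀ * (f u₀ : M2 k) 0 0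
        - 5 * x₀ ^ 2 * (f u₀ : M2 k) 1 0 = 0 := by linear_combination -ha3
    rw [h3, h6, h5'] at this
    linear_combination this
  rcases mul_eq_zero.mp h5 with h | h
  · exact absurd (pow_eq_zero_iff (two_ne_zero)|>.mp h) hx₀
  · exact h

include hx₀ hu₀ hc₀ hf in
/-- The lower-left coordinate vanishes if some upper triangular `g` normalising `zpowers u₀` has
`c g * (t / s) ≠ s / t`. -/
theorem cc_eq_zero_of_normalizer {g : G} {s t y : k} (hs : s ≠ 0) (ht : t ≠ 0)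
    (hg : ρ g = !![s, y; 0, t]) (hgu : g * u₀ * g⁻¹ ∈ Subgroup.zpowers u₀)
    (hne : (c g : k) * (t * s⁻¹) ≠ s * t⁻¹) : (f u₀ : M2 k) 1 0 = 0 := by
  set P := Subgroup.zpowers u₀ with hPdef
  set x : G → k := fun g => (ρ g) 0 1 with hxdef
  have hP : ∀ u ∈ P, ρ u = !![1, x u; 0, 1] := fun u hu => rho_of_mem_zpowers hu₀ hu
  have hcP : ∀ u ∈ P, c u = 1 := fun u hu => c_of_mem_zpowers hc₀ hu
  have hcomm : ∀ u ∈ P, ∀ v ∈ P, f (u * v) = f (v * u) := fun u hu v hv => by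
    rw [comm_of_mem_zpowers hu hv]
  have hu₀P : u₀ ∈ P := Subgroup.mem_zpowers u₀
  have hxu₀ : x u₀ = x₀ := by rw [hxdef]; simp only; rw [hu₀]; simp
  have hxu₀' : x u₀ ≠ 0 := by rw [hxu₀]; exact hx₀
  have h1 := cc_conj hP hcP hf hs ht hg hu₀P hgu
  have h2 := cc_eq hP hcP hf hcomm hu₀P hxu₀' hgu
  rw [x_conj hP hs ht hg hu₀P hgu] at h2
  rw [h1] at h2
  -- `(c g t/s - s/t) * cc u₀ = 0`
  have h3 : ((c g : k) * (t * s⁻¹) - s * t⁻¹) * (f u₀ : M2 k) 1 0 = 0 := by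
    have : (f u₀ : M2 k) 1 0 / x u₀ * (s * t⁻¹ * x u₀) = s * t⁻¹ * (f u₀ : M2 k) 1 0 := by
      field_simp
    rw [this] at h2
    linear_combination h2
  rcases mul_eq_zero.mp h3 with h | h
  · exact absurd (sub_eq_zero.mp h) hne
  · exact h

end cyclic

end Fermat.Agent.TW.GRP.CyclicCase0
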