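/-
Programme T (S56), chapter T/GRP, Phase 2 (lead; brick (E) of helper3's msg 239):
**an irreducible rank-two matrix representation containing a nontrivial upper unitriangular
element has an element of determinant one which is not upper triangular.**

* `lower_left_eq_zero_of_conj` : if `ρ u₀ = [[1, x₀], [0, 1]]` with `x₀ ≠ 0` and the conjugate
  `h u₀ h⁻¹` is upper triangular, then `ρ h` is upper triangular;
* `exists_det_one_not_upper` : under `TWHyp.irr` there is `g` with `det (ρ g) = 1` and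
  `ρ g 1 0 ≠ 0`.

No finiteness and no injectivity is needed.
-/
import Mathlib
import Fermat.Agent.TW.GRP.CyclicCase0

set_option autoImplicit false

namespace Fermat.Agent.TW.GRP.IrredOrbit0

open Matrix
open Fermat.Agent.TW.GRP.Mat2x3 Fermat.Agent.TW.GRP.CyclicCase0

variable {k : Type*} [Field k] {Γ : Type*} [Group Γ]

/-- If the conjugate of a nontrivial upper unitriangular element by `h` is upper triangular then
`ρ h` is upper triangular. -/
theorem lower_left_eq_zero_of_conj {ρ : Γ →* M2 k} {u₀ : Γ} (hu₀ : u₀ ∈ unipSub ρ)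
    (hx₀ : ρ u₀ 0 1 ≠ 0) (h : Γ) (hconj : ρ (h * u₀ * h⁻¹) 1 0 = 0) : ρ h 1 0 = 0 := by
  have hU : ρ u₀ = !![1, (ρ u₀) 0 1; 0, 1] := (mem_unipSub ρ).mp hu₀
  -- `ρ (h u₀ h⁻¹) * ρ h = ρ h * ρ u₀`
  have hrel : ρ (h * u₀ * h⁻¹) * ρ h = ρ h * ρ u₀ := by
    rw [← map_mul, ← map_mul]
    congr 1
    group
  have h10 := congrFun (congrFun hrel 1) 0
  have h11 := congrFun (congrFun hrel 1) 1
  rw [Matrix.mul_apply, Matrix.mul_apply, Fin.sum_univ_two, Fin.sum_univ_two] at h10 h11
  rw [hconj, zero_mul, zero_add] at h10 h11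
  have e00 : ρ u₀ 0 0 = 1 := by rw [hU]; simp
  have e10 : ρ u₀ 1 0 = 0 := by rw [hU]; simp
  have e11 : ρ u₀ 1 1 = 1 := by rw [hU]; simp
  rw [e00, e10, mul_one, mul_zero, add_zero] at h10
  rw [e11, mul_one] at h11
  by_contra hc
  -- `g11 = 1`
  have hg11 : ρ (h * u₀ * h⁻¹) 1 1 = 1 := by
    have := h10
    field_simp at this
    exact this
  rw [hg11, one_mul] at h11
  have : ρ h 1 0 * ρ u₀ 0 1 = 0 := by
    have h' := h11
    have : ρ h 1 0 * ρ u₀ 0 1 + ρ h 1 1 = ρ h 1 1 := h'.symm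
    exact by simpa using this
  rcases mul_eq_zero.mp this with h0 | h0
  · exact hc h0
  · exact hx₀ h0

/-- **(E)**: an irreducible representation containing a nontrivial upper unitriangular element
has an element of determinant one which is not upper triangular. -/
theorem exists_det_one_not_upper {ρ : Γ →* M2 k}
    (hirr : ∀ v : Fin 2 → k, v ≠ 0 → ¬ ∀ g : Γ, ∃ c : k, ρ g *ᵥ v = c • v)
    {u₀ : Γ} (hu₀ : u₀ ∈ unipSub ρ) (hx₀ : ρ u₀ 0 1 ≠ 0) :
    ∃ g : Γ, (ρ g).det = 1 ∧ ρ g 1 0 ≠ 0 := by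
  by_contra hno
  push Not at hno
  have hU : ρ u₀ = !![1, (ρ u₀) 0 1; 0, 1] := (mem_unipSub ρ).mp hu₀
  have hdetU : (ρ u₀).det = 1 := by
    rw [hU, Matrix.det_fin_two_of]; ring
  -- every `ρ h` is upper triangular
  have hupper : ∀ h : Γ, ρ h 1 0 = 0 := by
    intro h
    apply lower_left_eq_zero_of_conj hu₀ hx₀ h
    apply hno
    rw [map_mul, map_mul, Matrix.det_mul, Matrix.det_mul, hdetU, mul_one, ← Matrix.det_mul,
      ← map_mul, mul_inv_cancel, map_one, Matrix.det_one]
  -- so `e₁` is a common eigenvector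
  apply hirr ![1, 0]
  · intro h0
    have := congrFun h0 0
    simp at this
  · intro g
    refine ⟨ρ g 0 0, ?_⟩
    ext i
    fin_cases i
    · simp [Matrix.mulVec, dotProduct, Fin.sum_univ_two]
    · simp [Matrix.mulVec, dotProduct, Fin.sum_univ_two, hupper g]

end Fermat.Agent.TW.GRP.IrredOrbit0
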