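/-
Programme T (S56), chapter T/GRP, Phase 2 brick G14a (lead): **standard elements of `SL₂(F)` and
their relations** (`F` a field): upper unipotents `uu x`, torus `tt s`, Weyl element `ww`, lower
unipotents `vv y`, and the Bruhat decomposition.
-/
import Mathlib

set_option autoImplicit false

namespace Fermat.Agent.TW.GRP.SL2Elems0

open Matrix MatrixGroups

variable {F : Type*} [Field F]

/-- Upper unipotent `[[1, x], [0, 1]]`. -/
def uu (x : F) : SL(2, F) := ⟨!![1, x; 0, 1], by rw [Matrix.det_fin_two_of]; ring⟩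

/-- Torus element `[[s, 0], [0, s⁻¹]]`. -/
def tt (s : Fˣ) : SL(2, F) := ⟨!![(s : F), 0; 0, ((s⁻¹ : Fˣ) : F)], by
  rw [Matrix.det_fin_two_of]; simp⟩

/-- Weyl element `[[0, -1], [1, 0]]`. -/
def ww : SL(2, F) := ⟨!![0, -1; 1, 0], by rw [Matrix.det_fin_two_of]; ring⟩

/-- Lower unipotent `[[1, 0], [y, 1]]`. -/
def vv (y : F) : SL(2, F) := ⟨!![1, 0; y, 1], by rw [Matrix.det_fin_two_of]; ring⟩

@[simp] theorem uu_coe (x : F) : ((uu x : SL(2, F)) : Matrix (Fin 2) (Fin 2) F) = !![1, x; 0, 1] := rfl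
@[simp] theorem tt_coe (s : Fˣ) :
    ((tt s : SL(2, F)) : Matrix (Fin 2) (Fin 2) F) = !![(s : F), 0; 0, ((s⁻¹ : Fˣ) : F)] := rfl
@[simp] theorem ww_coe : ((ww : SL(2, F)) : Matrix (Fin 2) (Fin 2) F) = !![0, -1; 1, 0] := rfl
@[simp] theorem vv_coe (y : F) : ((vv y : SL(2, F)) : Matrix (Fin 2) (Fin 2) F) = !![1, 0; y, 1] := rfl

theorem ext_coe {g h : SL(2, F)}
    (H : (g : Matrix (Fin 2) (Fin 2) F) = (h : Matrix (Fin 2) (Fin 2) F)) : g = h :=
  Subtype.ext H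

theorem uu_add (x y : F) : uu (x + y) = uu x * uu y := by
  apply ext_coe
  rw [Matrix.SpecialLinearGroup.coe_mul, uu_coe, uu_coe, uu_coe, Matrix.mul_fin_two]
  simp [add_comm]

theorem uu_zero : uu (0 : F) = 1 := by
  apply ext_coe
  rw [uu_coe, Matrix.SpecialLinearGroup.coe_one, Matrix.one_fin_two]

theorem uu_inv (x : F) : (uu x)⁻¹ = uu (-x) := by
  rw [inv_eq_iff_mul_eq_one, ← uu_add, add_neg_cancel, uu_zero]

theorem tt_mul (s s' : Fˣ) : tt (s * s') = tt s * tt s' := by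
  apply ext_coe
  rw [Matrix.SpecialLinearGroup.coe_mul, tt_coe, tt_coe, tt_coe, Matrix.mul_fin_two]
  simp [mul_comm]

theorem tt_one : tt (1 : Fˣ) = 1 := by
  apply ext_coe
  rw [tt_coe, Matrix.SpecialLinearGroup.coe_one, Matrix.one_fin_two]
  simp

theorem tt_inv (s : Fˣ) : (tt s)⁻¹ = tt s⁻¹ := by
  rw [inv_eq_iff_mul_eq_one, ← tt_mul, mul_inv_cancel, tt_one]

/-- The torus as a homomorphism. -/
def ttHom : Fˣ →* SL(2, F) where
  toFun := tt
  map_one' := tt_one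
  map_mul' := tt_mul

@[simp] theorem ttHom_apply (s : Fˣ) : ttHom s = tt s := rfl

/-- `t u(x) t⁻¹ = u(s² x)`. -/
theorem tt_uu_conj (s : Fˣ) (x : F) : tt s * uu x * (tt s)⁻¹ = uu ((s : F) ^ 2 * x) := by
  rw [tt_inv]
  apply ext_coe
  rw [Matrix.SpecialLinearGroup.coe_mul, Matrix.SpecialLinearGroup.coe_mul, uu_coe, tt_coe, tt_coe, uu_coe,
    Matrix.mul_fin_two, Matrix.mul_fin_two]
  simp only [inv_inv, mul_one, mul_zero, add_zero, zero_mul, zero_add]
  ext i j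
  fin_cases i <;> fin_cases j <;> simp [pow_two, mul_comm, mul_left_comm]

/-- `w t = t⁻¹ w`. -/
theorem ww_tt (s : Fˣ) : ww * tt s = tt s⁻¹ * ww := by
  apply ext_coe
  rw [Matrix.SpecialLinearGroup.coe_mul, Matrix.SpecialLinearGroup.coe_mul, ww_coe, tt_coe, tt_coe,
    Matrix.mul_fin_two, Matrix.mul_fin_two]
  simp

/-- `w u(-y) w⁻¹ = v(y)`. -/
theorem ww_uu_conj (y : F) : ww * uu (-y) * ww⁻¹ = vv y := by
  rw [mul_inv_eq_iff_eq_mul]
  apply ext_coe
  rw [Matrix.SpecialLinearGroup.coe_mul, Matrix.SpecialLinearGroup.coe_mul, ww_coe, uu_coe, vv_coe,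
    Matrix.mul_fin_two, Matrix.mul_fin_two]
  simp

/-- `v(y) = u(1/y) t(1/y) w u(1/y)` for `y ≠ 0`. -/
theorem vv_eq (y : Fˣ) :
    vv (y : F) = uu ((y⁻¹ : Fˣ) : F) * tt y⁻¹ * ww * uu ((y⁻¹ : Fˣ) : F) := by
  apply ext_coe
  rw [Matrix.SpecialLinearGroup.coe_mul, Matrix.SpecialLinearGroup.coe_mul, Matrix.SpecialLinearGroup.coe_mul, ww_coe,
    uu_coe, vv_coe, tt_coe, Matrix.mul_fin_two, Matrix.mul_fin_two, Matrix.mul_fin_two]
  simp

/-- Bruhat, small cell: lower-left entry zero. -/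
theorem eq_tt_mul_uu (g : SL(2, F)) (hg : (g : Matrix (Fin 2) (Fin 2) F) 1 0 = 0) :
    ∃ (s : Fˣ) (x : F), g = tt s * uu x := by
  obtain ⟨a, b, ha, rfl⟩ := Matrix.SpecialLinearGroup.fin_two_exists_eq_mk_of_apply_zero_one_eq_zero g hg
  refine ⟨Units.mk0 a ha, a⁻¹ * b, ?_⟩
  apply ext_coe
  rw [Matrix.SpecialLinearGroup.coe_mul, tt_coe, uu_coe, Matrix.mul_fin_two]
  simp [ha]

/-- Bruhat, big cell: lower-left entry nonzero. -/
theorem eq_big_cell (g : SL(2, F)) (hg : (g : Matrix (Fin 2) (Fin 2) F) 1 0 ≠ 0) :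
    ∃ (x : F) (s : Fˣ) (y : F), g = uu x * tt s * ww * uu y := by
  induction g using Matrix.SpecialLinearGroup.fin_two_induction with
  | h a b c d hdet =>
    have hc : c ≠ 0 := by simpa using hg
    refine ⟨a / c, (Units.mk0 c hc)⁻¹, d / c, ?_⟩
    apply ext_coe
    rw [Matrix.SpecialLinearGroup.coe_mul, Matrix.SpecialLinearGroup.coe_mul, Matrix.SpecialLinearGroup.coe_mul,
      ww_coe, uu_coe, uu_coe, tt_coe, Matrix.mul_fin_two, Matrix.mul_fin_two, Matrix.mul_fin_two]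
    simp only [inv_inv, Units.val_mk0, Units.val_inv_eq_inv_val]
    have hb : b = (a * d - 1) / c := by
      field_simp
      linear_combination -hdet
    ext i j
    fin_cases i <;> fin_cases j <;> simp <;> field_simp
    rw [hb]; field_simp; ring

theorem ww_inv_coe : ((ww⁻¹ : SL(2, F)) : Matrix (Fin 2) (Fin 2) F) = !![0, 1; -1, 0] := by
  rw [Matrix.SpecialLinearGroup.coe_inv, ww_coe, Matrix.adjugate_fin_two_of]
  simp

theorem vv_add (x y : F) : vv (x + y) = vv x * vv y := by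
  apply ext_coe
  rw [Matrix.SpecialLinearGroup.coe_mul, vv_coe, vv_coe, vv_coe, Matrix.mul_fin_two]
  simp [add_comm]

theorem vv_zero : vv (0 : F) = 1 := by
  apply ext_coe
  rw [vv_coe, Matrix.SpecialLinearGroup.coe_one, Matrix.one_fin_two]

theorem vv_inv (x : F) : (vv x)⁻¹ = vv (-x) := by
  rw [inv_eq_iff_mul_eq_one, ← vv_add, add_neg_cancel, vv_zero]

/-- The relation used in the big cell: `w u(-1) w⁻¹ = u(1) w u(1)`. -/
theorem ww_uu_conj_one : ww * uu (-1 : F) * ww⁻¹ = uu 1 * ww * uu 1 := by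
  have h1 := ww_uu_conj (1 : F)
  have h2 := vv_eq (1 : Fˣ)
  rw [inv_one, Units.val_one, tt_one, mul_one] at h2
  rw [h1, h2]

end Fermat.Agent.TW.GRP.SL2Elems0
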