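/-
Programme T (S56), chapter T/GRP, Phase 2 brick G14 (lead): **`H¹(SL₂(F), sl₂(k)) = 0`** for a finite
field `F` of odd characteristic with more than `5` elements and any field extension `k / F`
(so: all `q = 3^r`, `r ≥ 2`; the case `q = 3` is `S4Case0`, and `q = 5` is a genuine exception).

Elementary proof (no Cline–Parshall–Scott): normalise the cocycle on the torus by averaging, analyse
it on the upper unipotents using torus-equivariance (`c = 0`, `b = 0`, `a` is `F`-linear hence a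
coboundary of a multiple of `h`), then use the Bruhat decomposition and one relation
`w u(-1) w⁻¹ = u(1) w u(1)` to see that the normalised cocycle vanishes identically.

Vocabulary of helper3: `Coc3.IsCoc/IsCob`, `AdZero3.adSl`.
* `rho0 : SL(2, F) →* M2 k` (entrywise `algebraMap`), `ad0 = adSl rho0 1`;
* `isCob_SL2 : 5 < card F → (2 : k) ≠ 0 → IsCoc ad0 f → IsCob ad0 f`.
-/
import Mathlib
import Fermat.Agent.TW.GRP.SL2Elems0
import Fermat.Agent.TW.GRP.AdZero3
import Fermat.Agent.TW.GRP.Coc3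

set_option autoImplicit false

namespace Fermat.Agent.TW.GRP.H1SL2Zero0

open Matrix MatrixGroups
open Fermat.Agent.TW.GRP.Mat2x3 Fermat.Agent.TW.GRP.Irred3 Fermat.Agent.TW.GRP.AdZero3
open Fermat.Agent.TW.GRP.SL2Elems0 Fermat.Agent.TW.GRP

variable {F k : Type*} [Field F] [Field k] [Algebra F k]

/-- `SL₂(F) → M₂(k)`, entrywise `algebraMap`. -/
def rho0 : SL(2, F) →* M2 k where
  toFun g := (g : Matrix (Fin 2) (Fin 2) F).map (algebraMap F k)
  map_one' := by
    rw [Matrix.SpecialLinearGroup.coe_one]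
    simp
  map_mul' a b := by
    rw [Matrix.SpecialLinearGroup.coe_mul, Matrix.map_mul]

theorem rho0_apply (g : SL(2, F)) :
    (rho0 g : M2 k) = (g : Matrix (Fin 2) (Fin 2) F).map (algebraMap F k) := rfl

local notation "ι" => algebraMap F k

theorem rho0_uu (x : F) : (rho0 (uu x) : M2 k) = !![1, ι x; 0, 1] := by
  rw [rho0_apply, uu_coe]
  ext i j; fin_cases i <;> fin_cases j <;> simp

theorem rho0_uu_inv (x : F) : (rho0 (uu x)⁻¹ : M2 k) = !![1, -ι x; 0, 1] := by
  rw [uu_inv, rho0_uu, map_neg]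

theorem rho0_tt (s : Fˣ) : (rho0 (tt s) : M2 k) = !![ι s, 0; 0, (ι s)⁻¹] := by
  rw [rho0_apply, tt_coe]
  ext i j; fin_cases i <;> fin_cases j <;> simp

theorem rho0_tt_inv (s : Fˣ) : (rho0 (tt s)⁻¹ : M2 k) = !![(ι s)⁻¹, 0; 0, ι s] := by
  rw [tt_inv, rho0_tt]
  simp

theorem rho0_ww : (rho0 (ww : SL(2, F)) : M2 k) = !![0, -1; 1, 0] := by
  rw [rho0_apply, ww_coe]
  ext i j; fin_cases i <;> fin_cases j <;> simp

theorem rho0_ww_inv : (rho0 (ww : SL(2, F))⁻¹ : M2 k) = !![0, 1; -1, 0] := by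
  rw [rho0_apply, ww_inv_coe]
  ext i j; fin_cases i <;> fin_cases j <;> simp

/-- The adjoint representation of `SL₂(F)` on `sl₂(k)`. -/
abbrev ad0 : Representation k SL(2, F) (slM k) := adSl (rho0 (F := F) (k := k)) 1

theorem ad0_coe (g : SL(2, F)) (A : slM k) :
    ((ad0 g A : slM k) : M2 k) = rho0 g * (A : M2 k) * rho0 g⁻¹ := by
  rw [adSl_apply_coe, MonoidHom.one_apply, Units.val_one, one_smul]

/-- Coordinates on `sl₂`. -/
theorem coe_eq_of (A : slM k) :
    (A : M2 k) = !![(A : M2 k) 0 0, (A : M2 k) 0 1; (A : M2 k) 1 0, -(A : M2 k) 0 0] := by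
  have h := mem_slM.mp A.2
  rw [Matrix.trace_fin_two] at h
  have h2 : (A : M2 k) 1 1 = -(A : M2 k) 0 0 := eq_neg_of_add_eq_zero_right h
  conv_lhs => rw [Matrix.eta_fin_two (A : M2 k)]
  rw [h2]

theorem ext_entries {A B : slM k} (h00 : (A : M2 k) 0 0 = (B : M2 k) 0 0)
    (h01 : (A : M2 k) 0 1 = (B : M2 k) 0 1) (h10 : (A : M2 k) 1 0 = (B : M2 k) 1 0) : A = B := by
  apply Subtype.ext
  rw [coe_eq_of A, coe_eq_of B, h00, h01, h10]

theorem eq_zero_of_entries {A : slM k} (h00 : (A : M2 k) 0 0 = 0)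
    (h01 : (A : M2 k) 0 1 = 0) (h10 : (A : M2 k) 1 0 = 0) : A = 0 := by
  apply ext_entries <;> simp [h00, h01, h10]

/-! ### Entry formulas for the action of the standard elements -/

theorem ad0_uu_00 (x : F) (A : slM k) :
    ((ad0 (uu x) A : slM k) : M2 k) 0 0 = (A : M2 k) 0 0 + ι x * (A : M2 k) 1 0 := by
  rw [ad0_coe, rho0_uu, rho0_uu_inv, coe_eq_of A, Matrix.mul_fin_two, Matrix.mul_fin_two]
  simp

theorem ad0_uu_10 (x : F) (A : slM k) :
    ((ad0 (uu x) A : slM k) : M2 k) 1 0 = (A : M2 k) 1 0 := by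
  rw [ad0_coe, rho0_uu, rho0_uu_inv, coe_eq_of A, Matrix.mul_fin_two, Matrix.mul_fin_two]
  simp

theorem ad0_uu_01 (x : F) (A : slM k) :
    ((ad0 (uu x) A : slM k) : M2 k) 0 1 =
      (A : M2 k) 0 1 - 2 * ι x * (A : M2 k) 0 0 - (ι x) ^ 2 * (A : M2 k) 1 0 := by
  rw [ad0_coe, rho0_uu, rho0_uu_inv, coe_eq_of A, Matrix.mul_fin_two, Matrix.mul_fin_two]
  simp
  ring

theorem ad0_tt_00 (s : Fˣ) (A : slM k) :
    ((ad0 (tt s) A : slM k) : M2 k) 0 0 = (A : M2 k) 0 0 := by
  rw [ad0_coe, rho0_tt, rho0_tt_inv, coe_eq_of A, Matrix.mul_fin_two, Matrix.mul_fin_two]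
  have hs : ι (s : F) ≠ 0 := by simp
  simp
  field_simp

theorem ad0_tt_01 (s : Fˣ) (A : slM k) :
    ((ad0 (tt s) A : slM k) : M2 k) 0 1 = (ι s) ^ 2 * (A : M2 k) 0 1 := by
  rw [ad0_coe, rho0_tt, rho0_tt_inv, coe_eq_of A, Matrix.mul_fin_two, Matrix.mul_fin_two]
  simp
  ring

theorem ad0_tt_10 (s : Fˣ) (A : slM k) :
    ((ad0 (tt s) A : slM k) : M2 k) 1 0 = ((ι s) ^ 2)⁻¹ * (A : M2 k) 1 0 := by
  rw [ad0_coe, rho0_tt, rho0_tt_inv, coe_eq_of A, Matrix.mul_fin_two, Matrix.mul_fin_two]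
  have hs : ι (s : F) ≠ 0 := by simp
  simp
  field_simp

theorem ad0_ww_00 (A : slM k) :
    ((ad0 (ww : SL(2, F)) A : slM k) : M2 k) 0 0 = -(A : M2 k) 0 0 := by
  rw [ad0_coe, rho0_ww, rho0_ww_inv, coe_eq_of A, Matrix.mul_fin_two, Matrix.mul_fin_two]
  simp

/-! ### Auxiliary facts on the finite field -/

section finite

variable [Fintype F]

theorem exists_pow_four_ne_one (hq : 5 < Fintype.card F) : ∃ s : Fˣ, (s : F) ^ 4 ≠ 1 := by
  classical
  obtain ⟨g, hg⟩ := IsCyclic.exists_generator (α := Fˣ)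
  have hord : orderOf g = Fintype.card Fˣ := by
    rw [← Nat.card_eq_fintype_card]
    exact orderOf_eq_card_of_forall_mem_zpowers hg
  rw [Fintype.card_units] at hord
  refine ⟨g, fun h => ?_⟩
  have h4 : g ^ 4 = 1 := by
    apply Units.ext
    rw [Units.val_pow_eq_pow_val, h, Units.val_one]
  have := Nat.le_of_dvd (by norm_num) (orderOf_dvd_of_pow_eq_one h4)
  omega

theorem isUnit_card_units [DecidableEq F] : IsUnit ((Fintype.card Fˣ : ℕ) : k) := by
  rw [Fintype.card_units, Nat.cast_pred Fintype.card_pos]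
  have h0 : ((Fintype.card F : ℕ) : k) = 0 := by
    rw [← map_natCast (algebraMap F k), FiniteField.cast_card_eq_zero, map_zero]
  rw [h0, zero_sub]
  exact isUnit_one.neg

end finite

/-! ### Generalities on cocycles vanishing at an element -/

section general

variable {f : SL(2, F) → slM k}

theorem map_inv_eq_zero (hf : Coc3.IsCoc (ad0 (F := F) (k := k)) f) {t : SL(2, F)}
    (ht : f t = 0) : f t⁻¹ = 0 := by
  rw [hf.map_inv, ht, map_zero, neg_zero]

/-- Equivariance under conjugation by an element where the cocycle vanishes. -/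
theorem map_conj_of_eq_zero (hf : Coc3.IsCoc (ad0 (F := F) (k := k)) f) {t : SL(2, F)}
    (ht : f t = 0) (g : SL(2, F)) : f (t * g * t⁻¹) = ad0 t (f g) := by
  rw [hf (t * g) t⁻¹, map_inv_eq_zero hf ht, map_zero, add_zero, hf t g, ht, zero_add]

end general

theorem rho0_vv (y : F) : (rho0 (vv y) : M2 k) = !![1, 0; ι y, 1] := by
  rw [rho0_apply, vv_coe]
  ext i j; fin_cases i <;> fin_cases j <;> simp

theorem rho0_vv_inv (y : F) : (rho0 (vv y)⁻¹ : M2 k) = !![1, 0; -ι y, 1] := by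
  rw [vv_inv, rho0_vv, map_neg]

theorem ad0_vv_00 (y : F) (A : slM k) :
    ((ad0 (vv y) A : slM k) : M2 k) 0 0 = (A : M2 k) 0 0 - ι y * (A : M2 k) 0 1 := by
  rw [ad0_coe, rho0_vv, rho0_vv_inv, coe_eq_of A, Matrix.mul_fin_two, Matrix.mul_fin_two]
  simp
  ring

/-! ### Step D: a cocycle vanishing on the Borel subgroup vanishes -/

section bruhat

variable {f : SL(2, F) → slM k}

theorem eq_zero_of_borel (hf : Coc3.IsCoc (ad0 (F := F) (k := k)) f)
    (hT : ∀ s : Fˣ, f (tt s) = 0) (hU : ∀ x : F, f (uu x) = 0)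
    (hs : ∃ s : Fˣ, (s : F) ^ 2 ≠ 1) : ∀ g, f g = 0 := by
  obtain ⟨s, hs⟩ := hs
  have hιs : (ι (s : F)) ^ 2 ≠ 1 := by
    intro h
    apply hs
    apply (algebraMap F k).injective
    rw [map_pow, h, map_one]
  set m : slM k := f ww with hm
  -- `m` is fixed by the torus
  have hinv : ∀ t : Fˣ, ad0 (tt t) m = m := by
    intro t
    have h1 : f (ww * tt t⁻¹) = m := by rw [hf, hT, map_zero, add_zero]
    have h2 : f (tt t * ww) = ad0 (tt t) m := by rw [hf, hT, zero_add]
    rw [ww_tt, inv_inv] at h1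
    rw [← h2, h1]
  have h01 : (m : M2 k) 0 1 = 0 := by
    have h := ad0_tt_01 s m
    rw [hinv s] at h
    have h' : ((ι (s : F)) ^ 2 - 1) * (m : M2 k) 0 1 = 0 := by linear_combination -h
    rcases mul_eq_zero.mp h' with h0 | h0
    · exact absurd (sub_eq_zero.mp h0) hιs
    · exact h0
  have h10 : (m : M2 k) 1 0 = 0 := by
    have h := ad0_tt_10 s m
    rw [hinv s] at h
    have hne : (ι (s : F)) ^ 2 ≠ 0 := by simp
    have h' : ((ι (s : F)) ^ 2 - 1) * (m : M2 k) 1 0 = 0 := by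
      have h'' : (ι (s : F)) ^ 2 * (m : M2 k) 1 0 = (m : M2 k) 1 0 := by
        conv_lhs => rw [h]
        rw [← mul_assoc, mul_inv_cancel₀ hne, one_mul]
      linear_combination h''
    rcases mul_eq_zero.mp h' with h0 | h0
    · exact absurd (sub_eq_zero.mp h0) hιs
    · exact h0
  -- the value at `v(1)` computed in two ways
  have hv1 : f (vv (1 : F)) = m - ad0 (vv (1 : F)) m := by
    rw [← ww_uu_conj (1 : F), hf (ww * uu (-1 : F)) ww⁻¹, hf ww (uu (-1 : F)), hU, map_zero,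
      add_zero, hf.map_inv, map_neg, ← Module.End.mul_apply, ← map_mul, ← hm]
    abel
  have hv2 : f (vv (1 : F)) = ad0 (uu (1 : F)) m := by
    rw [← ww_uu_conj (1 : F), ww_uu_conj_one, hf (uu (1 : F) * ww) (uu (1 : F)), hU, map_zero,
      add_zero, hf (uu (1 : F)) ww, hU, zero_add]
  have h00 : (m : M2 k) 0 0 = 0 := by
    have h := congrArg (fun A : slM k => (A : M2 k) 0 0) (hv1.symm.trans hv2)
    simp only [AddSubgroupClass.coe_sub, Matrix.sub_apply] at h
    rw [ad0_vv_00, ad0_uu_00, h01, h10] at h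
    simp only [map_one, mul_zero, sub_zero, add_zero, sub_self] at h
    exact h.symm
  have hm0 : m = 0 := eq_zero_of_entries h00 h01 h10
  have hB : ∀ (x : F) (t : Fˣ), f (uu x * tt t) = 0 := by
    intro x t
    rw [hf, hU, hT, map_zero, add_zero]
  intro g
  by_cases hg : (g : Matrix (Fin 2) (Fin 2) F) 1 0 = 0
  · obtain ⟨t, x, rfl⟩ := eq_tt_mul_uu g hg
    rw [hf, hT, hU, map_zero, add_zero]
  · obtain ⟨x, t, y, rfl⟩ := eq_big_cell g hg
    rw [hf (uu x * tt t * ww) (uu y), hU, map_zero, add_zero, hf (uu x * tt t) ww, hB, ← hm, hm0,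
      map_zero, add_zero]

end bruhat

/-! ### Step B: analysis on the upper unipotent subgroup -/

section unipotent

variable {f : SL(2, F) → slM k}

/-- A cocycle vanishing on the torus is, on the unipotent subgroup, of the form
`u(x) ↦ [[0, x α], [0, 0]]`. -/
theorem exists_alpha (hf : Coc3.IsCoc (ad0 (F := F) (k := k)) f)
    (hT : ∀ s : Fˣ, f (tt s) = 0) (h2 : (2 : k) ≠ 0)
    (hs : ∃ s : Fˣ, (s : F) ^ 4 ≠ 1) :
    ∃ α : k, ∀ x : F, (f (uu x) : M2 k) 0 0 = 0 ∧ (f (uu x) : M2 k) 1 0 = 0 ∧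
      (f (uu x) : M2 k) 0 1 = ι x * α := by
  obtain ⟨s, hs⟩ := hs
  have hιinj : Function.Injective (ι) := (algebraMap F k).injective
  have hιs4 : (ι (s : F)) ^ 4 ≠ 1 := by
    intro h
    apply hs
    apply hιinj
    rw [map_pow, h, map_one]
  have hιs2 : (ι (s : F)) ^ 2 ≠ 1 := by
    intro h
    apply hιs4
    have : (ι (s : F)) ^ 4 = ((ι (s : F)) ^ 2) ^ 2 := by ring
    rw [this, h, one_pow]
  have hs2 : (s : F) ^ 2 - 1 ≠ 0 := by
    intro h
    apply hιs2
    rw [← map_pow, sub_eq_zero.mp h, map_one]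
  set a : F → k := fun x => (f (uu x) : M2 k) 0 1 with ha
  set b : F → k := fun x => (f (uu x) : M2 k) 0 0 with hb
  set c : F → k := fun x => (f (uu x) : M2 k) 1 0 with hc
  -- the cocycle relation on `U`
  have hcoc : ∀ x y : F, f (uu (x + y)) = f (uu x) + ad0 (uu x) (f (uu y)) := by
    intro x y
    rw [uu_add]
    exact hf _ _
  have hc_add : ∀ x y, c (x + y) = c x + c y := by
    intro x y
    have h := congrArg (fun A : slM k => (A : M2 k) 1 0) (hcoc x y)
    simp only [Submodule.coe_add, Matrix.add_apply, ad0_uu_10] at h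
    exact h
  have hb_add : ∀ x y, b (x + y) = b x + b y + ι x * c y := by
    intro x y
    have h := congrArg (fun A : slM k => (A : M2 k) 0 0) (hcoc x y)
    simp only [Submodule.coe_add, Matrix.add_apply, ad0_uu_00] at h
    rw [hb, hc]
    simp only
    rw [h]
    ring
  have ha_add : ∀ x y, a (x + y) = a x + a y - 2 * ι x * b y - (ι x) ^ 2 * c y := by
    intro x y
    have h := congrArg (fun A : slM k => (A : M2 k) 0 1) (hcoc x y)
    simp only [Submodule.coe_add, Matrix.add_apply, ad0_uu_01] at h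
    rw [ha, hb, hc]
    simp only
    rw [h]
    ring
  -- torus equivariance
  have heq : ∀ (t : Fˣ) (x : F), f (uu ((t : F) ^ 2 * x)) = ad0 (tt t) (f (uu x)) := by
    intro t x
    rw [← tt_uu_conj]
    exact map_conj_of_eq_zero hf (hT t) (uu x)
  have hc_eq : ∀ (t : Fˣ) (x : F), c ((t : F) ^ 2 * x) = ((ι (t : F)) ^ 2)⁻¹ * c x := by
    intro t x
    have h := congrArg (fun A : slM k => (A : M2 k) 1 0) (heq t x)
    simp only [ad0_tt_10] at h
    exact h
  have hb_eq : ∀ (t : Fˣ) (x : F), b ((t : F) ^ 2 * x) = b x := by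
    intro t x
    have h := congrArg (fun A : slM k => (A : M2 k) 0 0) (heq t x)
    simp only [ad0_tt_00] at h
    exact h
  have ha_eq : ∀ (t : Fˣ) (x : F), a ((t : F) ^ 2 * x) = (ι (t : F)) ^ 2 * a x := by
    intro t x
    have h := congrArg (fun A : slM k => (A : M2 k) 0 1) (heq t x)
    simp only [ad0_tt_01] at h
    exact h
  -- `c = 0`
  have hc_sym : ∀ x y, ι x * c y = ι y * c x := by
    intro x y
    have h1 := hb_add x y
    have h2' := hb_add y x
    rw [add_comm y x] at h2'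
    linear_combination h2' - h1
  have hc_lin : ∀ x, c x = ι x * c 1 := by
    intro x
    have h := hc_sym x 1
    rw [map_one, one_mul] at h
    exact h.symm
  have hc1 : c 1 = 0 := by
    have h1 := hc_eq s 1
    rw [mul_one, hc_lin ((s : F) ^ 2), map_pow] at h1
    have hne : (ι (s : F)) ^ 2 ≠ 0 := by simp
    have h3 : ((ι (s : F)) ^ 4 - 1) * c 1 = 0 := by
      have h4 : (ι (s : F)) ^ 2 * ((ι (s : F)) ^ 2 * c 1) = c 1 := by
        rw [h1, ← mul_assoc, mul_inv_cancel₀ hne, one_mul]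
      linear_combination h4
    rcases mul_eq_zero.mp h3 with h0 | h0
    · exact absurd (sub_eq_zero.mp h0) hιs4
    · exact h0
  have hc0 : ∀ x, c x = 0 := by
    intro x
    rw [hc_lin x, hc1, mul_zero]
  -- `b = 0`
  have hb_add' : ∀ x y, b (x + y) = b x + b y := by
    intro x y
    rw [hb_add x y, hc0 y, mul_zero, add_zero]
  have hb0 : ∀ z, b z = 0 := by
    intro z
    set x : F := z / ((s : F) ^ 2 - 1) with hx
    have h1 : (s : F) ^ 2 * x = x + z := by
      rw [hx]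
      field_simp
      ring
    have h3 := hb_eq s x
    rw [h1, hb_add'] at h3
    exact left_eq_add.mp h3.symm
  -- `a` is additive and `F`-linear
  have ha_add' : ∀ x y, a (x + y) = a x + a y := by
    intro x y
    rw [ha_add x y, hb0 y, hc0 y]
    ring
  have ha_zero : a 0 = 0 := by
    have h := ha_add' 0 0
    rw [add_zero] at h
    exact left_eq_add.mp h
  have ha_sq : ∀ (t x : F), a (t ^ 2 * x) = (ι t) ^ 2 * a x := by
    intro t x
    by_cases ht : t = 0
    · rw [ht]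
      simp [ha_zero]
    · exact ha_eq (Units.mk0 t ht) x
  have h2F : (2 : F) ≠ 0 := by
    intro h
    apply h2
    have : (ι (2 : F)) = 2 := map_ofNat _ 2
    rw [← this, h, map_zero]
  have ha_lin : ∀ z x : F, a (z * x) = ι z * a x := by
    intro z x
    set s1 : F := (z + 1) / 2 with hs1
    set s2 : F := (z - 1) / 2 with hs2
    have hz : s1 ^ 2 = z + s2 ^ 2 := by
      rw [hs1, hs2]
      field_simp
      ring
    have h1 : s1 ^ 2 * x = z * x + s2 ^ 2 * x := by rw [hz]; ring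
    have h3 := ha_sq s1 x
    rw [h1, ha_add', ha_sq s2 x] at h3
    have h4 : (ι s1) ^ 2 = ι z + (ι s2) ^ 2 := by
      rw [← map_pow, hz, map_add, map_pow]
    rw [h4] at h3
    linear_combination h3
  refine ⟨a 1, fun x => ⟨hb0 x, hc0 x, ?_⟩⟩
  have h := ha_lin x 1
  rwa [mul_one] at h

end unipotent

/-! ### The main theorem -/

/-- The diagonal element `h = [[1, 0], [0, -1]]` of `sl₂`. -/
def hh : slM k := ⟨!![1, 0; 0, -1], by rw [mem_slM, Matrix.trace_fin_two_of]; ring⟩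

theorem hh_00 : ((hh : slM k) : M2 k) 0 0 = 1 := rfl
theorem hh_01 : ((hh : slM k) : M2 k) 0 1 = 0 := rfl
theorem hh_10 : ((hh : slM k) : M2 k) 1 0 = 0 := rfl

section main

variable {f : SL(2, F) → slM k}

/-- A cocycle is a coboundary on the torus (averaging). -/
theorem exists_torus_primitive [Fintype F] (hf : Coc3.IsCoc (ad0 (F := F) (k := k)) f) :
    ∃ w₀ : slM k, ∀ s : Fˣ, f (tt s) = ad0 (tt s) w₀ - w₀ := by
  classical
  have hcoc : Coc3.IsCoc ((ad0 (F := F) (k := k)).comp ttHom) (fun s => f (tt s)) := by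
    intro s s'
    show f (tt (s * s')) = f (tt s) + ad0 (tt s) (f (tt s'))
    rw [tt_mul]
    exact hf _ _
  obtain ⟨w₀, hw₀⟩ := Coc3.isCob_of_isUnit_card hcoc isUnit_card_units
  exact ⟨w₀, fun s => hw₀ s⟩

/-- If some unit has `s⁴ ≠ 1` (e.g. `F` finite with more than `5` elements), every cocycle
`SL₂(F) → sl₂(k)` which is a coboundary on the torus is a coboundary. -/
theorem isCob_of_torus (hf : Coc3.IsCoc (ad0 (F := F) (k := k)) f) (h2 : (2 : k) ≠ 0)
    (hs : ∃ s : Fˣ, (s : F) ^ 4 ≠ 1)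
    (hT : ∃ w₀ : slM k, ∀ s : Fˣ, f (tt s) = ad0 (tt s) w₀ - w₀) :
    Coc3.IsCob (ad0 (F := F) (k := k)) f := by
  obtain ⟨w₀, hw₀⟩ := hT
  -- first normalisation
  set f₁ : SL(2, F) → slM k := fun g => f g - (ad0 g w₀ - w₀) with hf₁def
  have hf₁ : Coc3.IsCoc (ad0 (F := F) (k := k)) f₁ :=
    hf.sub (Coc3.IsCob.isCoc ⟨w₀, fun g => rfl⟩)
  have hf₁T : ∀ s : Fˣ, f₁ (tt s) = 0 := fun s => by
    rw [hf₁def]; simp only; rw [hw₀ s, sub_self]
  obtain ⟨α, hα⟩ := exists_alpha hf₁ hf₁T h2 hs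
  -- second normalisation
  set ν : k := -(α / 2) with hν
  set f₂ : SL(2, F) → slM k := fun g => f₁ g - (ad0 g (ν • hh) - ν • hh) with hf₂def
  have hf₂ : Coc3.IsCoc (ad0 (F := F) (k := k)) f₂ :=
    hf₁.sub (Coc3.IsCob.isCoc ⟨ν • hh, fun g => rfl⟩)
  have hfix : ∀ s : Fˣ, ad0 (tt s) (ν • (hh : slM k)) = ν • hh := by
    intro s
    apply ext_entries
    · rw [ad0_tt_00]
    · rw [ad0_tt_01]
      simp [hh_01]
    · rw [ad0_tt_10]
      simp [hh_10]
  have hf₂T : ∀ s : Fˣ, f₂ (tt s) = 0 := fun s => by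
    rw [hf₂def]; simp only; rw [hf₁T s, hfix s, sub_self, sub_zero]
  have hf₂U : ∀ x : F, f₂ (uu x) = 0 := by
    intro x
    obtain ⟨h00, h10, h01⟩ := hα x
    apply eq_zero_of_entries
    · rw [hf₂def]
      simp only [AddSubgroupClass.coe_sub, Matrix.sub_apply, ad0_uu_00, Submodule.coe_smul,
        Matrix.smul_apply, hh_00, hh_10, h00]
      simp
    · rw [hf₂def]
      simp only [AddSubgroupClass.coe_sub, Matrix.sub_apply, ad0_uu_01, Submodule.coe_smul,
        Matrix.smul_apply, hh_00, hh_10, hh_01, h01]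
      rw [hν]
      simp only [smul_eq_mul]
      field_simp
      ring
    · rw [hf₂def]
      simp only [AddSubgroupClass.coe_sub, Matrix.sub_apply, ad0_uu_10, Submodule.coe_smul,
        Matrix.smul_apply, hh_10, h10]
      simp
  have hs2 : ∃ s : Fˣ, (s : F) ^ 2 ≠ 1 := by
    obtain ⟨s, hs⟩ := hs
    refine ⟨s, fun h => hs ?_⟩
    have : (s : F) ^ 4 = ((s : F) ^ 2) ^ 2 := by ring
    rw [this, h, one_pow]
  have hzero := eq_zero_of_borel hf₂ hf₂T hf₂U hs2
  refine ⟨w₀ + ν • hh, fun g => ?_⟩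
  have h := hzero g
  rw [hf₂def] at h
  simp only [hf₁def] at h
  rw [map_add]
  have h' := sub_eq_zero.mp h
  have h'' := sub_eq_iff_eq_add.mp h'
  rw [h'']
  abel

/-- **(G14)** `H¹(SL₂(F), sl₂(k)) = 0` for a finite field `F` of odd characteristic with more than
`5` elements and any extension field `k`. -/
theorem isCob_SL2 [Fintype F] (hq : 5 < Fintype.card F) (h2 : (2 : k) ≠ 0)
    (hf : Coc3.IsCoc (ad0 (F := F) (k := k)) f) : Coc3.IsCob (ad0 (F := F) (k := k)) f :=
  isCob_of_torus hf h2 (exists_pow_four_ne_one hq) (exists_torus_primitive hf)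

end main

end Fermat.Agent.TW.GRP.H1SL2Zero0
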