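/-
Programme T (S56), chapter T/GRP, Phase 2 (lead): **wrappers around `H¹(SL₂(F), sl₂(k)) = 0`** for
the final assembly (G15), in helper3's vocabulary.

* `isCob_of_factor_SL2` : an abstract group `G` with `ρ : G →* M2 k` factoring as `rho0 ∘ π` through
  a surjection `π : G →* SL(2, F)` (`F` finite, odd characteristic, `#F > 5`) and trivial twist:
  cocycles of `adSl ρ c` vanishing on `ker ρ` are coboundaries.
* `isCob_of_conj` : transport of the vanishing statement along conjugation of `ρ` by an invertible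
  matrix.
* `isCob_of_normal_subgroup` : restriction to a subgroup `N` of finite index invertible in `k`
  (reformulation of `Coc3.isCob_of_restrict` with the restricted representation
  `adSl (ρ.comp N.subtype) (c.comp N.subtype)`).
-/
import Mathlib
import Fermat.Agent.TW.GRP.H1SL2Zero0
import Fermat.Agent.TW.GRP.NormalKill0

set_option autoImplicit false

namespace Fermat.Agent.TW.GRP.SL2Wrap0

open Matrix MatrixGroups
open Fermat.Agent.TW.GRP.Mat2x3 Fermat.Agent.TW.GRP.Irred3 Fermat.Agent.TW.GRP.AdZero3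
open Fermat.Agent.TW.GRP.H1SL2Zero0 Fermat.Agent.TW.GRP

variable {k : Type*} [Field k] {G : Type*} [Group G]

/-- `ρ` factors through a surjection onto `SL₂(F)`. -/
theorem isCob_of_factor_SL2 {F : Type*} [Field F] [Fintype F] [Algebra F k]
    (hq : 5 < Fintype.card F) (h2 : (2 : k) ≠ 0)
    (ρ : G →* M2 k) (c : G →* kˣ) (hc : ∀ g, c g = 1)
    (π : G →* SL(2, F)) (hπ : Function.Surjective π) (hρπ : ∀ g, ρ g = rho0 (π g))
    (f : G → slM k) (hf : Coc3.IsCoc (adSl ρ c) f) (hker : ∀ g, ρ g = 1 → f g = 0) :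
    Coc3.IsCob (adSl ρ c) f := by
  refine NormalKill0.isCob_of_surjective π hπ (ad0 (F := F) (k := k)) (adSl ρ c) ?_ f hf ?_ ?_
  · intro g
    apply LinearMap.ext; intro A
    apply Subtype.ext
    rw [adSl_apply_coe, ad0_coe, hc g, Units.val_one, one_smul, hρπ g, hρπ g⁻¹, map_inv]
  · intro g hg
    apply hker
    rw [hρπ g, hg, map_one]
  · intro fb hfb
    exact isCob_SL2 hq h2 hfb

/-- Conjugation by an invertible matrix, on trace-zero matrices. -/
def conjSl (P : (M2 k)ˣ) : slM k →ₗ[k] slM k where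
  toFun A := ⟨(P : M2 k) * (A : M2 k) * ((P⁻¹ : (M2 k)ˣ) : M2 k), by
    rw [mem_slM, Matrix.trace_units_conj]; exact mem_slM.mp A.2⟩
  map_add' A B := by
    apply Subtype.ext
    simp only [Submodule.coe_add, mul_add, add_mul]
  map_smul' x A := by
    apply Subtype.ext
    simp only [Submodule.coe_smul, RingHom.id_apply, Matrix.mul_smul, Matrix.smul_mul]

@[simp] theorem conjSl_coe (P : (M2 k)ˣ) (A : slM k) :
    ((conjSl P A : slM k) : M2 k) = (P : M2 k) * (A : M2 k) * ((P⁻¹ : (M2 k)ˣ) : M2 k) := rfl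

theorem conjSl_inv_conjSl (P : (M2 k)ˣ) (A : slM k) : conjSl P⁻¹ (conjSl P A) = A := by
  apply Subtype.ext
  simp only [conjSl_coe, inv_inv]
  rw [← mul_assoc, ← mul_assoc, Units.inv_mul, one_mul, mul_assoc, Units.inv_mul, mul_one]

theorem conjSl_conjSl_inv (P : (M2 k)ˣ) (A : slM k) : conjSl P (conjSl P⁻¹ A) = A := by
  have := conjSl_inv_conjSl P⁻¹ A
  rwa [inv_inv] at this

/-- `conjSl P` intertwines `adSl ρ c` and `adSl ρ' c` when `ρ' = P ρ P⁻¹`. -/
theorem conjSl_adSl (P : (M2 k)ˣ) (ρ ρ' : G →* M2 k) (c : G →* kˣ)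
    (hρ' : ∀ g, ρ' g = (P : M2 k) * ρ g * ((P⁻¹ : (M2 k)ˣ) : M2 k)) (g : G) (A : slM k) :
    conjSl P (adSl ρ c g A) = adSl ρ' c g (conjSl P A) := by
  apply Subtype.ext
  rw [conjSl_coe, adSl_apply_coe, adSl_apply_coe, conjSl_coe, hρ' g, hρ' g⁻¹]
  simp only [Matrix.mul_smul, Matrix.smul_mul]
  congr 1
  simp only [mul_assoc]
  rw [Units.inv_mul_cancel_left, Units.inv_mul_cancel_left]

/-- Transport of the vanishing statement along conjugation. -/
theorem isCob_of_conj (P : (M2 k)ˣ) (ρ ρ' : G →* M2 k) (c : G →* kˣ)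
    (hρ' : ∀ g, ρ' g = (P : M2 k) * ρ g * ((P⁻¹ : (M2 k)ˣ) : M2 k))
    (H : ∀ f' : G → slM k, Coc3.IsCoc (adSl ρ' c) f' → (∀ g, ρ' g = 1 → f' g = 0) →
      Coc3.IsCob (adSl ρ' c) f')
    (f : G → slM k) (hf : Coc3.IsCoc (adSl ρ c) f) (hker : ∀ g, ρ g = 1 → f g = 0) :
    Coc3.IsCob (adSl ρ c) f := by
  have h1 : Coc3.IsCoc (adSl ρ' c) (fun g => conjSl P (f g)) := by
    intro g h
    show conjSl P (f (g * h)) = conjSl P (f g) + adSl ρ' c g (conjSl P (f h))
    rw [hf g h, map_add, conjSl_adSl P ρ ρ' c hρ']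
  have h2 : ∀ g, ρ' g = 1 → (fun g => conjSl P (f g)) g = 0 := by
    intro g hg
    have : ρ g = 1 := by
      have h := hρ' g
      rw [hg] at h
      have h3 : ((P⁻¹ : (M2 k)ˣ) : M2 k) * 1 * (P : M2 k) = ρ g := by
        rw [h]
        simp only [mul_assoc]
        rw [Units.inv_mul, mul_one, Units.inv_mul_cancel_left]
      rw [← h3, mul_one, Units.inv_mul]
    show conjSl P (f g) = 0
    rw [hker g this, map_zero]
  obtain ⟨w, hw⟩ := H _ h1 h2
  refine ⟨conjSl P⁻¹ w, fun g => ?_⟩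
  have h3 : conjSl P (f g) = adSl ρ' c g w - w := hw g
  have h4 : f g = conjSl P⁻¹ (conjSl P (f g)) := (conjSl_inv_conjSl P (f g)).symm
  rw [h4, h3, map_sub]
  congr 1
  -- `conjSl P⁻¹ (adSl ρ' c g w) = adSl ρ c g (conjSl P⁻¹ w)`
  have h5 := conjSl_adSl P ρ ρ' c hρ' g (conjSl P⁻¹ w)
  rw [conjSl_conjSl_inv] at h5
  rw [← h5, conjSl_inv_conjSl]

/-- Restriction to a subgroup of finite index invertible in `k`. -/
theorem isCob_of_subgroup (ρ : G →* M2 k) (c : G →* kˣ) (N : Subgroup G) [N.FiniteIndex]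
    (hu : IsUnit (N.index : k))
    (f : G → slM k) (hf : Coc3.IsCoc (adSl ρ c) f)
    (H : Coc3.IsCob (adSl (ρ.comp N.subtype) (c.comp N.subtype)) (fun n : N => f n)) :
    Coc3.IsCob (adSl ρ c) f := by
  refine Coc3.isCob_of_restrict N hu hf ?_
  obtain ⟨w, hw⟩ := H
  refine ⟨w, fun h hh => ?_⟩
  have h1 : f h = adSl (ρ.comp N.subtype) (c.comp N.subtype) ⟨h, hh⟩ w - w := hw ⟨h, hh⟩
  rw [h1]
  congr 1

/-- The restriction of a cocycle to a subgroup is a cocycle of the restricted representation. -/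
theorem isCoc_restrict (ρ : G →* M2 k) (c : G →* kˣ) (N : Subgroup G)
    (f : G → slM k) (hf : Coc3.IsCoc (adSl ρ c) f) :
    Coc3.IsCoc (adSl (ρ.comp N.subtype) (c.comp N.subtype)) (fun n : N => f n) := by
  intro g h
  exact hf g h

end Fermat.Agent.TW.GRP.SL2Wrap0
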