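/-
Programme T (S56), chapter T/GRP, Phase 2 (lead; brick (D) of helper3's msg 239):
**a Sylow `p`-subgroup of a finite subgroup of `GL₂(k)` (`k` finite of characteristic `p`) is, after
conjugation, upper unitriangular.**

* `borelSub ρ` : the subgroup of elements with upper triangular image, `mem_borelSub`;
* `conjHom Q ρ` : the conjugate representation `g ↦ Q * ρ g * Q⁻¹`;
* `exists_conj_sylow_unip` : for `ρ : Γ →* M2 k` injective, `Γ` finite, containing an element of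
  order `p`: there are `Q` and `ρ' = Q ρ Q⁻¹`, an element `u₀ ∈ unipSub ρ'` with `ρ' u₀ 0 1 ≠ 0`, such that
  for the Borel subgroup `B` of `ρ'` the index of `B ⊓ unipSub ρ'` in `Γ` is invertible in `k`.
-/
import Mathlib
import Fermat.Agent.TW.GRP.CyclicCase0

set_option autoImplicit false

namespace Fermat.Agent.TW.GRP.SylowUnip0

open Matrix
open Fermat.Agent.TW.GRP.Mat2x3 Fermat.Agent.TW.GRP.CyclicCase0 Fermat.Agent.TW.GRP

variable {k : Type*} [Field k] {Γ : Type*} [Group Γ]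

/-! ### The Borel subgroup -/

/-- The elements with upper triangular image. -/
def borelSub (ρ : Γ →* M2 k) : Subgroup Γ where
  carrier := {g | ρ g 1 0 = 0}
  one_mem' := by
    simp only [Set.mem_ofPred_eq, map_one]
    simp
  mul_mem' := by
    intro a b ha hb
    simp only [Set.mem_ofPred_eq] at ha hb ⊢
    rw [map_mul, Matrix.mul_apply, Fin.sum_univ_two, ha, hb, zero_mul, mul_zero, add_zero]
  inv_mem' := by
    intro a ha
    simp only [Set.mem_ofPred_eq] at ha ⊢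
    have h1 : ρ a⁻¹ * ρ a = 1 := TWHyp3.inv_mul_eq_one ρ a
    have h10 := congrFun (congrFun h1 1) 0
    rw [Matrix.mul_apply, Fin.sum_univ_two, ha, mul_zero, add_zero] at h10
    have hdet := TWHyp3.det_ne_zero ρ a
    rw [Matrix.det_fin_two, ha, mul_zero, sub_zero] at hdet
    have h00 : ρ a 0 0 ≠ 0 := left_ne_zero_of_mul hdet
    have : ρ a⁻¹ 1 0 * ρ a 0 0 = 0 := by simpa using h10
    rcases mul_eq_zero.mp this with h | h
    · exact h
    · exact absurd h h00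

theorem mem_borelSub {ρ : Γ →* M2 k} {g : Γ} : g ∈ borelSub ρ ↔ ρ g 1 0 = 0 := Iff.rfl

/-! ### Conjugate representations -/

/-- The conjugate representation `g ↦ Q * ρ g * Q⁻¹`. -/
def conjHom (Q : (M2 k)ˣ) (ρ : Γ →* M2 k) : Γ →* M2 k where
  toFun g := (Q : M2 k) * ρ g * ((Q⁻¹ : (M2 k)ˣ) : M2 k)
  map_one' := by rw [map_one, mul_one, Units.mul_inv]
  map_mul' g h := by
    rw [map_mul]
    simp only [mul_assoc]
    rw [Units.inv_mul_cancel_left]

theorem conjHom_apply (Q : (M2 k)ˣ) (ρ : Γ →* M2 k) (g : Γ) :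
    conjHom Q ρ g = (Q : M2 k) * ρ g * ((Q⁻¹ : (M2 k)ˣ) : M2 k) := rfl

theorem conjHom_eq_one_iff (Q : (M2 k)ˣ) (ρ : Γ →* M2 k) (g : Γ) :
    conjHom Q ρ g = 1 ↔ ρ g = 1 := by
  rw [conjHom_apply]
  constructor
  · intro h
    have : ρ g = ((Q⁻¹ : (M2 k)ˣ) : M2 k) * ((Q : M2 k) * ρ g * ((Q⁻¹ : (M2 k)ˣ) : M2 k)) *
        (Q : M2 k) := by
      simp only [mul_assoc]
      rw [Units.inv_mul, mul_one, Units.inv_mul_cancel_left]
    rw [this, h, mul_one, Units.inv_mul]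
  · intro h
    rw [h, mul_one, Units.mul_inv]

/-! ### Moving a nonzero vector to `e₁` -/

/-- For a nonzero vector `v` there is an invertible matrix whose inverse has first column `v`. -/
theorem exists_unit_col (v : Fin 2 → k) (hv : v ≠ 0) :
    ∃ Q : (M2 k)ˣ, ((Q⁻¹ : (M2 k)ˣ) : M2 k) 0 0 = v 0 ∧ ((Q⁻¹ : (M2 k)ˣ) : M2 k) 1 0 = v 1 := by
  by_cases h0 : v 0 = 0
  · have h1 : v 1 ≠ 0 := by
      intro h1
      apply hv
      ext i
      fin_cases i
      · exact h0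
      · exact h1
    refine ⟨⟨!![0, (v 1)⁻¹; -(v 1), 0], !![0, -(v 1)⁻¹; v 1, 0], ?_, ?_⟩, ?_, ?_⟩
    · rw [Matrix.mul_fin_two, Matrix.one_fin_two]
      simp [h1]
    · rw [Matrix.mul_fin_two, Matrix.one_fin_two]
      simp [h1]
    · show (!![0, -(v 1)⁻¹; v 1, 0] : M2 k) 0 0 = v 0
      simp [h0]
    · show (!![0, -(v 1)⁻¹; v 1, 0] : M2 k) 1 0 = v 1
      simp
  · refine ⟨⟨!![(v 0)⁻¹, 0; -(v 1), v 0], !![v 0, 0; v 1, (v 0)⁻¹], ?_, ?_⟩, ?_, ?_⟩
    · rw [Matrix.mul_fin_two, Matrix.one_fin_two]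
      simp [h0]
      ring
    · rw [Matrix.mul_fin_two, Matrix.one_fin_two]
      simp [h0]
      field_simp
      ring
    · show (!![v 0, 0; v 1, (v 0)⁻¹] : M2 k) 0 0 = v 0
      simp
    · show (!![v 0, 0; v 1, (v 0)⁻¹] : M2 k) 1 0 = v 1
      simp

/-- If `ρ g` fixes `v` and `Q⁻¹` has first column `v` then `Q ρ g Q⁻¹` has first column `e₁`. -/
theorem conjHom_col (Q : (M2 k)ˣ) (ρ : Γ →* M2 k) (g : Γ) (v : Fin 2 → k)
    (h0 : ((Q⁻¹ : (M2 k)ˣ) : M2 k) 0 0 = v 0) (h1 : ((Q⁻¹ : (M2 k)ˣ) : M2 k) 1 0 = v 1)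
    (hfix : ρ g *ᵥ v = v) :
    conjHom Q ρ g 0 0 = 1 ∧ conjHom Q ρ g 1 0 = 0 := by
  -- `Q⁻¹ e₁ = v`
  have hgen : ∀ (M : M2 k) (i : Fin 2), (M *ᵥ ![1, 0]) i = M i 0 := by
    intro M i
    simp [Matrix.mulVec, dotProduct, Fin.sum_univ_two]
  have hcol : ((Q⁻¹ : (M2 k)ˣ) : M2 k) *ᵥ ![1, 0] = v := by
    ext i
    rw [hgen]
    fin_cases i
    · exact h0
    · exact h1
  have hQv : (Q : M2 k) *ᵥ v = ![1, 0] := by
    rw [← hcol, Matrix.mulVec_mulVec, Units.mul_inv, Matrix.one_mulVec]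
  have hmain : conjHom Q ρ g *ᵥ ![1, 0] = ![1, 0] := by
    rw [conjHom_apply, ← Matrix.mulVec_mulVec, hcol, ← Matrix.mulVec_mulVec, hfix, hQv]
  constructor
  · have := congrFun hmain 0
    rw [hgen] at this
    simpa using this
  · have := congrFun hmain 1
    rw [hgen] at this
    simpa using this

/-! ### The action on vectors -/

/-- The action of `Γ` on `k²` through `ρ`. -/
@[reducible] def vecAction (ρ : Γ →* M2 k) : MulAction Γ (Fin 2 → k) where
  smul g v := ρ g *ᵥ v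
  one_smul v := by
    show ρ 1 *ᵥ v = v
    rw [map_one, Matrix.one_mulVec]
  mul_smul g h v := by
    show ρ (g * h) *ᵥ v = ρ g *ᵥ (ρ h *ᵥ v)
    rw [map_mul, Matrix.mulVec_mulVec]

/-! ### The main statement -/

/-- **(D)** After conjugation, a Sylow `p`-subgroup is upper unitriangular: the index of
`B ⊓ unipSub ρ'` is invertible in `k`. -/
theorem exists_conj_sylow_unip [Finite k] (p : ℕ) [Fact p.Prime] [CharP k p] [Finite Γ]
    (ρ : Γ →* M2 k) (hinj : Function.Injective ρ) (hp : ∃ g, ρ g ^ p = 1 ∧ ρ g ≠ 1) :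
    ∃ (Q : (M2 k)ˣ) (ρ' : Γ →* M2 k),
      (∀ g, ρ' g = (Q : M2 k) * ρ g * ((Q⁻¹ : (M2 k)ˣ) : M2 k)) ∧
      ∃ u₀, u₀ ∈ unipSub ρ' ∧ ρ' u₀ 0 1 ≠ 0 ∧
        ∀ B : Subgroup Γ, (∀ g, g ∈ B ↔ ρ' g 1 0 = 0) →
          IsUnit (((B ⊓ unipSub ρ').index : ℕ) : k) := by
  classical
  obtain ⟨g₀, hg₀p, hg₀1⟩ := hp
  have hprime : p.Prime := Fact.out
  -- `g₀` has order `p`
  have hg₀p' : g₀ ^ p = 1 := by
    apply hinj
    rw [map_pow, hg₀p, map_one]
  have hg₀1' : g₀ ≠ 1 := by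
    intro h
    apply hg₀1
    rw [h, map_one]
  have hord : orderOf g₀ = p := orderOf_eq_prime hg₀p' hg₀1'
  -- a Sylow subgroup containing it
  have hPz : IsPGroup p (Subgroup.zpowers g₀) := by
    apply IsPGroup.of_card (n := 1)
    rw [Nat.card_zpowers, hord, pow_one]
  obtain ⟨P₀, hP₀⟩ := hPz.exists_le_sylow
  have hg₀P : g₀ ∈ (P₀ : Subgroup Γ) := hP₀ (Subgroup.mem_zpowers g₀)
  -- a nonzero fixed vector
  letI : MulAction Γ (Fin 2 → k) := vecAction ρ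
  have hsmul : ∀ (g : Γ) (v : Fin 2 → k), g • v = ρ g *ᵥ v := fun _ _ => rfl
  have hcardV : p ∣ Nat.card (Fin 2 → k) := by
    haveI : Fintype k := Fintype.ofFinite k
    obtain ⟨n, -, hcard⟩ := FiniteField.card k p
    have h1 : Nat.card (Fin 2 → k) = (p ^ (n : ℕ)) ^ 2 := by
      rw [Nat.card_fun, Nat.card_eq_fintype_card (α := k), hcard]
      simp
    rw [h1]
    exact dvd_pow (dvd_pow_self p n.ne_zero) two_ne_zero
  have hzero : (0 : Fin 2 → k) ∈ MulAction.fixedPoints (P₀ : Subgroup Γ) (Fin 2 → k) := by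
    intro g
    show (g : Γ) • (0 : Fin 2 → k) = 0
    rw [hsmul, Matrix.mulVec_zero]
  obtain ⟨v, hvfix, hv0⟩ :=
    P₀.isPGroup'.exists_fixed_point_of_prime_dvd_card_of_fixed_point (Fin 2 → k) hcardV hzero
  have hvfix' : ∀ g ∈ (P₀ : Subgroup Γ), ρ g *ᵥ v = v := by
    intro g hg
    have := hvfix ⟨g, hg⟩
    exact this
  -- conjugate
  obtain ⟨Q, hQ0, hQ1⟩ := exists_unit_col v (Ne.symm hv0)
  refine ⟨Q, conjHom Q ρ, fun g => rfl, ?_⟩
  -- elements of `P₀` are unitriangular for `ρ'`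
  have hexp : ExpChar k p := ExpChar.prime hprime
  have hP₀unip : ∀ g ∈ (P₀ : Subgroup Γ), g ∈ unipSub (conjHom Q ρ) ∧ conjHom Q ρ g 1 0 = 0 := by
    intro g hg
    obtain ⟨h00, h10⟩ := conjHom_col Q ρ g v hQ0 hQ1 (hvfix' g hg)
    -- the lower right entry is the determinant, of `p`-power order
    obtain ⟨n, hn⟩ := P₀.isPGroup' ⟨g, hg⟩
    have hgn : g ^ p ^ n = 1 := by
      have := congrArg (Subtype.val) hn
      simpa using this
    have hdet : (conjHom Q ρ g).det = conjHom Q ρ g 1 1 := by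
      rw [Matrix.det_fin_two, h00, h10, mul_zero, sub_zero, one_mul]
    have hdpow : (conjHom Q ρ g 1 1) ^ (p ^ n * 1) = 1 := by
      rw [mul_one, ← hdet, ← Matrix.det_pow, ← map_pow, hgn, map_one, Matrix.det_one]
    have h11 : conjHom Q ρ g 1 1 = 1 := by
      have := (ExpChar.pow_prime_pow_mul_eq_one_iff p n 1 (conjHom Q ρ g 1 1)).mp hdpow
      simpa using this
    refine ⟨?_, h10⟩
    rw [mem_unipSub]
    conv_lhs => rw [Matrix.eta_fin_two (conjHom Q ρ g), h00, h10, h11]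
  refine ⟨g₀, (hP₀unip g₀ hg₀P).1, ?_, ?_⟩
  · intro h01
    apply hg₀1
    rw [← conjHom_eq_one_iff Q ρ g₀]
    have := (mem_unipSub _).mp (hP₀unip g₀ hg₀P).1
    rw [this, h01, Matrix.one_fin_two]
  · intro B hB
    have hle : (P₀ : Subgroup Γ) ≤ B ⊓ unipSub (conjHom Q ρ) := by
      intro g hg
      exact Subgroup.mem_inf.mpr ⟨(hB g).mpr (hP₀unip g hg).2, (hP₀unip g hg).1⟩
    have hdvd : (B ⊓ unipSub (conjHom Q ρ)).index ∣ (P₀ : Subgroup Γ).index :=
      Subgroup.index_dvd_of_le hle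
    have hnd : ¬ p ∣ (B ⊓ unipSub (conjHom Q ρ)).index := fun h =>
      P₀.not_dvd_index (dvd_trans h hdvd)
    rw [isUnit_iff_ne_zero, Ne, CharP.cast_eq_zero_iff k p]
    exact hnd

end Fermat.Agent.TW.GRP.SylowUnip0
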