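/-
Programme T (S56, Taylor–Wiles primes), chapter T/GRP, Phase 2, file G13b (helper3): **fixed lines of
elements of `SL₂(k)`** on the projective line `ℙ k (Fin 2 → k)`.  Mathlib + `Mat2x3`.

* `smul_mk`, `smul_mk_eq_iff` (a line is fixed iff it is spanned by an eigenvector);
* `eigen_quadratic`, `exists_eigenvector` (a non-scalar matrix has exactly one eigenline for each
  root of its characteristic equation), `disc2_of_eigenvalue` (`a² disc2 = (a² - 1)²`);
* `smul_eq_of_scalar` : scalar elements fix every line;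
* `exists_unique_fixed_of_disc2_eq_zero` : non-scalar with `disc2 = 0` ⇒ exactly one fixed line;
* `fixed_lines_of_disc2_ne_zero` : `disc2` a non-zero square ⇒ exactly two fixed lines.
-/
import Mathlib
import Fermat.Agent.TW.GRP.Mat2x3

set_option autoImplicit false

namespace Fermat.Agent.TW.GRP.FixLines3

open Matrix Fermat.Agent.TW.GRP.Mat2x3
open scoped LinearAlgebra.Projectivization

variable {k : Type*} [Field k]

local notation "SL2" => Matrix.SpecialLinearGroup (Fin 2) k
local notation "P1" => ℙ k (Fin 2 → k)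

/-! ### the action on vectors and lines -/

theorem smul_vec (g : SL2) (v : Fin 2 → k) : g • v = g.1 *ᵥ v := rfl

theorem mulVec_ne_zero (g : SL2) {v : Fin 2 → k} (hv : v ≠ 0) : g.1 *ᵥ v ≠ 0 := by
  rw [← smul_vec]
  exact (smul_ne_zero_iff_ne g).mpr hv

theorem smul_mk (g : SL2) {v : Fin 2 → k} (hv : v ≠ 0) :
    g • Projectivization.mk k v hv = Projectivization.mk k (g.1 *ᵥ v) (mulVec_ne_zero g hv) :=
  rfl

/-- `g` fixes the line through `v` iff `v` is an eigenvector. -/
theorem smul_mk_eq_iff (g : SL2) {v : Fin 2 → k} (hv : v ≠ 0) :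
    g • Projectivization.mk k v hv = Projectivization.mk k v hv ↔ ∃ a : k, g.1 *ᵥ v = a • v := by
  rw [smul_mk, Projectivization.mk_eq_mk_iff]
  constructor
  · rintro ⟨a, ha⟩
    exact ⟨(a : k), ha.symm⟩
  · rintro ⟨a, ha⟩
    have ha0 : a ≠ 0 := by
      rintro rfl
      rw [zero_smul] at ha
      exact mulVec_ne_zero g hv ha
    exact ⟨Units.mk0 a ha0, ha.symm⟩

theorem mk_eq_mk_of_smul {v w : Fin 2 → k} (hv : v ≠ 0) (hw : w ≠ 0) {c : k} (h : v = c • w) :
    Projectivization.mk k v hv = Projectivization.mk k w hw := by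
  rw [Projectivization.mk_eq_mk_iff]
  have hc : c ≠ 0 := by
    rintro rfl
    rw [zero_smul] at h
    exact hv h
  exact ⟨Units.mk0 c hc, h.symm⟩

/-! ### eigenvalues and eigenvectors of `2 × 2` matrices -/

/-- An eigenvalue satisfies the characteristic equation. -/
theorem eigen_quadratic {M : M2 k} {v : Fin 2 → k} (hv : v ≠ 0) {a : k} (h : M *ᵥ v = a • v) :
    a * a - M.trace * a + M.det = 0 := by
  have h0 := congrFun h 0
  have h1 := congrFun h 1
  simp only [Matrix.mulVec, dotProduct, Fin.sum_univ_two, Pi.smul_apply, smul_eq_mul] at h0 h1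
  rw [Matrix.trace_fin_two, Matrix.det_fin_two]
  have e0 : (a * a - (M 0 0 + M 1 1) * a + (M 0 0 * M 1 1 - M 0 1 * M 1 0)) * v 0 = 0 := by
    linear_combination (M 1 1 - a) * h0 - M 0 1 * h1
  have e1 : (a * a - (M 0 0 + M 1 1) * a + (M 0 0 * M 1 1 - M 0 1 * M 1 0)) * v 1 = 0 := by
    linear_combination (M 0 0 - a) * h1 - M 1 0 * h0
  by_contra hne
  apply hv
  funext i
  fin_cases i
  · exact (mul_eq_zero.mp e0).resolve_left hne
  · exact (mul_eq_zero.mp e1).resolve_left hne

/-- A non-scalar matrix has a unique eigenline for each root of its characteristic equation. -/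
theorem exists_eigenvector {M : M2 k} {l : k} (hl : l * l - M.trace * l + M.det = 0)
    (hM : M ≠ l • (1 : M2 k)) :
    ∃ w : Fin 2 → k, w ≠ 0 ∧ M *ᵥ w = l • w ∧ ∀ v, M *ᵥ v = l • v → ∃ c : k, v = c • w := by
  set N : M2 k := M - l • (1 : M2 k) with hN
  have hN0 : N ≠ 0 := fun h => hM (sub_eq_zero.mp h)
  have hdet : N 0 0 * N 1 1 - N 0 1 * N 1 0 = 0 := by
    rw [Matrix.trace_fin_two, Matrix.det_fin_two] at hl
    simp only [hN, Matrix.sub_apply, Matrix.smul_apply, Matrix.one_apply_eq, smul_eq_mul, mul_one,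
      Matrix.one_apply_ne (show (0 : Fin 2) ≠ 1 by decide),
      Matrix.one_apply_ne (show (1 : Fin 2) ≠ 0 by decide), mul_zero, sub_zero]
    linear_combination hl
  have hker : ∀ v : Fin 2 → k, M *ᵥ v = l • v ↔ N *ᵥ v = 0 := by
    intro v
    rw [hN, Matrix.sub_mulVec, Matrix.smul_mulVec, Matrix.one_mulVec, sub_eq_zero]
  -- a non-zero vector in the kernel
  obtain ⟨w, hw0, hNw⟩ : ∃ w : Fin 2 → k, w ≠ 0 ∧ N *ᵥ w = 0 := by
    by_cases h1 : N 0 1 = 0 ∧ N 0 0 = 0
    · refine ⟨![N 1 1, -N 1 0], ?_, ?_⟩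
      · intro h
        apply hN0
        have e0 := congrFun h 0
        have e1 := congrFun h 1
        simp only [Matrix.cons_val_zero, Matrix.cons_val_one, Pi.zero_apply, neg_eq_zero] at e0 e1
        ext i j
        fin_cases i <;> fin_cases j <;> simp [h1.1, h1.2, e0, e1]
      · funext i
        fin_cases i
        · simp [Matrix.mulVec, dotProduct, Fin.sum_univ_two]
          linear_combination hdet
        · simp [Matrix.mulVec, dotProduct, Fin.sum_univ_two]
          ring
    · refine ⟨![N 0 1, -N 0 0], ?_, ?_⟩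
      · intro h
        apply h1
        have e0 := congrFun h 0
        have e1 := congrFun h 1
        simp only [Matrix.cons_val_zero, Matrix.cons_val_one, Pi.zero_apply, neg_eq_zero] at e0 e1
        exact ⟨e0, e1⟩
      · funext i
        fin_cases i
        · simp [Matrix.mulVec, dotProduct, Fin.sum_univ_two]
          ring
        · simp [Matrix.mulVec, dotProduct, Fin.sum_univ_two]
          linear_combination -hdet
  refine ⟨w, hw0, (hker w).mpr hNw, fun v hv => ?_⟩
  exact proportional_of_mulVec_eq_zero hN0 hw0 hNw ((hker v).mp hv)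


/-! ### fixed lines of an element of `SL₂(k)` -/

/-- Scalar elements fix every line. -/
theorem smul_eq_of_scalar (g : SL2) (hg : IsScalar g.1) (ℓ : P1) : g • ℓ = ℓ := by
  obtain ⟨c, hc⟩ := hg
  induction ℓ using Projectivization.ind with
  | h v hv =>
    rw [smul_mk_eq_iff]
    exact ⟨c, by rw [hc, Matrix.smul_mulVec, Matrix.one_mulVec]⟩

theorem disc2_of_isScalar {M : M2 k} (h : IsScalar M) : disc2 M = 0 := by
  obtain ⟨x, rfl⟩ := h
  simp [disc2]
  ring

/-- The eigenvalue of a fixed line determines `disc2`. -/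
theorem disc2_of_eigenvalue (g : SL2) {v : Fin 2 → k} (hv : v ≠ 0) {a : k}
    (h : g.1 *ᵥ v = a • v) : a * a * disc2 g.1 = (a * a - 1) ^ 2 := by
  have hq := eigen_quadratic hv h
  have hdet : g.1.det = 1 := g.2
  rw [hdet] at hq
  rw [disc2, hdet]
  have ht : g.1.trace * a = a * a + 1 := by linear_combination -hq
  linear_combination (g.1.trace * a + a * a + 1) * ht

/-- **One fixed line** for a non-scalar element with `disc2 = 0`. -/
theorem exists_unique_fixed_of_disc2_eq_zero (h2 : (2 : k) ≠ 0) (g : SL2) (hns : ¬ IsScalar g.1)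
    (hd : disc2 g.1 = 0) : ∃ ℓ₀ : P1, g • ℓ₀ = ℓ₀ ∧ ∀ ℓ : P1, g • ℓ = ℓ → ℓ = ℓ₀ := by
  have hdet : g.1.det = 1 := g.2
  have hd' : g.1.trace ^ 2 = 4 := by
    rw [disc2, hdet] at hd
    linear_combination hd
  have h4 : (4 : k) ≠ 0 := by
    have : (4 : k) = 2 * 2 := by norm_num
    rw [this]
    exact mul_ne_zero h2 h2
  obtain ⟨w, hw0, hMw, huniq⟩ := exists_eigenvector (M := g.1) (l := g.1.trace / 2) (by
      rw [hdet]
      field_simp
      linear_combination -hd') (fun h => hns ⟨_, h⟩)
  refine ⟨Projectivization.mk k w hw0, (smul_mk_eq_iff g hw0).mpr ⟨_, hMw⟩, fun ℓ => ?_⟩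
  induction ℓ using Projectivization.ind with
  | h v hv =>
    intro hfix
    obtain ⟨a, ha⟩ := (smul_mk_eq_iff g hv).mp hfix
    have hq := eigen_quadratic hv ha
    rw [hdet] at hq
    have ha' : a = g.1.trace / 2 := by
      have : (a - g.1.trace / 2) ^ 2 = 0 := by
        field_simp
        linear_combination 4 * hq + hd'
      have := pow_eq_zero_iff (two_ne_zero) |>.mp this
      exact sub_eq_zero.mp this
    rw [ha'] at ha
    obtain ⟨c, hc⟩ := huniq v ha
    exact mk_eq_mk_of_smul hv hw0 hc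

/-- **Two fixed lines** for an element with `disc2` a non-zero square. -/
theorem fixed_lines_of_disc2_ne_zero (h2 : (2 : k) ≠ 0) (g : SL2) {s : k}
    (hs : disc2 g.1 = s * s) (hs0 : s ≠ 0) :
    ∃ ℓ₁ ℓ₂ : P1, ℓ₁ ≠ ℓ₂ ∧ ∀ ℓ : P1, g • ℓ = ℓ ↔ ℓ = ℓ₁ ∨ ℓ = ℓ₂ := by
  have hdet : g.1.det = 1 := g.2
  have hd' : g.1.trace ^ 2 - 4 = s * s := by
    rw [disc2, hdet] at hs
    linear_combination hs
  have hns : ¬ IsScalar g.1 := fun h => by
    have := disc2_of_isScalar h
    rw [hs] at this
    exact hs0 (mul_self_eq_zero.mp this)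
  obtain ⟨w₁, hw₁0, hMw₁, huniq₁⟩ := exists_eigenvector (M := g.1) (l := (g.1.trace + s) / 2) (by
      rw [hdet]
      field_simp
      linear_combination -hd') (fun h => hns ⟨_, h⟩)
  obtain ⟨w₂, hw₂0, hMw₂, huniq₂⟩ := exists_eigenvector (M := g.1) (l := (g.1.trace - s) / 2) (by
      rw [hdet]
      field_simp
      linear_combination -hd') (fun h => hns ⟨_, h⟩)
  refine ⟨Projectivization.mk k w₁ hw₁0, Projectivization.mk k w₂ hw₂0, ?_, fun ℓ => ?_⟩
  · intro heq
    obtain ⟨a, ha⟩ := (Projectivization.mk_eq_mk_iff k w₁ w₂ hw₁0 hw₂0).mp heq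
    -- `w₁ = a • w₂` has both eigenvalues
    have h1 : g.1 *ᵥ w₁ = ((g.1.trace - s) / 2) • w₁ := by
      rw [← ha, Units.smul_def, Matrix.mulVec_smul, hMw₂, smul_comm]
    rw [hMw₁] at h1
    have h3 : (((g.1.trace + s) / 2) - ((g.1.trace - s) / 2)) • w₁ = 0 := by
      rw [sub_smul, h1, sub_self]
    rcases smul_eq_zero.mp h3 with h | h
    · apply hs0
      field_simp at h
      have h' : 2 * s = 0 := by linear_combination h
      exact (mul_eq_zero.mp h').resolve_left h2
    · exact hw₁0 h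
  · constructor
    · induction ℓ using Projectivization.ind with
      | h v hv =>
        intro hfix
        obtain ⟨a, ha⟩ := (smul_mk_eq_iff g hv).mp hfix
        have hq := eigen_quadratic hv ha
        rw [hdet] at hq
        have hprod : (a - (g.1.trace + s) / 2) * (a - (g.1.trace - s) / 2) = 0 := by
          field_simp
          linear_combination 4 * hq + hd'
        rcases mul_eq_zero.mp hprod with h | h
        · left
          rw [sub_eq_zero.mp h] at ha
          obtain ⟨c, hc⟩ := huniq₁ v ha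
          exact mk_eq_mk_of_smul hv hw₁0 hc
        · right
          rw [sub_eq_zero.mp h] at ha
          obtain ⟨c, hc⟩ := huniq₂ v ha
          exact mk_eq_mk_of_smul hv hw₂0 hc
    · rintro (rfl | rfl)
      · exact (smul_mk_eq_iff g hw₁0).mpr ⟨_, hMw₁⟩
      · exact (smul_mk_eq_iff g hw₂0).mpr ⟨_, hMw₂⟩

end Fermat.Agent.TW.GRP.FixLines3
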