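/-
Programme T (S56, Taylor–Wiles primes), chapter T/GRP, Phase 2, file G13a (helper3): **sums over
orbits** of a finite group action — the combinatorial skeleton of the torus count.  Mathlib only.

* `orbF G x` (orbit as a finset), `card_orbF_mul` (orbit–stabiliser), `sum_orbF`, `orbF_subset`,
  `disjoint_orbF`, `sum_ge_of_orbit`;
* `exists_unique_heavy_orbit` : if every orbit of a stable set `Y` with non-zero (invariant)
  weight carries at least `N / 2` and the total over `Y` is positive and `< N`, then exactly one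
  orbit in `Y` has non-zero weight and it carries the total.
-/
import Mathlib

set_option autoImplicit false
set_option linter.unusedSectionVars false

namespace Fermat.Agent.TW.GRP.OrbitSum3

open scoped Classical

variable {G X : Type*} [Group G] [Fintype G] [MulAction G X] [Fintype X]

/-- The orbit of `x` as a finset. -/
noncomputable def orbF (G : Type*) [Group G] [MulAction G X] (x : X) : Finset X :=
  Finset.univ.filter fun y => y ∈ MulAction.orbit G x

theorem mem_orbF {x y : X} : y ∈ orbF G x ↔ y ∈ MulAction.orbit G x := by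
  simp [orbF]

theorem self_mem_orbF (x : X) : x ∈ orbF G x := mem_orbF.mpr (MulAction.mem_orbit_self x)

theorem card_orbF_mul (x : X) :
    (orbF G x).card * Nat.card (MulAction.stabilizer G x) = Nat.card G := by
  have h := MulAction.card_orbit_mul_card_stabilizer_eq_card_group G x
  rw [Nat.card_eq_fintype_card, Nat.card_eq_fintype_card, ← h]
  congr 1
  rw [orbF, ← Fintype.card_subtype]

theorem sum_orbF {w : X → ℕ} (hw : ∀ (g : G) (x : X), w (g • x) = w x) (x : X) :
    ∑ y ∈ orbF G x, w y = (orbF G x).card * w x := by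
  rw [Finset.sum_const_nat]
  intro y hy
  obtain ⟨g, rfl⟩ := mem_orbF.mp hy
  exact hw g x

theorem orbF_subset {Y : Finset X} (hY : ∀ (g : G), ∀ y ∈ Y, g • y ∈ Y) {x : X} (hx : x ∈ Y) :
    orbF G x ⊆ Y := by
  intro y hy
  obtain ⟨g, rfl⟩ := mem_orbF.mp hy
  exact hY g x hx

theorem disjoint_orbF {x y : X} (h : y ∉ orbF G x) : Disjoint (orbF G x) (orbF G y) := by
  rw [Finset.disjoint_left]
  intro a ha hb
  apply h
  rw [mem_orbF] at ha hb ⊢
  obtain ⟨g, rfl⟩ := ha
  obtain ⟨g', hg'⟩ := hb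
  -- `y = g'⁻¹ • g • x`
  refine ⟨g'⁻¹ * g, ?_⟩
  change (g'⁻¹ * g) • x = y
  rw [mul_smul]
  change g' • y = g • x at hg'
  rw [← hg', inv_smul_smul]

/-- A single orbit carrying at least the bound contradicts a small total. -/
theorem sum_ge_of_orbit {w : X → ℕ} (hw : ∀ (g : G) (x : X), w (g • x) = w x) {Y : Finset X}
    (hY : ∀ (g : G), ∀ y ∈ Y, g • y ∈ Y) {x : X} (hx : x ∈ Y) :
    (orbF G x).card * w x ≤ ∑ y ∈ Y, w y := by
  rw [← sum_orbF hw x]
  exact Finset.sum_le_sum_of_subset (orbF_subset hY hx)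

/-- **At most one heavy orbit**: if every orbit in `Y` with non-zero weight carries at least half
of `N`, and the total over `Y` is positive and less than `N`, then exactly one orbit of `Y` has
non-zero weight, and it carries the total. -/
theorem exists_unique_heavy_orbit {w : X → ℕ} (hw : ∀ (g : G) (x : X), w (g • x) = w x)
    {Y : Finset X} (hY : ∀ (g : G), ∀ y ∈ Y, g • y ∈ Y) {N : ℕ}
    (hheavy : ∀ y ∈ Y, w y ≠ 0 → N ≤ 2 * ((orbF G y).card * w y))
    (hpos : 0 < ∑ y ∈ Y, w y) (hlt : ∑ y ∈ Y, w y < N) :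
    ∃ y₁ ∈ Y, w y₁ ≠ 0 ∧ (∀ y ∈ Y, w y ≠ 0 → y ∈ orbF G y₁) ∧
      ∑ y ∈ Y, w y = (orbF G y₁).card * w y₁ := by
  obtain ⟨y₁, hy₁Y, hy₁⟩ : ∃ y₁ ∈ Y, w y₁ ≠ 0 := by
    by_contra hcon
    push Not at hcon
    rw [Finset.sum_eq_zero fun y hy => hcon y hy] at hpos
    exact lt_irrefl _ hpos
  have hall : ∀ y ∈ Y, w y ≠ 0 → y ∈ orbF G y₁ := by
    intro y hyY hy
    by_contra hnot
    have hdisj := disjoint_orbF (G := G) hnot
    have hsub : orbF G y₁ ∪ orbF G y ⊆ Y :=
      Finset.union_subset (orbF_subset hY hy₁Y) (orbF_subset hY hyY)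
    have h1 : ∑ a ∈ orbF G y₁ ∪ orbF G y, w a ≤ ∑ a ∈ Y, w a :=
      Finset.sum_le_sum_of_subset hsub
    rw [Finset.sum_union hdisj, sum_orbF hw, sum_orbF hw] at h1
    have h2 := hheavy y₁ hy₁Y hy₁
    have h3 := hheavy y hyY hy
    omega
  refine ⟨y₁, hy₁Y, hy₁, hall, ?_⟩
  rw [← sum_orbF hw y₁]
  symm
  apply Finset.sum_subset (orbF_subset hY hy₁Y)
  intro y hyY hynot
  by_contra hne
  exact hynot (hall y hyY hne)

end Fermat.Agent.TW.GRP.OrbitSum3
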