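/-
Programme T (S56, Taylor–Wiles primes), chapter T/GRP, Phase 2, file G13c (helper3): **the torus
count** for a finite subgroup `S ≤ SL₂(k)` all of whose elements have square discriminant
(`k` finite of odd characteristic) — the Dickson-free replacement for the classification of
subgroups of `SL₂`.

For a line `ℓ ∈ ℙ¹(k)`: `L S ℓ` (stabiliser), `P' S ℓ` (elements of the stabiliser with
`disc2 = 0`, i.e. `± unipotent`), `Z S` (scalars), `wt ℓ = |L_ℓ| + |P'_ℓ| − 2z`.

* `sum_wt` : the counting identity `∑_ℓ wt ℓ + 2z = 2|S|` (every non-scalar element fixes exactly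
  one line if `disc2 = 0` and exactly two otherwise);
* `heavy` : an orbit of non-zero weight carries at least `|S| / 2`;
* `torus_count` : if `ℓ₀` is moved by `S` and `3z ≤ |P'_ℓ₀|`, then
  `|P'_ℓ₀|² ≤ z (2 |L_ℓ₀| + |P'_ℓ₀|)` (i.e. `q̃ ≤ 2e + 1` with `q̃ = |P'|/z`, `e = |L|/|P'|`), and
  every line outside the orbit of `ℓ₀` has `|P'_ℓ| = z`.
-/
import Mathlib
import Fermat.Agent.TW.GRP.FixLines3
import Fermat.Agent.TW.GRP.OrbitSum3

set_option autoImplicit false
set_option linter.unusedSectionVars false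

namespace Fermat.Agent.TW.GRP.TorusCount3

open Matrix Fermat.Agent.TW.GRP.Mat2x3 Fermat.Agent.TW.GRP.FixLines3
  Fermat.Agent.TW.GRP.OrbitSum3
open scoped LinearAlgebra.Projectivization Classical

variable {k : Type*} [Field k] [Finite k]

/-- `SL₂(k)`. -/
abbrev SLtwo (k : Type*) [Field k] := Matrix.SpecialLinearGroup (Fin 2) k

/-- The projective line over `k`. -/
abbrev PLine (k : Type*) [Field k] := ℙ k (Fin 2 → k)

local notation "SL2" => SLtwo k
local notation "P1" => PLine k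

variable (S : Subgroup (SLtwo k))

/-- The underlying matrix of an element of `S`. -/
abbrev mat (g : S) : M2 k := ((g : SL2) : M2 k)

theorem mat_mul (g h : S) : mat S (g * h) = mat S g * mat S h := rfl

theorem mat_one : mat S (1 : S) = 1 := rfl

theorem det_mat (g : S) : (mat S g).det = 1 := (g : SL2).2

theorem smul_line (g : S) (ℓ : P1) : g • ℓ = (g : SL2) • ℓ := rfl

instance finiteSL : Finite SL2 := Subtype.finite

noncomputable instance fintypeS : Fintype S := Fintype.ofFinite _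

noncomputable instance fintypeP1 : Fintype P1 := Fintype.ofFinite _

/-- The scalar elements of `S`. -/
def Z : Subgroup S where
  carrier := {g | IsScalar (mat S g)}
  one_mem' := ⟨1, by rw [one_smul]; rfl⟩
  mul_mem' := by
    rintro a b ⟨x, hx⟩ ⟨y, hy⟩
    refine ⟨x * y, ?_⟩
    rw [mat_mul, hx, hy, smul_mul_smul_comm, mul_one]
  inv_mem' := by
    rintro a ⟨x, hx⟩
    have h1 : mat S a⁻¹ = (mat S a).adjugate := Matrix.SpecialLinearGroup.coe_inv _
    refine ⟨x, ?_⟩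
    rw [h1, hx, Matrix.adjugate_fin_two]
    ext i j
    fin_cases i <;> fin_cases j <;> simp

theorem mem_Z {g : S} : g ∈ Z S ↔ IsScalar (mat S g) := Iff.rfl

/-- The stabiliser of a line. -/
abbrev L (ℓ : P1) : Subgroup S := MulAction.stabilizer S ℓ

/-- The elements of the stabiliser of `ℓ` acting on `ℓ` by `±1`. -/
def P' (ℓ : P1) : Subgroup S where
  carrier := {g | mat S g *ᵥ ℓ.rep = ℓ.rep ∨ mat S g *ᵥ ℓ.rep = -ℓ.rep}
  one_mem' := Or.inl (by rw [mat_one, Matrix.one_mulVec])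
  mul_mem' := by
    rintro a b ha hb
    simp only [Set.mem_ofPred_eq] at ha hb ⊢
    rw [mat_mul, ← Matrix.mulVec_mulVec]
    rcases hb with hb | hb <;> rcases ha with ha | ha <;>
      simp [hb, ha, Matrix.mulVec_neg]
  inv_mem' := by
    rintro a ha
    simp only [Set.mem_ofPred_eq] at ha ⊢
    have h1 : mat S a⁻¹ *ᵥ (mat S a *ᵥ ℓ.rep) = ℓ.rep := by
      rw [Matrix.mulVec_mulVec, ← mat_mul, inv_mul_cancel, mat_one, Matrix.one_mulVec]
    rcases ha with ha | ha
    · left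
      rw [ha] at h1
      exact h1
    · right
      rw [ha, Matrix.mulVec_neg, neg_eq_iff_eq_neg] at h1
      exact h1

theorem mem_P' {ℓ : P1} {g : S} :
    g ∈ P' S ℓ ↔ mat S g *ᵥ ℓ.rep = ℓ.rep ∨ mat S g *ᵥ ℓ.rep = -ℓ.rep := Iff.rfl

/-- `g` fixes `ℓ` iff the representative of `ℓ` is an eigenvector. -/
theorem mem_L_iff {ℓ : P1} {g : S} : g ∈ L S ℓ ↔ ∃ a : k, mat S g *ᵥ ℓ.rep = a • ℓ.rep := by
  rw [MulAction.mem_stabilizer_iff, smul_line]
  conv_lhs => rw [← Projectivization.mk_rep ℓ]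
  exact smul_mk_eq_iff _ ℓ.rep_nonzero

theorem Z_le_P' (ℓ : P1) : Z S ≤ P' S ℓ := by
  rintro g ⟨x, hx⟩
  have hdet := det_mat S g
  rw [hx] at hdet
  simp only [Matrix.det_smul, Fintype.card_fin, Matrix.det_one, mul_one] at hdet
  have hx2 : (x - 1) * (x + 1) = 0 := by linear_combination hdet
  rw [mem_P', hx, Matrix.smul_mulVec, Matrix.one_mulVec]
  rcases mul_eq_zero.mp hx2 with h | h
  · left
    rw [sub_eq_zero.mp h, one_smul]
  · right
    rw [eq_neg_of_add_eq_zero_left h, neg_smul, one_smul]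

theorem P'_le_L (ℓ : P1) : P' S ℓ ≤ L S ℓ := by
  intro g hg
  rw [mem_L_iff]
  rcases hg with h | h
  · exact ⟨1, by rw [h, one_smul]⟩
  · exact ⟨-1, by rw [h, neg_smul, one_smul]⟩

/-- Inside the stabiliser, `P'` is cut out by `disc2 = 0`. -/
theorem mem_P'_iff_disc2 {ℓ : P1} {g : S} (hg : g ∈ L S ℓ) :
    g ∈ P' S ℓ ↔ disc2 (mat S g) = 0 := by
  obtain ⟨a, ha⟩ := (mem_L_iff S).mp hg
  have hrel := disc2_of_eigenvalue (g : SL2) ℓ.rep_nonzero ha
  have ha0 : a ≠ 0 := by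
    rintro rfl
    rw [zero_smul] at ha
    exact mulVec_ne_zero (g : SL2) ℓ.rep_nonzero ha
  constructor
  · intro h
    have ha2 : a * a = 1 := by
      rcases h with h | h
      · have : a • ℓ.rep = (1 : k) • ℓ.rep := by rw [← ha, h, one_smul]
        have h3 : (a - 1) • ℓ.rep = 0 := by rw [sub_smul, this, sub_self]
        rcases smul_eq_zero.mp h3 with h4 | h4
        · rw [sub_eq_zero.mp h4, mul_one]
        · exact absurd h4 ℓ.rep_nonzero
      · have : a • ℓ.rep = (-1 : k) • ℓ.rep := by rw [← ha, h, neg_smul, one_smul]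
        have h3 : (a + 1) • ℓ.rep = 0 := by
          rw [add_smul, this, neg_smul, one_smul, neg_add_cancel]
        rcases smul_eq_zero.mp h3 with h4 | h4
        · rw [eq_neg_of_add_eq_zero_left h4]; ring
        · exact absurd h4 ℓ.rep_nonzero
    rw [ha2, one_mul] at hrel
    rw [hrel]; ring
  · intro h
    rw [h, mul_zero] at hrel
    have h2 : (a - 1) * (a + 1) = 0 := by
      have := pow_eq_zero_iff (two_ne_zero) |>.mp hrel.symm
      linear_combination this
    rw [mem_P', ha]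
    rcases mul_eq_zero.mp h2 with h3 | h3
    · left
      rw [sub_eq_zero.mp h3, one_smul]
    · right
      rw [eq_neg_of_add_eq_zero_left h3, neg_smul, one_smul]


/-! ### conjugation invariance -/

theorem disc2_mat_conj (h g : S) : disc2 (mat S (h * g * h⁻¹)) = disc2 (mat S g) := by
  rw [mat_mul, mat_mul]
  apply disc2_conj
  rw [← mat_mul, mul_inv_cancel, mat_one]

theorem conj_mem_L (h : S) {g : S} {ℓ : P1} (hg : g ∈ L S ℓ) : h * g * h⁻¹ ∈ L S (h • ℓ) := by
  rw [MulAction.mem_stabilizer_iff] at hg ⊢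
  rw [mul_smul, mul_smul, inv_smul_smul, hg]

theorem conj_mem_P' (h : S) {g : S} {ℓ : P1} (hg : g ∈ P' S ℓ) :
    h * g * h⁻¹ ∈ P' S (h • ℓ) := by
  have hL := conj_mem_L S h (P'_le_L S ℓ hg)
  rw [mem_P'_iff_disc2 S hL, disc2_mat_conj]
  exact (mem_P'_iff_disc2 S (P'_le_L S ℓ hg)).mp hg

theorem card_L_smul (h : S) (ℓ : P1) : Nat.card (L S (h • ℓ)) = Nat.card (L S ℓ) := by
  apply Nat.card_congr
  refine ⟨fun g => ⟨h⁻¹ * g.1 * h, ?_⟩, fun g => ⟨h * g.1 * h⁻¹, conj_mem_L S h g.2⟩, ?_, ?_⟩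
  · have := conj_mem_L S h⁻¹ g.2
    rwa [inv_smul_smul, inv_inv] at this
  · intro g
    apply Subtype.ext
    simp only
    group
  · intro g
    apply Subtype.ext
    simp only
    group

theorem card_P'_smul (h : S) (ℓ : P1) : Nat.card (P' S (h • ℓ)) = Nat.card (P' S ℓ) := by
  apply Nat.card_congr
  refine ⟨fun g => ⟨h⁻¹ * g.1 * h, ?_⟩, fun g => ⟨h * g.1 * h⁻¹, conj_mem_P' S h g.2⟩, ?_, ?_⟩
  · have := conj_mem_P' S h⁻¹ g.2
    rwa [inv_smul_smul, inv_inv] at this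
  · intro g
    apply Subtype.ext
    simp only
    group
  · intro g
    apply Subtype.ext
    simp only
    group

/-! ### the double count -/

theorem card_L_eq (ℓ : P1) :
    Nat.card (L S ℓ) = (Finset.univ.filter fun g : S => g • ℓ = ℓ).card := by
  rw [Nat.card_eq_fintype_card, ← Fintype.card_subtype]
  exact Fintype.card_congr (Equiv.refl _)

theorem card_P'_eq (ℓ : P1) :
    Nat.card (P' S ℓ) =
      (Finset.univ.filter fun g : S => g • ℓ = ℓ ∧ disc2 (mat S g) = 0).card := by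
  rw [Nat.card_eq_fintype_card, ← Fintype.card_subtype]
  apply Fintype.card_congr
  refine Equiv.subtypeEquivRight fun g => ?_
  constructor
  · intro hg
    exact ⟨P'_le_L S ℓ hg, (mem_P'_iff_disc2 S (P'_le_L S ℓ hg)).mp hg⟩
  · rintro ⟨h1, h2⟩
    exact (mem_P'_iff_disc2 S h1).mpr h2

theorem card_Z_eq : Nat.card (Z S) = (Finset.univ.filter fun g : S => g ∈ Z S).card := by
  rw [Nat.card_eq_fintype_card, ← Fintype.card_subtype]

/-- The contribution of one element to the double count. -/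
theorem contribution (h2 : (2 : k) ≠ 0) (hsq : ∀ g : S, IsSquare (disc2 (mat S g))) (g : S) :
    (Finset.univ.filter fun ℓ : P1 => g • ℓ = ℓ).card +
      (Finset.univ.filter fun ℓ : P1 => g • ℓ = ℓ ∧ disc2 (mat S g) = 0).card =
      if g ∈ Z S then 2 * Fintype.card P1 else 2 := by
  split_ifs with hZ
  · have hd : disc2 (mat S g) = 0 := disc2_of_isScalar hZ
    have h1 : (Finset.univ.filter fun ℓ : P1 => g • ℓ = ℓ) = Finset.univ := by
      apply Finset.filter_true_of_mem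
      intro ℓ _
      exact smul_eq_of_scalar (g : SLtwo k) hZ ℓ
    have h2' : (Finset.univ.filter fun ℓ : P1 => g • ℓ = ℓ ∧ disc2 (mat S g) = 0) =
        Finset.univ := by
      apply Finset.filter_true_of_mem
      intro ℓ _
      exact ⟨smul_eq_of_scalar (g : SLtwo k) hZ ℓ, hd⟩
    rw [h1, h2', Finset.card_univ]
    ring
  · have hns : ¬ IsScalar (mat S g) := hZ
    by_cases hd : disc2 (mat S g) = 0
    · obtain ⟨ℓ₀, hfix, huniq⟩ := exists_unique_fixed_of_disc2_eq_zero h2 (g : SLtwo k) hns hd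
      have h1 : (Finset.univ.filter fun ℓ : P1 => g • ℓ = ℓ) = {ℓ₀} := by
        ext ℓ
        simp only [Finset.mem_filter, Finset.mem_univ, true_and, Finset.mem_singleton]
        exact ⟨fun h => huniq ℓ h, fun h => h ▸ hfix⟩
      have h2' : (Finset.univ.filter fun ℓ : P1 => g • ℓ = ℓ ∧ disc2 (mat S g) = 0) = {ℓ₀} := by
        ext ℓ
        simp only [Finset.mem_filter, Finset.mem_univ, true_and, Finset.mem_singleton]
        exact ⟨fun h => huniq ℓ h.1, fun h => ⟨h ▸ hfix, hd⟩⟩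
      rw [h1, h2', Finset.card_singleton]
    · obtain ⟨s, hs⟩ := hsq g
      have hs0 : s ≠ 0 := by
        rintro rfl
        rw [mul_zero] at hs
        exact hd hs
      obtain ⟨ℓ₁, ℓ₂, hne, hiff⟩ := fixed_lines_of_disc2_ne_zero h2 (g : SLtwo k) hs hs0
      have h1 : (Finset.univ.filter fun ℓ : P1 => g • ℓ = ℓ) = {ℓ₁, ℓ₂} := by
        ext ℓ
        simp only [Finset.mem_filter, Finset.mem_univ, true_and, Finset.mem_insert,
          Finset.mem_singleton]
        exact hiff ℓ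
      have h2' : (Finset.univ.filter fun ℓ : P1 => g • ℓ = ℓ ∧ disc2 (mat S g) = 0) = ∅ := by
        apply Finset.filter_false_of_mem
        intro ℓ _ h
        exact hd h.2
      rw [h1, h2', Finset.card_pair hne, Finset.card_empty]

/-- **The counting identity**: `∑_ℓ (|L_ℓ| + |P'_ℓ|) = 2 z |ℙ¹| + 2 (|S| - z)`. -/
theorem sum_card_add (h2 : (2 : k) ≠ 0) (hsq : ∀ g : S, IsSquare (disc2 (mat S g))) :
    ∑ ℓ : P1, (Nat.card (L S ℓ) + Nat.card (P' S ℓ)) + 2 * Nat.card (Z S) =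
      2 * Nat.card (Z S) * Fintype.card P1 + 2 * Nat.card S := by
  have e1 : ∑ ℓ : P1, Nat.card (L S ℓ) =
      ∑ g : S, (Finset.univ.filter fun ℓ : P1 => g • ℓ = ℓ).card := by
    rw [Finset.sum_congr rfl fun ℓ _ => card_L_eq S ℓ]
    exact Finset.sum_card_bipartiteAbove_eq_sum_card_bipartiteBelow
      (s := (Finset.univ : Finset P1)) (t := (Finset.univ : Finset S)) fun ℓ g => g • ℓ = ℓ
  have e2 : ∑ ℓ : P1, Nat.card (P' S ℓ) =
      ∑ g : S, (Finset.univ.filter fun ℓ : P1 => g • ℓ = ℓ ∧ disc2 (mat S g) = 0).card := by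
    rw [Finset.sum_congr rfl fun ℓ _ => card_P'_eq S ℓ]
    exact Finset.sum_card_bipartiteAbove_eq_sum_card_bipartiteBelow
      (s := (Finset.univ : Finset P1)) (t := (Finset.univ : Finset S))
      fun ℓ g => g • ℓ = ℓ ∧ disc2 (mat S g) = 0
  rw [Finset.sum_add_distrib, e1, e2, ← Finset.sum_add_distrib,
    Finset.sum_congr rfl fun g _ => contribution S h2 hsq g, Finset.sum_ite,
    Finset.sum_const, Finset.sum_const, ← card_Z_eq, smul_eq_mul, smul_eq_mul]
  have hcompl : (Finset.univ.filter fun g : S => g ∉ Z S).card + Nat.card (Z S) = Nat.card S := by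
    rw [card_Z_eq, add_comm, Finset.card_filter_add_card_filter_not, Finset.card_univ,
      Nat.card_eq_fintype_card]
  rw [← hcompl]
  ring


/-! ### the weight -/

theorem card_Z_pos : 0 < Nat.card (Z S) := Nat.card_pos

theorem card_Z_dvd_card_P' (ℓ : P1) : Nat.card (Z S) ∣ Nat.card (P' S ℓ) :=
  Subgroup.card_dvd_of_le (Z_le_P' S ℓ)

theorem card_P'_dvd_card_L (ℓ : P1) : Nat.card (P' S ℓ) ∣ Nat.card (L S ℓ) :=
  Subgroup.card_dvd_of_le (P'_le_L S ℓ)

theorem card_Z_le_card_P' (ℓ : P1) : Nat.card (Z S) ≤ Nat.card (P' S ℓ) :=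
  Nat.le_of_dvd Nat.card_pos (card_Z_dvd_card_P' S ℓ)

theorem card_P'_le_card_L (ℓ : P1) : Nat.card (P' S ℓ) ≤ Nat.card (L S ℓ) :=
  Nat.le_of_dvd Nat.card_pos (card_P'_dvd_card_L S ℓ)

/-- The weight of a line: `|L_ℓ| + |P'_ℓ| - 2z`. -/
noncomputable def wt (ℓ : P1) : ℕ := Nat.card (L S ℓ) + Nat.card (P' S ℓ) - 2 * Nat.card (Z S)

theorem wt_add (ℓ : P1) :
    wt S ℓ + 2 * Nat.card (Z S) = Nat.card (L S ℓ) + Nat.card (P' S ℓ) := by
  have h1 := card_Z_le_card_P' S ℓ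
  have h2 := card_P'_le_card_L S ℓ
  rw [wt]
  omega

theorem wt_smul (g : S) (ℓ : P1) : wt S (g • ℓ) = wt S ℓ := by
  rw [wt, wt, card_L_smul, card_P'_smul]

theorem card_Z_le_card : Nat.card (Z S) ≤ Nat.card S := Subgroup.card_le_card_group _

/-- `∑_ℓ wt ℓ = 2 |S| - 2 z`. -/
theorem sum_wt (h2 : (2 : k) ≠ 0) (hsq : ∀ g : S, IsSquare (disc2 (mat S g))) :
    ∑ ℓ : P1, wt S ℓ + 2 * Nat.card (Z S) = 2 * Nat.card S := by
  have h := sum_card_add S h2 hsq
  rw [← Finset.sum_congr rfl fun ℓ _ => wt_add S ℓ, Finset.sum_add_distrib, Finset.sum_const,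
    Finset.card_univ, smul_eq_mul] at h
  have : Fintype.card P1 * (2 * Nat.card (Z S)) = 2 * Nat.card (Z S) * Fintype.card P1 := by ring
  omega


/-! ### the orbit analysis -/

/-! ### the orbit analysis -/

theorem card_orbit_mul_card_L (ℓ : P1) : (orbF S ℓ).card * Nat.card (L S ℓ) = Nat.card S :=
  card_orbF_mul (G := S) ℓ

/-- every line of non-zero weight is heavy. -/
theorem heavy (ℓ : P1) (hw : wt S ℓ ≠ 0) : Nat.card S ≤ 2 * ((orbF S ℓ).card * wt S ℓ) := by
  have key : Nat.card (L S ℓ) ≤ 2 * wt S ℓ := by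
    obtain ⟨j, hj⟩ := card_Z_dvd_card_P' S ℓ
    obtain ⟨i, hi⟩ := card_P'_dvd_card_L S ℓ
    have hadd := wt_add S ℓ
    have hz := card_Z_pos S
    have hP : 0 < Nat.card (P' S ℓ) := Nat.card_pos
    have hL : 0 < Nat.card (L S ℓ) := Nat.card_pos
    have hj1 : 1 ≤ j := by
      rcases Nat.eq_zero_or_pos j with h | h
      · rw [h, mul_zero] at hj; omega
      · exact h
    rcases Nat.lt_or_ge j 2 with hj2 | hj2
    · have hj' : j = 1 := by omega
      rw [hj', mul_one] at hj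
      have hi1 : 1 ≤ i := by
        rcases Nat.eq_zero_or_pos i with h | h
        · rw [h, mul_zero] at hi; omega
        · exact h
      have hi2 : 2 ≤ i := by
        by_contra hlt
        have : i = 1 := by omega
        rw [this, mul_one] at hi
        apply hw
        omega
      have : 2 * Nat.card (P' S ℓ) ≤ Nat.card (L S ℓ) := by
        rw [hi]; nlinarith
      omega
    · have : 2 * Nat.card (Z S) ≤ Nat.card (P' S ℓ) := by
        rw [hj]; nlinarith
      omega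
  calc Nat.card S = (orbF S ℓ).card * Nat.card (L S ℓ) := (card_orbit_mul_card_L S ℓ).symm
    _ ≤ (orbF S ℓ).card * (2 * wt S ℓ) := Nat.mul_le_mul_left _ key
    _ = 2 * ((orbF S ℓ).card * wt S ℓ) := by ring

/-- The final arithmetic. -/
theorem arith {q e n g₁ c₁ : ℕ} (he : 0 < e) (hn : 2 ≤ n)
    (hc : c₁ + 2 * n = n * q + 2) (hN : c₁ * g₁ = n * q * e) : q ≤ 2 * e + 1 := by
  by_contra hcon
  push Not at hcon
  rcases Nat.lt_or_ge e g₁ with hg | hg
  · -- `g₁ ≥ e + 1`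
    have h1 : c₁ * (e + 1) ≤ c₁ * g₁ := Nat.mul_le_mul_left _ hg
    have h2 : (c₁ + 2 * n) * (e + 1) = (n * q + 2) * (e + 1) := by rw [hc]
    nlinarith
  · have h1 : c₁ * g₁ ≤ c₁ * e := Nat.mul_le_mul_left _ hg
    have h2 : (c₁ + 2 * n) * e = (n * q + 2) * e := by rw [hc]
    nlinarith



theorem aux_star {n w z lam q' N sY : ℕ} (hsum : n * w + sY + 2 * z = 2 * N)
    (hw : w + 2 * z = lam + q') (h3 : n * lam = N) : sY + 2 * z + n * q' = N + 2 * z * n := by
  have h1 : n * (w + 2 * z) = n * (lam + q') := by rw [hw]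
  zify at *
  linear_combination hsum - h1 - h3

theorem aux_ss {c w z lam q N n q' : ℕ} (hw : w + 2 * z = lam + q) (h3 : c * lam = N)
    (hstar : c * w + 2 * z + n * q' = N + 2 * z * n) :
    c * q + 2 * z + n * q' = 2 * z * n + 2 * z * c := by
  have h1 : c * (w + 2 * z) = c * (lam + q) := by rw [hw]
  zify at *
  linear_combination hstar - h1 - h3

theorem aux_lt {n z q' N sY : ℕ} (hz : 0 < z) (hn : 2 ≤ n) (h3 : 3 * z ≤ q')
    (hstar : sY + 2 * z + n * q' = N + 2 * z * n) (hNq : n * q' ≤ N) : 0 < sY ∧ sY < N := by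
  have h1 : n * (3 * z) ≤ n * q' := Nat.mul_le_mul_left _ h3
  have h2 : 2 * z ≤ n * z := Nat.mul_le_mul_right _ hn
  constructor <;> nlinarith

theorem aux_q1 {c q₁ z n q' j : ℕ} (hz : 0 < z) (hq : 0 < q₁) (hj : q₁ = z * j) (h3 : 3 * z ≤ q')
    (hss : c * q₁ + 2 * z + n * q' = 2 * z * n + 2 * z * c) : q₁ = z := by
  have hj1 : 1 ≤ j := by
    rcases Nat.eq_zero_or_pos j with h | h
    · rw [h, mul_zero] at hj; omega
    · exact h
  rcases Nat.lt_or_ge j 2 with hj2 | hj2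
  · have : j = 1 := by omega
    rw [hj, this, mul_one]
  · exfalso
    have h1 : 2 * z ≤ q₁ := by rw [hj]; nlinarith
    have h4 : c * (2 * z) ≤ c * q₁ := Nat.mul_le_mul_left _ h1
    have h5 : n * (3 * z) ≤ n * q' := Nat.mul_le_mul_left _ h3
    nlinarith

theorem aux_c {c z n q' qt : ℕ} (hz : 0 < z) (hqt : q' = z * qt)
    (hss : c * z + 2 * z + n * q' = 2 * z * n + 2 * z * c) : c + 2 * n = n * qt + 2 := by
  have h1 : z * (c + 2 * n) = z * (n * qt + 2) := by
    rw [hqt] at hss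
    zify at *
    linear_combination -hss
  exact Nat.eq_of_mul_eq_mul_left hz h1

theorem aux_N {c z n q' qt e g₁ lam lam₁ N : ℕ} (hz : 0 < z) (hqt : q' = z * qt) (he : lam = q' * e)
    (hg₁ : lam₁ = z * g₁) (h1 : c * lam₁ = N) (h2 : n * lam = N) : c * g₁ = n * qt * e := by
  have h3 : z * (c * g₁) = z * (n * qt * e) := by
    rw [he, hqt] at h2
    rw [hg₁] at h1
    zify at *
    linear_combination h1 - h2
  exact Nat.eq_of_mul_eq_mul_left hz h3

/-- **The torus count.**  Let `S ≤ SL₂(k)` be finite with all `disc2` squares in `k` (`char k ≠ 2`),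
and `ℓ₀` a line moved by `S` with `3 z ≤ |P'_ℓ₀|`.  Then `|P'_ℓ₀| ≤ z (2 e + 1)` where
`e = |L_ℓ₀| / |P'_ℓ₀|` (written multiplicatively), and every line outside the orbit of `ℓ₀` has
`|P'_ℓ| = z`. -/
theorem torus_count (h2 : (2 : k) ≠ 0) (hsq : ∀ g : S, IsSquare (disc2 (mat S g))) (ℓ₀ : P1)
    (h3 : 3 * Nat.card (Z S) ≤ Nat.card (P' S ℓ₀)) (hmove : ∃ g : S, g • ℓ₀ ≠ ℓ₀) :
    Nat.card (P' S ℓ₀) * Nat.card (P' S ℓ₀) ≤
        Nat.card (Z S) * (2 * Nat.card (L S ℓ₀) + Nat.card (P' S ℓ₀)) ∧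
      ∀ ℓ : P1, ℓ ∉ MulAction.orbit S ℓ₀ → Nat.card (P' S ℓ) = Nat.card (Z S) := by
  have hz := card_Z_pos S
  obtain ⟨qt, hqt⟩ := card_Z_dvd_card_P' S ℓ₀
  obtain ⟨e, he⟩ := card_P'_dvd_card_L S ℓ₀
  have hnlam := card_orbit_mul_card_L S ℓ₀
  have hq'pos : 0 < Nat.card (P' S ℓ₀) := Nat.card_pos
  have hepos : 0 < e := by
    rcases Nat.eq_zero_or_pos e with h | h
    · rw [h, mul_zero] at he
      have : 0 < Nat.card (L S ℓ₀) := Nat.card_pos
      omega
    · exact h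
  -- `n ≥ 2`
  have hn2 : 2 ≤ (orbF S ℓ₀).card := by
    obtain ⟨g, hg⟩ := hmove
    have h1 : ({ℓ₀, g • ℓ₀} : Finset P1) ⊆ orbF S ℓ₀ := by
      intro x hx
      rw [Finset.mem_insert, Finset.mem_singleton] at hx
      rcases hx with rfl | rfl
      · exact self_mem_orbF _
      · exact mem_orbF.mpr ⟨g, rfl⟩
    have h2 : ({ℓ₀, g • ℓ₀} : Finset P1).card = 2 := Finset.card_pair (Ne.symm hg)
    have := Finset.card_le_card h1
    omega
  -- the complement of the orbit
  set Y : Finset P1 := Finset.univ \ orbF S ℓ₀ with hY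
  have hYstable : ∀ (g : S), ∀ y ∈ Y, g • y ∈ Y := by
    intro g y hy
    rw [hY, Finset.mem_sdiff] at hy ⊢
    refine ⟨Finset.mem_univ _, fun hmem => hy.2 ?_⟩
    rw [mem_orbF] at hmem ⊢
    obtain ⟨a, ha⟩ := hmem
    refine ⟨g⁻¹ * a, ?_⟩
    change (g⁻¹ * a) • ℓ₀ = y
    change a • ℓ₀ = g • y at ha
    rw [mul_smul, ha, inv_smul_smul]
  have hsplit : ∑ ℓ : P1, wt S ℓ = (orbF S ℓ₀).card * wt S ℓ₀ + ∑ ℓ ∈ Y, wt S ℓ := by
    rw [← sum_orbF (G := S) (wt_smul S) ℓ₀, hY, add_comm]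
    exact (Finset.sum_sdiff (Finset.subset_univ _)).symm
  have hsum := sum_wt S h2 hsq
  rw [hsplit] at hsum
  have hstar := aux_star hsum (wt_add S ℓ₀) hnlam
  have hNq : (orbF S ℓ₀).card * Nat.card (P' S ℓ₀) ≤ Nat.card S := by
    rw [← hnlam]
    exact Nat.mul_le_mul_left _ (card_P'_le_card_L S ℓ₀)
  obtain ⟨hpos, hlt⟩ := aux_lt hz hn2 h3 hstar hNq
  obtain ⟨ℓ₁, hℓ₁Y, hℓ₁w, hall, htot⟩ :=
    exists_unique_heavy_orbit (G := S) (wt_smul S) hYstable (fun y _ hy => heavy S y hy) hpos hlt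
  have hc₁lam := card_orbit_mul_card_L S ℓ₁
  obtain ⟨j₁, hj₁⟩ := card_Z_dvd_card_P' S ℓ₁
  obtain ⟨g₁, hg₁⟩ := (card_Z_dvd_card_P' S ℓ₁).trans (card_P'_dvd_card_L S ℓ₁)
  rw [htot] at hstar
  have hss := aux_ss (wt_add S ℓ₁) hc₁lam hstar
  have hq₁z : Nat.card (P' S ℓ₁) = Nat.card (Z S) := aux_q1 hz Nat.card_pos hj₁ h3 hss
  refine ⟨?_, ?_⟩
  · -- (a)
    rw [hq₁z] at hss
    have hc := aux_c hz hqt hss
    have hNe := aux_N hz hqt he hg₁ hc₁lam hnlam
    have hfin := arith hepos hn2 hc hNe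
    calc Nat.card (P' S ℓ₀) * Nat.card (P' S ℓ₀)
        = Nat.card (Z S) * (qt * Nat.card (P' S ℓ₀)) := by
          rw [hqt]
          ring
      _ ≤ Nat.card (Z S) * ((2 * e + 1) * Nat.card (P' S ℓ₀)) := by
          apply Nat.mul_le_mul_left
          exact Nat.mul_le_mul_right _ hfin
      _ = Nat.card (Z S) * (2 * Nat.card (L S ℓ₀) + Nat.card (P' S ℓ₀)) := by rw [he]; ring
  · -- (b)
    intro ℓ hℓ
    have hℓY : ℓ ∈ Y := by
      rw [hY, Finset.mem_sdiff]
      exact ⟨Finset.mem_univ _, fun h => hℓ (mem_orbF.mp h)⟩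
    by_cases hw : wt S ℓ = 0
    · have h1 := wt_add S ℓ
      have h4 := card_Z_le_card_P' S ℓ
      have h5 := card_P'_le_card_L S ℓ
      rw [hw] at h1
      omega
    · have hmem := hall ℓ hℓY hw
      obtain ⟨g, rfl⟩ := mem_orbF.mp hmem
      change Nat.card (P' S (g • ℓ₁)) = Nat.card (Z S)
      rw [card_P'_smul]
      exact hq₁z

end Fermat.Agent.TW.GRP.TorusCount3
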