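/-
Programme T (S56, Taylor–Wiles primes), chapter T/GRP, Phase 2, file G13d (helper3): **the torus
count specialised at the standard line** `ℓ₀ = [1 : 0]`, for a finite `S ≤ SL₂(k)` (`k` finite of
odd characteristic `p`, all `disc2` squares) containing a translation `u₀ = [[1,x₀],[0,1]]`,
`x₀ ≠ 0`, and an element which is not upper triangular.

* `mem_L_l0`, `mem_P'_l0` : the stabiliser of `ℓ₀` is the upper triangular part, `P'` is cut out by
  `g₀₀ = ±1`; `U S` (unipotent upper triangular elements), `A S` (the additive group of their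
  translation parts), `card_A_eq_card_U`, `card_Z_mul_card_U_le`;
* `tauHom` : the torus character `g ↦ g₀₀² = g₀₀ / g₁₁` on the stabiliser, with kernel `P'`
  (`card_L_eq_mul`);
* `card_U_le` : `|U| ≤ 2e + 1`, `e` the number of values of the torus character (from
  `TorusCount3.torus_count`);
* `closure_Gset_eq_A` : **(R)** the additive group generated by `{τ_t x₀}` is all of `A`;
* `c1_dichotomy`, `exists_mul_upper`, `tau_pow_four` : **(C1)** either some `τ_t² ≠ 1`, or `p = 5`,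
  `|A| = 5` and the Frattini-type step applies.
-/
import Mathlib
import Fermat.Agent.TW.GRP.TorusCount3

set_option autoImplicit false
set_option linter.unusedSectionVars false

namespace Fermat.Agent.TW.GRP.TorusSpec3

open Matrix Fermat.Agent.TW.GRP.Mat2x3 Fermat.Agent.TW.GRP.FixLines3
  Fermat.Agent.TW.GRP.OrbitSum3 Fermat.Agent.TW.GRP.TorusCount3
open scoped LinearAlgebra.Projectivization Classical

variable {k : Type*} [Field k] [Finite k]
variable (S : Subgroup (SLtwo k))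

/-- The first basis vector. -/
def e1 : Fin 2 → k := ![1, 0]

theorem e1_ne_zero : (e1 : Fin 2 → k) ≠ 0 := by
  intro h
  have := congrFun h 0
  simp [e1] at this

/-- The standard line `[1 : 0]`. -/
noncomputable def l0 : PLine k := Projectivization.mk k e1 e1_ne_zero

theorem mulVec_e1 (M : M2 k) : M *ᵥ e1 = ![M 0 0, M 1 0] := by
  ext i
  fin_cases i <;> simp [e1, Matrix.mulVec, dotProduct, Fin.sum_univ_two]

theorem mem_L_mk {v : Fin 2 → k} (hv : v ≠ 0) {g : S} :
    g ∈ L S (Projectivization.mk k v hv) ↔ ∃ a : k, mat S g *ᵥ v = a • v := by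
  rw [MulAction.mem_stabilizer_iff, smul_line]
  exact smul_mk_eq_iff _ hv

theorem mem_P'_mk {v : Fin 2 → k} (hv : v ≠ 0) {g : S} :
    g ∈ P' S (Projectivization.mk k v hv) ↔ mat S g *ᵥ v = v ∨ mat S g *ᵥ v = -v := by
  obtain ⟨a, ha⟩ := Projectivization.exists_smul_eq_mk_rep k v hv
  rw [mem_P', ← ha, Matrix.mulVec_smul]
  have hinj : Function.Injective fun w : Fin 2 → k => a • w := by
    intro w w' h
    have := congrArg (fun w => a⁻¹ • w) h
    simpa using this
  constructor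
  · rintro (h | h)
    · left; exact hinj h
    · right
      apply hinj
      show a • (mat S g *ᵥ v) = a • -v
      rw [h, smul_neg]
  · rintro (h | h)
    · left; rw [h]
    · right; rw [h, smul_neg]

theorem mem_L_l0 {g : S} : g ∈ L S l0 ↔ mat S g 1 0 = 0 := by
  rw [l0, mem_L_mk, mulVec_e1]
  constructor
  · rintro ⟨a, ha⟩
    have := congrFun ha 1
    simpa [e1] using this
  · intro h
    refine ⟨mat S g 0 0, ?_⟩
    ext i
    fin_cases i <;> simp [e1, h]

theorem mem_P'_l0 {g : S} :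
    g ∈ P' S l0 ↔ mat S g 1 0 = 0 ∧ (mat S g 0 0 = 1 ∨ mat S g 0 0 = -1) := by
  rw [l0, mem_P'_mk, mulVec_e1]
  constructor
  · rintro (h | h)
    · have h0 := congrFun h 0
      have h1 := congrFun h 1
      simp [e1] at h0 h1
      exact ⟨h1, Or.inl h0⟩
    · have h0 := congrFun h 0
      have h1 := congrFun h 1
      simp [e1] at h0 h1
      exact ⟨h1, Or.inr h0⟩
  · rintro ⟨h1, h0 | h0⟩
    · left
      ext i
      fin_cases i <;> simp [e1, h1, h0]
    · right
      ext i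
      fin_cases i <;> simp [e1, h1, h0]

/-- The determinant relation for an upper triangular element. -/
theorem diag_mul_eq_one {g : S} (hg : mat S g 1 0 = 0) : mat S g 0 0 * mat S g 1 1 = 1 := by
  have h := det_mat S g
  rw [Matrix.det_fin_two, hg, mul_zero, sub_zero] at h
  exact h

theorem mat_inv (g : S) : mat S g⁻¹ = !![mat S g 1 1, -mat S g 0 1; -mat S g 1 0, mat S g 0 0] := by
  have h1 : mat S g⁻¹ = (mat S g).adjugate := Matrix.SpecialLinearGroup.coe_inv _
  rw [h1, Matrix.adjugate_fin_two]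

theorem mat_injective : Function.Injective (mat S) := by
  intro a b h
  apply Subtype.ext
  apply Subtype.ext
  exact h

/-- The unipotent upper triangular elements of `S`. -/
def U : Subgroup S where
  carrier := {g | mat S g 1 0 = 0 ∧ mat S g 0 0 = 1}
  one_mem' := by
    refine ⟨?_, ?_⟩ <;> simp [mat_one]
  mul_mem' := by
    rintro a b ⟨ha1, ha0⟩ ⟨hb1, hb0⟩
    have ha11 : mat S a 1 1 = 1 := by
      have := diag_mul_eq_one S ha1
      rwa [ha0, one_mul] at this
    refine ⟨?_, ?_⟩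
    · show mat S (a * b) 1 0 = 0
      rw [mat_mul, Matrix.mul_apply, Fin.sum_univ_two, ha1, hb1]; ring
    · show mat S (a * b) 0 0 = 1
      rw [mat_mul, Matrix.mul_apply, Fin.sum_univ_two, ha0, hb0, hb1]; ring
  inv_mem' := by
    rintro a ⟨ha1, ha0⟩
    have ha11 : mat S a 1 1 = 1 := by
      have := diag_mul_eq_one S ha1
      rwa [ha0, one_mul] at this
    refine ⟨?_, ?_⟩
    · show mat S a⁻¹ 1 0 = 0
      rw [mat_inv]; simp [ha1]
    · show mat S a⁻¹ 0 0 = 1
      rw [mat_inv]; simp [ha11]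

theorem mem_U {g : S} : g ∈ U S ↔ mat S g 1 0 = 0 ∧ mat S g 0 0 = 1 := Iff.rfl

theorem mat_of_mem_U {g : S} (hg : g ∈ U S) : mat S g = !![1, mat S g 0 1; 0, 1] := by
  obtain ⟨h1, h0⟩ := hg
  have h11 : mat S g 1 1 = 1 := by
    have := diag_mul_eq_one S h1
    rwa [h0, one_mul] at this
  conv_lhs => rw [Matrix.eta_fin_two (mat S g)]
  rw [h1, h0, h11]

theorem mem_U_of_mat {g : S} {x : k} (hg : mat S g = !![1, x; 0, 1]) : g ∈ U S := by
  refine ⟨?_, ?_⟩ <;> simp [hg]

theorem U_le_P' : U S ≤ P' S l0 := by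
  intro g hg
  rw [mem_P'_l0]
  exact ⟨hg.1, Or.inl hg.2⟩

/-- `Z ∩ U = 1`. -/
theorem eq_one_of_mem_Z_of_mem_U {g : S} (hZ : g ∈ Z S) (hU : g ∈ U S) : g = 1 := by
  obtain ⟨x, hx⟩ := hZ
  apply mat_injective S
  rw [mat_one]
  have h0 := hU.2
  rw [hx] at h0
  simp at h0
  rw [hx, h0, one_smul]

/-- `|Z| · |U| ≤ |P'_{ℓ₀}|`. -/
theorem card_Z_mul_card_U_le : Nat.card (Z S) * Nat.card (U S) ≤ Nat.card (P' S l0) := by
  rw [← Nat.card_prod]
  let f : Z S × U S → P' S l0 := fun zu =>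
    ⟨(zu.1 : S) * (zu.2 : S), (P' S l0).mul_mem (Z_le_P' S l0 zu.1.2) (U_le_P' S zu.2.2)⟩
  apply Nat.card_le_card_of_injective f
  rintro ⟨ζ, u⟩ ⟨ζ', u'⟩ h
  have h1 : (ζ : S) * (u : S) = (ζ' : S) * (u' : S) := congrArg Subtype.val h
  have h2 : (ζ' : S)⁻¹ * (ζ : S) = (u' : S) * (u : S)⁻¹ := by
    rw [inv_mul_eq_iff_eq_mul, ← mul_assoc, ← h1, mul_assoc, mul_inv_cancel, mul_one]
  have h3 : (ζ' : S)⁻¹ * (ζ : S) = 1 := by
    apply eq_one_of_mem_Z_of_mem_U S
    · exact (Z S).mul_mem ((Z S).inv_mem ζ'.2) ζ.2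
    · rw [h2]; exact (U S).mul_mem u'.2 ((U S).inv_mem u.2)
  have h4 : (ζ : S) = ζ' := by
    rw [inv_mul_eq_one] at h3; exact h3.symm
  have h5 : (u : S) = u' := by
    rw [h4] at h1; exact mul_left_cancel h1
  exact Prod.ext (Subtype.ext h4) (Subtype.ext h5)


/-! ### the additive group of translations -/

/-- The additive subgroup `{x | [[1,x],[0,1]] ∈ S}` of `k`. -/
def A : AddSubgroup k where
  carrier := {x | ∃ g : S, mat S g = !![1, x; 0, 1]}
  zero_mem' := ⟨1, by rw [mat_one]; exact Matrix.one_fin_two⟩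
  add_mem' := by
    rintro x y ⟨g, hg⟩ ⟨h, hh⟩
    refine ⟨g * h, ?_⟩
    rw [mat_mul, hg, hh, Matrix.mul_fin_two]
    simp [add_comm]
  neg_mem' := by
    rintro x ⟨g, hg⟩
    refine ⟨g⁻¹, ?_⟩
    rw [mat_inv, hg]
    simp

theorem mem_A {x : k} : x ∈ A S ↔ ∃ g : S, mat S g = !![1, x; 0, 1] := Iff.rfl

theorem card_A_eq_card_U : Nat.card (A S) = Nat.card (U S) := by
  symm
  let f : U S → A S := fun g => ⟨mat S g 0 1, ⟨g, mat_of_mem_U S g.2⟩⟩
  apply Nat.card_congr (Equiv.ofBijective f ⟨?_, ?_⟩)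
  · intro g h hgh
    have h1 : mat S g 0 1 = mat S h 0 1 := congrArg Subtype.val hgh
    apply Subtype.ext
    apply mat_injective S
    rw [mat_of_mem_U S g.2, mat_of_mem_U S h.2, h1]
  · rintro ⟨x, g, hg⟩
    refine ⟨⟨g, mem_U_of_mat S hg⟩, ?_⟩
    apply Subtype.ext
    show mat S g 0 1 = x
    rw [hg]; rfl

/-! ### the torus character -/

theorem diag_ne_zero {g : S} (hg : mat S g 1 0 = 0) : mat S g 0 0 ≠ 0 := by
  intro h
  have := diag_mul_eq_one S hg
  rw [h, zero_mul] at this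
  exact zero_ne_one this

/-- The diagonal character `g ↦ g₀₀` of the stabiliser of `ℓ₀`. -/
noncomputable def diagHom : L S l0 →* kˣ where
  toFun g := Units.mk0 (mat S g 0 0) (diag_ne_zero S ((mem_L_l0 S).mp g.2))
  map_one' := by
    apply Units.ext
    show mat S 1 0 0 = 1
    rw [mat_one]; rfl
  map_mul' a b := by
    apply Units.ext
    show mat S (a * b) 0 0 = mat S a 0 0 * mat S b 0 0
    have hb := (mem_L_l0 S).mp b.2
    rw [mat_mul, Matrix.mul_apply, Fin.sum_univ_two, hb]; ring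

theorem diagHom_coe (g : L S l0) : ((diagHom S g : kˣ) : k) = mat S g 0 0 := rfl

/-- The torus character `g ↦ g₀₀² = g₀₀ / g₁₁`. -/
noncomputable def tauHom : L S l0 →* kˣ := (powMonoidHom 2).comp (diagHom S)

theorem tauHom_coe (g : L S l0) : ((tauHom S g : kˣ) : k) = mat S g 0 0 ^ 2 := by
  show (((diagHom S g) ^ 2 : kˣ) : k) = _
  rw [Units.val_pow_eq_pow_val, diagHom_coe]

theorem tauHom_coe' (g : L S l0) : ((tauHom S g : kˣ) : k) = mat S g 0 0 / mat S g 1 1 := by
  rw [tauHom_coe]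
  have h := diag_mul_eq_one S ((mem_L_l0 S).mp g.2)
  have h0 := diag_ne_zero S ((mem_L_l0 S).mp g.2)
  have h1 : mat S g 1 1 ≠ 0 := by
    intro h'; rw [h', mul_zero] at h; exact zero_ne_one h
  field_simp
  exact h

theorem tauHom_ker : (tauHom S).ker = (P' S l0).subgroupOf (L S l0) := by
  ext g
  rw [MonoidHom.mem_ker, Subgroup.mem_subgroupOf, mem_P'_l0, Units.ext_iff, tauHom_coe,
    Units.val_one]
  have hg := (mem_L_l0 S).mp g.2
  constructor
  · intro h
    refine ⟨hg, ?_⟩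
    have h2 : (mat S g 0 0 - 1) * (mat S g 0 0 + 1) = 0 := by linear_combination h
    rcases mul_eq_zero.mp h2 with h3 | h3
    · left; exact sub_eq_zero.mp h3
    · right; exact eq_neg_of_add_eq_zero_left h3
  · rintro ⟨-, h | h⟩ <;> rw [h] <;> ring

/-- `|L_{ℓ₀}| = |P'_{ℓ₀}| · |T₁|`. -/
theorem card_L_eq_mul : Nat.card (L S l0) = Nat.card (P' S l0) * Nat.card (tauHom S).range := by
  rw [← Subgroup.index_ker, ← Subgroup.card_mul_index (tauHom S).ker, tauHom_ker]
  congr 1
  exact Nat.card_congr (Subgroup.subgroupOfEquivOfLe (P'_le_L S l0)).toEquiv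


/-! ### the generating set -/

/-- The set `{τ_t x₀ | t ∈ S upper triangular}`. -/
def Gset (x₀ : k) : Set k :=
  {z | ∃ t : S, mat S t 1 0 = 0 ∧ z = mat S t 0 0 / mat S t 1 1 * x₀}

/-- Conjugating `[[1,x],[0,1]]` by an upper triangular element. -/
theorem mat_conj_unip {t u : S} {x : k} (ht : mat S t 1 0 = 0) (hu : mat S u = !![1, x; 0, 1]) :
    mat S (t * u * t⁻¹) = !![1, mat S t 0 0 / mat S t 1 1 * x; 0, 1] := by
  have h := diag_mul_eq_one S ht
  have h0 := diag_ne_zero S ht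
  have h1 : mat S t 1 1 ≠ 0 := by
    intro h'; rw [h', mul_zero] at h; exact zero_ne_one h
  rw [mat_mul, mat_mul, mat_inv, hu, ht]
  conv_lhs => rw [Matrix.eta_fin_two (mat S t), ht]
  rw [Matrix.mul_fin_two, Matrix.mul_fin_two]
  ext i j
  fin_cases i <;> fin_cases j
  · simp; linear_combination h
  · simp; field_simp; linear_combination x * h
  · simp
  · simp; linear_combination h

variable {S} in
theorem Gset_subset_A {u₀ : S} {x₀ : k} (hu₀ : mat S u₀ = !![1, x₀; 0, 1]) :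
    Gset S x₀ ⊆ A S := by
  rintro z ⟨t, ht, rfl⟩
  exact ⟨t * u₀ * t⁻¹, mat_conj_unip S ht hu₀⟩

variable {S} in
theorem closure_Gset_le_A {u₀ : S} {x₀ : k} (hu₀ : mat S u₀ = !![1, x₀; 0, 1]) :
    AddSubgroup.closure (Gset S x₀) ≤ A S :=
  (AddSubgroup.closure_le _).mpr (Gset_subset_A hu₀)

/-- The closure of the generating set has at least `e + 1` elements. -/
theorem card_range_lt_card_closure {x₀ : k} (hx₀ : x₀ ≠ 0) :
    Nat.card (tauHom S).range + 1 ≤ Nat.card (AddSubgroup.closure (Gset S x₀)) := by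
  have hmem : ∀ τ : (tauHom S).range, ((τ : kˣ) : k) * x₀ ∈ AddSubgroup.closure (Gset S x₀) := by
    rintro ⟨τ, g, rfl⟩
    apply AddSubgroup.subset_closure
    refine ⟨g, (mem_L_l0 S).mp g.2, ?_⟩
    rw [tauHom_coe']
  let f : Option (tauHom S).range → AddSubgroup.closure (Gset S x₀) := fun o =>
    match o with
    | none => 0
    | some τ => ⟨((τ : kˣ) : k) * x₀, hmem τ⟩
  have hf : Function.Injective f := by
    rintro (_ | τ) (_ | τ') h
    · rfl
    · exfalso
      have h1 : (0 : k) = ((τ' : kˣ) : k) * x₀ := congrArg Subtype.val h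
      exact mul_ne_zero (Units.ne_zero _) hx₀ h1.symm
    · exfalso
      have h1 : ((τ : kˣ) : k) * x₀ = 0 := congrArg Subtype.val h
      exact mul_ne_zero (Units.ne_zero _) hx₀ h1
    · have h1 : ((τ : kˣ) : k) * x₀ = ((τ' : kˣ) : k) * x₀ := congrArg Subtype.val h
      have h2 := mul_right_cancel₀ hx₀ h1
      rw [Option.some_inj]
      exact Subtype.ext (Units.ext h2)
  have := Nat.card_le_card_of_injective f hf
  rwa [Finite.card_option] at this


/-! ### applying the torus count -/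

section count

variable {S}
variable (p : ℕ) [hp : Fact p.Prime] [CharP k p]
variable {u₀ : S} {x₀ : k} (hx₀ : x₀ ≠ 0) (hu₀ : mat S u₀ = !![1, x₀; 0, 1])

include hx₀ hu₀ in
theorem prime_le_card_A : p ≤ Nat.card (A S) := by
  have hmem : x₀ ∈ A S := ⟨u₀, hu₀⟩
  have h1 : addOrderOf x₀ = p := by
    apply addOrderOf_eq_prime
    · rw [nsmul_eq_mul, CharP.cast_eq_zero, zero_mul]
    · exact hx₀
  have h2 : addOrderOf (⟨x₀, hmem⟩ : A S) = p := by
    rw [← h1, ← AddSubgroup.addOrderOf_coe]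
  have h3 : addOrderOf (⟨x₀, hmem⟩ : A S) ∣ Nat.card (A S) := addOrderOf_dvd_natCard _
  rw [h2] at h3
  exact Nat.le_of_dvd Nat.card_pos h3

include hx₀ hu₀ in
/-- **Output of the torus count at `ℓ₀ = [1:0]`**: `|U| ≤ 2e + 1` with `e = |T₁|`, and lines
outside the orbit of `ℓ₀` have `|P'| = z`. -/
theorem card_U_le (h2 : (2 : k) ≠ 0) (hp2 : p ≠ 2)
    (hsq : ∀ g : S, IsSquare (disc2 (mat S g))) (hmove : ∃ g : S, mat S g 1 0 ≠ 0) :
    Nat.card (U S) ≤ 2 * Nat.card (tauHom S).range + 1 ∧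
      ∀ ℓ : PLine k, ℓ ∉ MulAction.orbit S (l0 : PLine k) →
        Nat.card (P' S ℓ) = Nat.card (Z S) := by
  have hpU : p ≤ Nat.card (U S) := by
    rw [← card_A_eq_card_U]; exact prime_le_card_A p hx₀ hu₀
  have hp3 : 3 ≤ p := by
    have := hp.out.two_le
    omega
  have hzU := card_Z_mul_card_U_le S
  have h3 : 3 * Nat.card (Z S) ≤ Nat.card (P' S l0) := by
    have : Nat.card (Z S) * 3 ≤ Nat.card (Z S) * Nat.card (U S) :=
      Nat.mul_le_mul_left _ (hp3.trans hpU)
    omega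
  have hmove' : ∃ g : S, g • (l0 : PLine k) ≠ l0 := by
    obtain ⟨g, hg⟩ := hmove
    refine ⟨g, fun h => hg ?_⟩
    exact (mem_L_l0 S).mp (MulAction.mem_stabilizer_iff.mpr h)
  obtain ⟨ha, hb⟩ := torus_count S h2 hsq l0 h3 hmove'
  refine ⟨?_, hb⟩
  rw [card_L_eq_mul] at ha
  have hq' : 0 < Nat.card (P' S l0) := Nat.card_pos
  have hz : 0 < Nat.card (Z S) := Nat.card_pos
  set q' := Nat.card (P' S l0)
  set z := Nat.card (Z S)
  set e := Nat.card (tauHom S).range
  have h4 : q' * q' ≤ q' * (z * (2 * e + 1)) := by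
    calc q' * q' ≤ z * (2 * (q' * e) + q') := ha
      _ = q' * (z * (2 * e + 1)) := by ring
  have h5 : q' ≤ z * (2 * e + 1) := Nat.le_of_mul_le_mul_left h4 hq'
  have h6 : z * Nat.card (U S) ≤ z * (2 * e + 1) := hzU.trans h5
  exact Nat.le_of_mul_le_mul_left h6 hz

include hx₀ hu₀ in
/-- **(R)**: every translation in `S` lies in the additive group generated by `T₁ x₀`. -/
theorem closure_Gset_eq_A (h2 : (2 : k) ≠ 0) (hp2 : p ≠ 2)
    (hsq : ∀ g : S, IsSquare (disc2 (mat S g))) (hmove : ∃ g : S, mat S g 1 0 ≠ 0) :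
    AddSubgroup.closure (Gset S x₀) = A S := by
  have hle := closure_Gset_le_A hu₀
  apply AddSubgroup.eq_of_le_of_card_ge hle
  obtain ⟨m, hm⟩ := AddSubgroup.card_dvd_of_le hle
  have h1 := card_range_lt_card_closure S hx₀
  have h3 := (card_U_le p hx₀ hu₀ h2 hp2 hsq hmove).1
  rw [← card_A_eq_card_U] at h3
  have hApos : 0 < Nat.card (A S) := Nat.card_pos
  rcases Nat.lt_or_ge m 2 with hm2 | hm2
  · have hm1 : m = 1 := by
      rcases Nat.eq_zero_or_pos m with h0 | h0
      · rw [h0, mul_zero] at hm; omega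
      · omega
    rw [hm, hm1, mul_one]
  · exfalso
    have : Nat.card (AddSubgroup.closure (Gset S x₀)) * 2 ≤ Nat.card (A S) := by
      rw [hm]; exact Nat.mul_le_mul_left _ hm2
    omega

end count


/-! ### the condition (C1) -/

/-- If the torus character has at least three values, one of them has square `≠ 1`. -/
theorem exists_tau_sq_ne_one (he : 3 ≤ Nat.card (tauHom S).range) :
    ∃ t : S, mat S t 1 0 = 0 ∧ (mat S t 0 0 / mat S t 1 1) ^ 2 ≠ 1 := by
  by_contra hcon
  push Not at hcon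
  have hall : ∀ τ : (tauHom S).range, (τ : kˣ) = 1 ∨ (τ : kˣ) = -1 := by
    rintro ⟨τ, g, rfl⟩
    have h1 := hcon g ((mem_L_l0 S).mp g.2)
    rw [← tauHom_coe'] at h1
    have h2 : (((tauHom S g : kˣ) : k) - 1) * (((tauHom S g : kˣ) : k) + 1) = 0 := by
      linear_combination h1
    rcases mul_eq_zero.mp h2 with h3 | h3
    · left
      exact Units.ext (sub_eq_zero.mp h3)
    · right
      apply Units.ext
      rw [Units.val_neg, Units.val_one]
      exact eq_neg_of_add_eq_zero_left h3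
  let f : (tauHom S).range → Bool := fun τ => decide ((τ : kˣ) = 1)
  have hf : Function.Injective f := by
    intro τ τ' h
    apply Subtype.ext
    by_cases h1 : (τ : kˣ) = 1
    · have : (τ' : kˣ) = 1 := by
        have : f τ' = true := by rw [← h]; exact decide_eq_true h1
        exact of_decide_eq_true this
      rw [h1, this]
    · have h1' : (τ' : kˣ) ≠ 1 := by
        intro h2
        have : f τ = true := by rw [h]; exact decide_eq_true h2
        exact h1 (of_decide_eq_true this)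
      rw [(hall τ).resolve_left h1, (hall τ').resolve_left h1']
  have := Nat.card_le_card_of_injective f hf
  rw [Nat.card_eq_fintype_card (α := Bool), Fintype.card_bool] at this
  omega

/-- **Frattini-type step**: if `t = M u₀ M⁻¹ ∈ S` for an invertible matrix `M`, and the lines
outside the orbit of `ℓ₀` have `P' = Z`, then `s M` is upper triangular for some `s ∈ S`. -/
theorem exists_mul_upper {x₀ : k} (hx₀ : x₀ ≠ 0)
    (hb : ∀ ℓ : PLine k, ℓ ∉ MulAction.orbit S (l0 : PLine k) →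
      Nat.card (P' S ℓ) = Nat.card (Z S))
    {M M' : M2 k} (hM'M : M' * M = 1) {t : S} (ht : mat S t * M = M * !![1, x₀; 0, 1]) :
    ∃ s : S, (mat S s * M) 1 0 = 0 := by
  set v : Fin 2 → k := M *ᵥ e1 with hv
  have hv0 : v ≠ 0 := by
    intro h0
    have h1 : M' *ᵥ v = e1 := by
      rw [hv, Matrix.mulVec_mulVec, hM'M, Matrix.one_mulVec]
    rw [h0, Matrix.mulVec_zero] at h1
    exact e1_ne_zero h1.symm
  have hue : (!![1, x₀; 0, 1] : M2 k) *ᵥ e1 = e1 := by
    rw [mulVec_e1]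
    ext i
    fin_cases i <;> simp [e1]
  have htv : mat S t *ᵥ v = v := by
    rw [hv, Matrix.mulVec_mulVec, ht, ← Matrix.mulVec_mulVec, hue]
  have htP : t ∈ P' S (Projectivization.mk k v hv0) := (mem_P'_mk S hv0).mpr (Or.inl htv)
  have htZ : t ∉ Z S := by
    rintro ⟨c, hc⟩
    rw [hc] at ht
    have h1 : M' * (c • (1 : M2 k) * M) = M' * (M * !![1, x₀; 0, 1]) := by rw [ht]
    rw [Matrix.smul_mul, Matrix.one_mul, Matrix.mul_smul, ← Matrix.mul_assoc, hM'M,
      Matrix.one_mul] at h1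
    have h2 := congrFun (congrFun h1 0) 1
    simp at h2
    exact hx₀ h2.symm
  have hne : Nat.card (P' S (Projectivization.mk k v hv0)) ≠ Nat.card (Z S) := by
    intro hcard
    have := Subgroup.eq_of_le_of_card_ge (Z_le_P' S (Projectivization.mk k v hv0)) hcard.le
    rw [← this] at htP
    exact htZ htP
  have horb : Projectivization.mk k v hv0 ∈ MulAction.orbit S (l0 : PLine k) := by
    by_contra hnot
    exact hne (hb _ hnot)
  obtain ⟨s', hs'⟩ := horb
  change s' • (l0 : PLine k) = _ at hs'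
  rw [smul_line, l0, smul_mk, Projectivization.mk_eq_mk_iff'] at hs'
  obtain ⟨a, ha⟩ := hs'
  -- `a • v = s' e1`
  have ha0 : a ≠ 0 := by
    rintro rfl
    rw [zero_smul] at ha
    exact mulVec_ne_zero (s' : SLtwo k) e1_ne_zero ha.symm
  refine ⟨s'⁻¹, ?_⟩
  have h1 : mat S s'⁻¹ *ᵥ (a • v) = e1 := by
    rw [ha]
    show mat S s'⁻¹ *ᵥ (mat S s' *ᵥ e1) = e1
    rw [Matrix.mulVec_mulVec, ← mat_mul, inv_mul_cancel, mat_one, Matrix.one_mulVec]
  rw [Matrix.mulVec_smul, hv, Matrix.mulVec_mulVec, mulVec_e1] at h1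
  have h2 := congrFun h1 1
  simp [e1] at h2
  exact h2.resolve_left ha0

section five

variable {S}
variable (p : ℕ) [hp : Fact p.Prime] [CharP k p]
variable {u₀ : S} {x₀ : k} (hx₀ : x₀ ≠ 0) (hu₀ : mat S u₀ = !![1, x₀; 0, 1])

include hx₀ hu₀ in
/-- The dichotomy for (C1) when `p ≥ 5`. -/
theorem c1_dichotomy (h2 : (2 : k) ≠ 0) (hp2 : p ≠ 2) (hp3 : p ≠ 3)
    (hsq : ∀ g : S, IsSquare (disc2 (mat S g))) (hmove : ∃ g : S, mat S g 1 0 ≠ 0) :
    (∃ t : S, mat S t 1 0 = 0 ∧ (mat S t 0 0 / mat S t 1 1) ^ 2 ≠ 1) ∨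
      (p = 5 ∧ Nat.card (A S) = 5 ∧
        ∀ ℓ : PLine k, ℓ ∉ MulAction.orbit S (l0 : PLine k) →
          Nat.card (P' S ℓ) = Nat.card (Z S)) := by
  obtain ⟨h1, hb⟩ := card_U_le p hx₀ hu₀ h2 hp2 hsq hmove
  have hpA := prime_le_card_A p hx₀ hu₀
  rw [card_A_eq_card_U] at hpA
  rcases Nat.lt_or_ge (Nat.card (tauHom S).range) 3 with he | he
  · right
    have hp5 : 5 ≤ p := by
      have h2le := hp.out.two_le
      by_contra hlt
      have : p = 4 := by omega
      rw [this] at hp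
      exact absurd hp.out (by norm_num)
    refine ⟨by omega, ?_, hb⟩
    rw [card_A_eq_card_U]
    omega
  · left
    exact exists_tau_sq_ne_one S he

include hx₀ hu₀ in
/-- If `|A| = 5` (so `p = 5`), a multiplier of `x₀` into `A` is a fourth root of unity. -/
theorem tau_pow_four (h5 : p = 5) (hcard : Nat.card (A S) = 5) {τ : k} (hτ : τ * x₀ ∈ A S)
    (hτ0 : τ ≠ 0) : τ ^ 4 = 1 := by
  subst h5
  have hmem : x₀ ∈ A S := ⟨u₀, hu₀⟩
  have h1 : addOrderOf x₀ = 5 := by
    apply addOrderOf_eq_prime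
    · rw [nsmul_eq_mul, CharP.cast_eq_zero, zero_mul]
    · exact hx₀
  have hle : AddSubgroup.zmultiples x₀ ≤ A S := by
    rw [AddSubgroup.zmultiples_le]; exact hmem
  have hcz : Nat.card (AddSubgroup.zmultiples x₀) = 5 := by
    rw [Nat.card_zmultiples, h1]
  have heq : AddSubgroup.zmultiples x₀ = A S :=
    AddSubgroup.eq_of_le_of_card_ge hle (by rw [hcz, hcard])
  rw [← heq, AddSubgroup.mem_zmultiples_iff] at hτ
  obtain ⟨n, hn⟩ := hτ
  rw [zsmul_eq_mul] at hn
  have hτn : τ = (n : k) := (mul_right_cancel₀ hx₀ hn).symm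
  let φ : ZMod 5 →+* k := ZMod.castHom (dvd_refl 5) k
  have hφ : φ (n : ZMod 5) = (n : k) := map_intCast φ n
  have hn0 : (n : ZMod 5) ≠ 0 := by
    intro h0
    rw [h0, map_zero] at hφ
    exact hτ0 (by rw [hτn, ← hφ])
  have h4 : (n : ZMod 5) ^ 4 = 1 := ZMod.pow_card_sub_one_eq_one hn0
  rw [hτn, ← hφ, ← map_pow, h4, map_one]

end five

end Fermat.Agent.TW.GRP.TorusSpec3
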