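/-
Programme T (S56, Taylor–Wiles primes), chapter T/GRP, Phase 2, file G15 (helper3): **assembly of
the vanishing of `H¹(ρ(G), ad⁰ρ ⊗ det)`** (Dickson-free).

* `imSL ρ` : the determinant-one part of the image of `ρ`, as a subgroup of `SL₂(k)`;
* `exists_primitive_on_unip` : for `ρ` faithful with a non-trivial translation `u₀`, an element of
  determinant one outside the Borel subgroup and square discriminants, the hypotheses (fin), (R'),
  (C1') of `BorelCoc0.exists_primitive_on_unip` hold (torus count `TorusSpec3`), so every cocycle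
  is a coboundary on the unipotent radical `B ⊓ unipSub ρ`;
* `isCob_of_injective` : Case B (an element of order `p` in the image) for a faithful
  representation of a finite group (Sylow `SylowUnip0` + `IrredOrbit0` + conjugation
  `SL2Wrap0.isCob_of_conj` + restriction `Coc3.isCob_of_restrict`);
* `matrixH1Vanishing` : **`VanReduce3.MatrixH1Vanishing ρ (detU ρ)`** for every irreducible
  `ρ : G →* M2 k`, `k` finite of odd characteristic `p`, with all `disc2 (ρ g)` squares and (if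
  `p = 5`) some `det ρ g ≠ ±1`  (Case B1 `CaseAB0.isCob_of_no_order_p` + descent to the image).
-/
import Mathlib
import Fermat.Agent.TW.GRP.TorusSpec3
import Fermat.Agent.TW.GRP.BorelCoc0
import Fermat.Agent.TW.GRP.SylowUnip0
import Fermat.Agent.TW.GRP.IrredOrbit0
import Fermat.Agent.TW.GRP.SL2Wrap0
import Fermat.Agent.TW.GRP.CaseAB0
import Fermat.Agent.TW.GRP.VanReduce3
import Fermat.Agent.TW.GRP.Bridge3

set_option autoImplicit false
set_option linter.unusedSectionVars false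

namespace Fermat.Agent.TW.GRP.CaseB3

open Matrix Fermat.Agent.TW.GRP.Mat2x3 Fermat.Agent.TW.GRP.Irred3 Fermat.Agent.TW.GRP.AdZero3
  Fermat.Agent.TW.GRP.TorusCount3 Fermat.Agent.TW.GRP.TorusSpec3
  Fermat.Agent.TW.GRP.CyclicCase0 Fermat.Agent.TW.GRP
open scoped LinearAlgebra.Projectivization Classical

variable {k : Type*} [Field k] {Γ : Type*} [Group Γ] (ρ : Γ →* M2 k)

/-- The determinant-one part of the image of `ρ`, as a subgroup of `SL₂(k)`. -/
def imSL : Subgroup (SLtwo k) where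
  carrier := {s | ∃ g : Γ, ρ g = (s : M2 k)}
  one_mem' := ⟨1, by rw [map_one]; rfl⟩
  mul_mem' := by
    rintro a b ⟨g, hg⟩ ⟨h, hh⟩
    exact ⟨g * h, by rw [map_mul, hg, hh]; rfl⟩
  inv_mem' := by
    rintro a ⟨g, hg⟩
    refine ⟨g⁻¹, ?_⟩
    have h1 : ρ g⁻¹ * ρ g = 1 := TWHyp3.inv_mul_eq_one ρ g
    have h2 : (a : M2 k) * ((a⁻¹ : SLtwo k) : M2 k) = 1 := by
      rw [← Matrix.SpecialLinearGroup.coe_mul, mul_inv_cancel]; rfl
    calc ρ g⁻¹ = ρ g⁻¹ * ((a : M2 k) * ((a⁻¹ : SLtwo k) : M2 k)) := by rw [h2, Matrix.mul_one]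
      _ = (ρ g⁻¹ * ρ g) * ((a⁻¹ : SLtwo k) : M2 k) := by rw [hg, Matrix.mul_assoc]
      _ = ((a⁻¹ : SLtwo k) : M2 k) := by rw [h1, Matrix.one_mul]

theorem exists_of_imSL (s : imSL ρ) : ∃ g : Γ, ρ g = mat (imSL ρ) s := s.2

/-- The element of `imSL ρ` attached to `g` with `det ρ g = 1`. -/
def toImSL (g : Γ) (hg : (ρ g).det = 1) : imSL ρ := ⟨⟨ρ g, hg⟩, ⟨g, rfl⟩⟩

@[simp] theorem mat_toImSL (g : Γ) (hg : (ρ g).det = 1) : mat (imSL ρ) (toImSL ρ g hg) = ρ g := rfl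


section main

variable [Finite k] (p : ℕ) [hp : Fact p.Prime] [CharP k p]
variable {ρ} {c : Γ →* kˣ} {B : Subgroup Γ}

/-- **(fin)**: in a finite field every `τ_b` has order prime to the characteristic. -/
theorem hfin_of_finite (hB : ∀ b ∈ B, ρ b 1 0 = 0) :
    ∀ b ∈ B, ∃ o : ℕ, (o : k) ≠ 0 ∧ (ρ b 0 0 / ρ b 1 1) ^ o = 1 := by
  intro b hb
  let _ : Fintype k := Fintype.ofFinite k
  obtain ⟨h0, h1⟩ := BorelCoc0.diag_ne_zero ρ (hB b hb)
  refine ⟨Fintype.card k - 1, ?_, FiniteField.pow_card_sub_one_eq_one _ (div_ne_zero h0 h1)⟩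
  rw [Nat.cast_sub Fintype.card_pos, FiniteField.cast_card_eq_zero, Nat.cast_one, zero_sub]
  exact neg_ne_zero.mpr one_ne_zero

theorem det_of_mem_unipSub {g : Γ} (hg : g ∈ unipSub ρ) : (ρ g).det = 1 := by
  rw [mem_unipSub] at hg
  rw [hg, Matrix.det_fin_two_of]; ring

/-- **Case B, on the unipotent radical**: all hypotheses of `BorelCoc0.exists_primitive_on_unip`
hold when the image contains a non-trivial translation, an element outside the Borel subgroup,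
all discriminants are squares, and (for `p = 5`) the determinant is not `±1`-valued. -/
theorem exists_primitive_on_unip (h2 : (2 : k) ≠ 0) (hp2 : p ≠ 2) (hinj : Function.Injective ρ)
    (hc : ∀ g, (c g : k) = (ρ g).det) (hB : ∀ g, g ∈ B ↔ ρ g 1 0 = 0)
    (hsq : ∀ g, IsSquare (disc2 (ρ g))) (hmove : ∃ g, (ρ g).det = 1 ∧ ρ g 1 0 ≠ 0)
    {u₀ : Γ} (hu₀ : u₀ ∈ unipSub ρ) (hx₀ : ρ u₀ 0 1 ≠ 0)
    (h5 : p = 5 → ∃ g, (ρ g).det ≠ 1 ∧ (ρ g).det ≠ -1)
    (f : Γ → slM k) (hf : Coc3.IsCoc (adSl ρ c) f) :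
    ∃ w : slM k, ∀ g ∈ B ⊓ unipSub ρ, f g = adSl ρ c g w - w := by
  have hB' : ∀ b ∈ B, ρ b 1 0 = 0 := fun b hb => (hB b).mp hb
  have hu₀mat : ρ u₀ = !![1, ρ u₀ 0 1; 0, 1] := (mem_unipSub ρ).mp hu₀
  have hu₀B : u₀ ∈ B := (hB u₀).mpr (by rw [hu₀mat]; simp)
  set S := imSL ρ with hS
  set x₀ := ρ u₀ 0 1 with hx₀def
  set u₀S : S := toImSL ρ u₀ (det_of_mem_unipSub hu₀) with hu₀S
  have hu₀Smat : mat S u₀S = !![1, x₀; 0, 1] := hu₀mat
  have hsqS : ∀ s : S, IsSquare (disc2 (mat S s)) := by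
    intro s
    obtain ⟨g, hg⟩ := s.2
    have := hsq g
    rwa [hg] at this
  have hmoveS : ∃ s : S, mat S s 1 0 ≠ 0 := by
    obtain ⟨g, hg1, hg2⟩ := hmove
    exact ⟨toImSL ρ g hg1, hg2⟩
  -- (R')
  have hR : ∀ g ∈ B ⊓ unipSub ρ, ρ g 0 1 ∈ AddSubgroup.closure
      {z : k | ∃ b ∈ B, (ρ b).det = 1 ∧ z = ρ b 0 0 / ρ b 1 1 * ρ u₀ 0 1} := by
    intro g hg
    have hgU : ρ g = !![1, ρ g 0 1; 0, 1] := (mem_unipSub ρ).mp hg.2
    have hmem : ρ g 0 1 ∈ A S := ⟨toImSL ρ g (det_of_mem_unipSub hg.2), hgU⟩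
    rw [← closure_Gset_eq_A p hx₀ hu₀Smat h2 hp2 hsqS hmoveS] at hmem
    refine AddSubgroup.closure_mono ?_ hmem
    rintro z ⟨t, ht, rfl⟩
    obtain ⟨b, hb⟩ := t.2
    have hb' : ρ b = mat S t := hb
    refine ⟨b, (hB b).mpr (by rw [hb']; exact ht), by rw [hb']; exact det_mat S t, ?_⟩
    rw [hb']
  -- (C1')
  have hC1 : (3 : k) = 0 ∨ ∃ b ∈ B, (ρ b 0 0 / ρ b 1 1) ^ 2 ≠ (ρ b).det := by
    by_cases hp3 : p = 3
    · left
      have := CharP.cast_eq_zero k p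
      rw [hp3] at this
      exact_mod_cast this
    · right
      rcases c1_dichotomy p hx₀ hu₀Smat h2 hp2 hp3 hsqS hmoveS with ⟨t, ht, hne⟩ | ⟨hp5, hA5, hb⟩
      · obtain ⟨b, hb⟩ := t.2
        have hb' : ρ b = mat S t := hb
        refine ⟨b, (hB b).mpr (by rw [hb']; exact ht), ?_⟩
        rw [hb', det_mat S t]
        exact hne
      · obtain ⟨h, hδ1, hδ2⟩ := h5 hp5
        -- the conjugate `h u₀ h⁻¹`
        have hdet : (ρ (h * u₀ * h⁻¹)).det = 1 := by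
          rw [map_mul, map_mul, Matrix.det_mul, Matrix.det_mul, det_of_mem_unipSub hu₀, mul_one,
            ← Matrix.det_mul, TWHyp3.mul_inv_eq_one, Matrix.det_one]
        have ht : mat S (toImSL ρ (h * u₀ * h⁻¹) hdet) * ρ h = ρ h * !![1, x₀; 0, 1] := by
          rw [mat_toImSL, ← map_mul, inv_mul_cancel_right, map_mul, hu₀mat]
        obtain ⟨s, hs⟩ := exists_mul_upper S hx₀ hb (TWHyp3.inv_mul_eq_one ρ h) ht
        obtain ⟨gs, hgs⟩ := s.2
        have hgs' : ρ gs = mat S s := hgs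
        have hρb : ρ (gs * h) = mat S s * ρ h := by rw [map_mul, hgs']
        have hbB : gs * h ∈ B := (hB _).mpr (by rw [hρb]; exact hs)
        have hdetb : (ρ (gs * h)).det = (ρ h).det := by
          rw [hρb, Matrix.det_mul, det_mat, one_mul]
        refine ⟨gs * h, hbB, ?_⟩
        rw [hdetb]
        obtain ⟨hd0, hd1⟩ := BorelCoc0.diag_ne_zero ρ (hB' _ hbB)
        set b := gs * h with hbdef
        -- `τ_b x₀ ∈ A`
        have hconj := AdFormulas0.upper_conj_unip ρ hd0 hd1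
          (BorelCoc0.upper_form ρ (hB' _ hbB)) hu₀mat
        have hdetc : (ρ (b * u₀ * b⁻¹)).det = 1 := by
          rw [hconj, Matrix.det_fin_two_of]; ring
        have hτA : ρ b 0 0 / ρ b 1 1 * x₀ ∈ A S := by
          refine ⟨toImSL ρ (b * u₀ * b⁻¹) hdetc, ?_⟩
          rw [mat_toImSL, hconj, div_eq_mul_inv]
        have h4 := tau_pow_four p hx₀ hu₀Smat hp5 hA5 hτA (div_ne_zero hd0 hd1)
        intro heq
        -- `δ² = 1` with `δ = τ²`
        have h4' : ((ρ b 0 0 / ρ b 1 1) ^ 2) ^ 2 = 1 := by rw [← pow_mul]; exact h4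
        rw [heq] at h4'
        have h6 : ((ρ h).det - 1) * ((ρ h).det + 1) = 0 := by linear_combination h4'
        rcases mul_eq_zero.mp h6 with h7 | h7
        · exact hδ1 (sub_eq_zero.mp h7)
        · exact hδ2 (eq_neg_of_add_eq_zero_left h7)
  exact BorelCoc0.exists_primitive_on_unip h2 hinj hB' (fun b _ => hc b) ⟨hu₀B, hu₀⟩ hx₀
    (hfin_of_finite hB') hR hC1 f hf

end main


section assembly

variable [Finite k] (p : ℕ) [hp : Fact p.Prime] [CharP k p]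

include hp in
theorem two_ne_zero_of_ne (hp2 : p ≠ 2) : (2 : k) ≠ 0 := by
  intro h
  have h' : ((2 : ℕ) : k) = 0 := by exact_mod_cast h
  rw [CharP.cast_eq_zero_iff k p] at h'
  have := (Nat.prime_dvd_prime_iff_eq hp.out Nat.prime_two).mp h'
  exact hp2 this

/-- **Case B** for a faithful representation of a finite group: irreducible, all discriminants
squares, an element of order `p` in the image, and for `p = 5` the determinant is not `±1`-valued.
Then `H¹(Γ, ad⁰ρ ⊗ c) = 0` (with `c = det ρ`). -/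
theorem isCob_of_injective [Finite Γ] (hp2 : p ≠ 2) (ρ : Γ →* M2 k) (c : Γ →* kˣ)
    (hinj : Function.Injective ρ) (hc : ∀ g, (c g : k) = (ρ g).det)
    (hirr : ∀ v : Fin 2 → k, v ≠ 0 → ¬ ∀ g : Γ, ∃ a : k, ρ g *ᵥ v = a • v)
    (hsq : ∀ g, IsSquare (disc2 (ρ g)))
    (hord : ∃ g, ρ g ^ p = 1 ∧ ρ g ≠ 1)
    (h5 : p = 5 → ∃ g, (ρ g).det ≠ 1 ∧ (ρ g).det ≠ -1)
    (f : Γ → slM k) (hf : Coc3.IsCoc (adSl ρ c) f) : Coc3.IsCob (adSl ρ c) f := by
  have h2 : (2 : k) ≠ 0 := two_ne_zero_of_ne p hp2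
  obtain ⟨Q, ρ', hρ', u₀, hu₀, hx₀, hidx⟩ := SylowUnip0.exists_conj_sylow_unip p ρ hinj hord
  have hQ1 : (Q : M2 k) * ((Q⁻¹ : (M2 k)ˣ) : M2 k) = 1 := Units.mul_inv Q
  have hQ2 : ((Q⁻¹ : (M2 k)ˣ) : M2 k) * (Q : M2 k) = 1 := Units.inv_mul Q
  refine SL2Wrap0.isCob_of_conj Q ρ ρ' c hρ' ?_ f hf ?_
  · intro f' hf' _
    have hdet' : ∀ g, (ρ' g).det = (ρ g).det := by
      intro g
      have h1 : (Q : M2 k).det * ((Q⁻¹ : (M2 k)ˣ) : M2 k).det = 1 := by
        rw [← Matrix.det_mul, hQ1, Matrix.det_one]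
      rw [hρ' g, Matrix.det_mul, Matrix.det_mul]
      linear_combination (ρ g).det * h1
    have hback : ∀ g, ρ g = ((Q⁻¹ : (M2 k)ˣ) : M2 k) * ρ' g * (Q : M2 k) := by
      intro g
      rw [hρ' g]
      simp only [Matrix.mul_assoc]
      rw [hQ2, Matrix.mul_one, ← Matrix.mul_assoc, hQ2, Matrix.one_mul]
    have hinj' : Function.Injective ρ' := by
      intro g h hgh
      apply hinj
      rw [hback g, hback h, hgh]
    have hsq' : ∀ g, IsSquare (disc2 (ρ' g)) := by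
      intro g
      rw [hρ' g, disc2_conj _ _ _ hQ1]
      exact hsq g
    have hirr' : ∀ v : Fin 2 → k, v ≠ 0 → ¬ ∀ g : Γ, ∃ a : k, ρ' g *ᵥ v = a • v := by
      intro v hv hall
      apply hirr (((Q⁻¹ : (M2 k)ˣ) : M2 k) *ᵥ v)
      · intro h0
        apply hv
        have : (Q : M2 k) *ᵥ (((Q⁻¹ : (M2 k)ˣ) : M2 k) *ᵥ v) = v := by
          rw [Matrix.mulVec_mulVec, hQ1, Matrix.one_mulVec]
        rw [← this, h0, Matrix.mulVec_zero]
      · intro g
        obtain ⟨a, ha⟩ := hall g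
        refine ⟨a, ?_⟩
        rw [hback g, Matrix.mulVec_mulVec]
        simp only [Matrix.mul_assoc]
        rw [hQ1, Matrix.mul_one, ← Matrix.mulVec_mulVec, ha, Matrix.mulVec_smul]
    have hmove := IrredOrbit0.exists_det_one_not_upper hirr' hu₀ hx₀
    have h5' : p = 5 → ∃ g, (ρ' g).det ≠ 1 ∧ (ρ' g).det ≠ -1 := by
      intro hp5
      obtain ⟨g, hg1, hg2⟩ := h5 hp5
      exact ⟨g, by rw [hdet']; exact hg1, by rw [hdet']; exact hg2⟩
    have hw := exists_primitive_on_unip p h2 hp2 hinj' (c := c) (B := SylowUnip0.borelSub ρ')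
      (fun g => by rw [hc, hdet']) (fun g => SylowUnip0.mem_borelSub) hsq' hmove hu₀ hx₀ h5' f' hf'
    exact Coc3.isCob_of_restrict (SylowUnip0.borelSub ρ' ⊓ unipSub ρ')
      (hidx _ (fun g => SylowUnip0.mem_borelSub)) hf' hw
  · intro g hg
    have : g = 1 := hinj (by rw [hg, map_one])
    rw [this]
    exact hf.map_one

end assembly


section final

variable [Finite k] (p : ℕ) [hp : Fact p.Prime] [CharP k p]
variable {G : Type*} [Group G]

/-- **Phase 2, final form**: `MatrixH1Vanishing ρ (det ρ)` for an irreducible `ρ : G →* M2 k`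
(`k` finite of odd characteristic `p`) all of whose discriminants are squares, provided (when
`p = 5`) the determinant takes a value `≠ ±1`. -/
theorem matrixH1Vanishing (hp2 : p ≠ 2) (ρ : G →* M2 k)
    (hirr : ∀ v : Fin 2 → k, v ≠ 0 → ¬ ∀ g : G, ∃ a : k, ρ g *ᵥ v = a • v)
    (hsq : ∀ g, IsSquare (disc2 (ρ g)))
    (h5 : p = 5 → ∃ g, (ρ g).det ≠ 1 ∧ (ρ g).det ≠ -1) :
    VanReduce3.MatrixH1Vanishing ρ (Bridge3.detU ρ) := by
  intro f hf hker
  have hcρ : ∀ g, ρ g = 1 → Bridge3.detU ρ g = 1 := by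
    intro g hg
    rw [Bridge3.detU_eq_one_iff, hg, Matrix.det_one]
  by_cases hno : ∀ g : G, ρ g ^ p = 1 → ρ g = 1
  · exact CaseAB0.isCob_of_no_order_p p ρ (Bridge3.detU ρ) hcρ hno f hf hker
  · push Not at hno
    obtain ⟨g₀, hg₀, hg₀'⟩ := hno
    refine CaseAB0.isCob_of_quotient ρ (Bridge3.detU ρ) hcρ ?_ f hf hker
    intro fb hfb
    have := CaseAB0.finite_Gb ρ
    refine isCob_of_injective p hp2 (CaseAB0.ρb ρ) (CaseAB0.cb ρ (Bridge3.detU ρ) hcρ)
      (CaseAB0.ρb_injective ρ) ?_ ?_ ?_ ?_ ?_ fb hfb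
    · intro x
      obtain ⟨g, rfl⟩ := QuotientGroup.mk_surjective x
      rw [CaseAB0.cb_mk, CaseAB0.ρb_mk, Bridge3.coe_detU]
    · intro v hv hall
      apply hirr v hv
      intro g
      have := hall (QuotientGroup.mk g)
      rwa [CaseAB0.ρb_mk] at this
    · intro x
      obtain ⟨g, rfl⟩ := QuotientGroup.mk_surjective x
      rw [CaseAB0.ρb_mk]
      exact hsq g
    · exact ⟨QuotientGroup.mk g₀, by rw [CaseAB0.ρb_mk]; exact hg₀, by rw [CaseAB0.ρb_mk]; exact hg₀'⟩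
    · intro hp5
      obtain ⟨g, hg1, hg2⟩ := h5 hp5
      exact ⟨QuotientGroup.mk g, by rw [CaseAB0.ρb_mk]; exact hg1, by rw [CaseAB0.ρb_mk]; exact hg2⟩

end final

end Fermat.Agent.TW.GRP.CaseB3
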