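/-
Programme T (S56, Taylor–Wiles primes), chapter T/GRP, file G16 (helper3): **the chapter's final
theorem, hypothesis-free**.  Combines Phase 1 (`Main3.exists_tw_primes_charpoly`) with Phase 2
(`CaseB3.matrixH1Vanishing`).

* `exists_det_ne` : for `p ≠ 2, 3` the determinant of `ρ̄` takes the value `2 ∉ {±1}` (Frobenius
  element at `2`);
* `matrixH1Vanishing_rhoM` : `H¹(ρ̄(G_ℚ), ad⁰ρ̄(1)) = 0` in raw matrix form, from the verbatim S56
  hypotheses `hp2`, `habs`, `hdet`, `hsplit`, `hTW` (and `[Finite k]`);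
* `exists_tw_primes` : existence of Taylor–Wiles primes for a finite-dimensional space `D` of raw
  cocycles of `ad⁰ρ̄(1)` (finite level, unramified outside `S`, containing no non-zero coboundary),
  with no hypothesis beyond those of S56.
-/
import Mathlib
import Fermat.Agent.TW.GRP.Main3
import Fermat.Agent.TW.GRP.CaseB3

set_option autoImplicit false

namespace Fermat.Agent.TW.GRP.Final3

open Matrix Module Polynomial Fermat.Agent.TW.GRP.Mat2x3 Fermat.Agent.TW.GRP.TWHyp3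
  Fermat.Agent.TW.GRP.Irred3
  Fermat.Agent.TW.GRP.AdZero3 Fermat.Agent.TW.GRP.Coc3 Fermat.Agent.TW.GRP.VanReduce3
  Fermat.Agent.TW.GRP.Bridge3 Fermat.Agent.TW.GRP.CycSub3 Fermat.Agent.TW.GRP.Main3
open Fermat.Agent.ES.J.CycloChar8

local notation "Qb" => AlgebraicClosure ℚ
local notation "GQ" => (AlgebraicClosure ℚ ≃ₐ[ℚ] AlgebraicClosure ℚ)

variable (p : ℕ) [hp : Fact p.Prime] {k : Type} [Field k] (ρbar : ResidualGaloisRep k)

/-- For `p ≠ 2, 3` the determinant of `ρbar` (the cyclotomic character mod `p`) takes the value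
`2 ≠ ±1` (at a Frobenius element at `2`). -/
theorem exists_det_ne (hp2 : p ≠ 2) (hp3 : p ≠ 3)
    (hdet : (GaloisRepAdic.ofResidualGaloisRep ρbar).DetIsCyclotomic p) :
    ∃ σ : GQ, (rhoM ρbar σ).det ≠ 1 ∧ (rhoM ρbar σ).det ≠ -1 := by
  obtain ⟨V, hV⟩ := Fermat.Agent.Lib.FrobeniusExists.exists_valuationSubring_liesOverPrime 2
    Nat.prime_two
  obtain ⟨σ, hσ⟩ := Fermat.Agent.ES.FROB.FrobFacts12.exists_isFrobeniusAt_of 2 Nat.prime_two V hV
  have hc := cyclo_of_isFrobeniusAt p Nat.prime_two (Ne.symm hp2) V hV hσ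
  have hp0 := natCast_eq_zero p ρbar hdet
  have hchar : CharP k p := (CharP.charP_iff_prime_eq_zero hp.out).mpr hp0
  have hd : (rhoM ρbar σ).det = 2 := by
    rw [det_rhoM, det_eq_cyclo p ρbar hdet, hc, map_natCast, ZMod.val_natCast, pow_one]
    have hp3' : 2 < p := by
      have := hp.out.two_le
      omega
    rw [Nat.mod_eq_of_lt hp3']
    norm_num
  refine ⟨σ, ?_, ?_⟩
  · rw [hd]
    intro h
    have : (1 : k) = 0 := by linear_combination h
    exact one_ne_zero this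
  · rw [hd]
    intro h
    have h3 : ((3 : ℕ) : k) = 0 := by
      push_cast
      linear_combination h
    rw [CharP.cast_eq_zero_iff k p] at h3
    exact hp3 ((Nat.prime_dvd_prime_iff_eq hp.out Nat.prime_three).mp h3)


/-- **`H¹(ρ̄(G_ℚ), ad⁰ρ̄(1)) = 0`** from the hypotheses of S56. -/
theorem matrixH1Vanishing_rhoM [Finite k] (hp2 : p ≠ 2) (habs : ρbar.IsAbsolutelyIrreducible)
    (hdet : (GaloisRepAdic.ofResidualGaloisRep ρbar).DetIsCyclotomic p)
    (hsplit : ∀ σ : GQ, ∃ α β : k, LinearMap.charpoly (ρbar.ρ σ) = (X - C α) * (X - C β))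
    (hTW : ∀ (K : Type) [Field K] [Algebra k K] (G : Subgroup GQ), G.index = 2 →
      ∀ V : Submodule K (ρbar.baseChange K).V,
        (∀ σ ∈ G, ∀ x ∈ V, (ρbar.baseChange K).ρ σ x ∈ V) → V = ⊥ ∨ V = ⊤) :
    MatrixH1Vanishing (rhoM ρbar) (detU (rhoM ρbar)) := by
  have hp0 := natCast_eq_zero p ρbar hdet
  have hchar : CharP k p := (CharP.charP_iff_prime_eq_zero hp.out).mpr hp0
  apply CaseB3.matrixH1Vanishing p hp2 (rhoM ρbar) (twHyp ρbar habs hTW).irr
  · intro σ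
    obtain ⟨α, β, h⟩ := hsplit σ
    rw [disc2_rhoM ρbar h]
    exact ⟨α - β, pow_two _⟩
  · intro hp5
    exact exists_det_ne p ρbar hp2 (by omega) hdet

/-- **Existence of Taylor–Wiles primes**, from the hypotheses of S56 only (plus the raw cocycle
space `D`). -/
theorem exists_tw_primes [Finite k] (hp2 : p ≠ 2) (habs : ρbar.IsAbsolutelyIrreducible)
    (hdet : (GaloisRepAdic.ofResidualGaloisRep ρbar).DetIsCyclotomic p)
    (hsplit : ∀ σ : GQ, ∃ α β : k, LinearMap.charpoly (ρbar.ρ σ) = (X - C α) * (X - C β))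
    (hTW : ∀ (K : Type) [Field K] [Algebra k K] (G : Subgroup GQ), G.index = 2 →
      ∀ V : Submodule K (ρbar.baseChange K).V,
        (∀ σ ∈ G, ∀ x ∈ V, (ρbar.baseChange K).ρ σ x ∈ V) → V = ⊥ ∨ V = ⊤)
    (S : Finset ℕ) (hpS : p ∈ S)
    (hρS : ∀ q : ℕ, q.Prime → q ∉ S → ρbar.IsUnramifiedAt q)
    (D : Submodule k (GQ → slM k)) [FiniteDimensional k D]
    (hcoc : ∀ f ∈ D, IsCoc (adOne ρbar) f)
    (hlev : ∀ f ∈ D, ∃ L : IntermediateField ℚ Qb, FiniteDimensional ℚ L ∧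
      ∀ σ : GQ, (∀ x ∈ L, σ x = x) → f σ = 0)
    (hur : ∀ f ∈ D, ∀ q : ℕ, q.Prime → q ∉ S → ∀ P : ValuationSubring Qb, P.LiesOverPrime q →
      ∀ ι ∈ P.inertiaSubgroupIn ℚ, f ι = 0)
    (hncob : ∀ f ∈ D, IsCob (adOne ρbar) f → f = 0) (n : ℕ) :
    ∃ qv : Fin (finrank k D) → ℕ, Function.Injective qv ∧
      (∀ i, (qv i).Prime ∧ qv i ∉ S ∧ p ^ (n + 1) ∣ qv i - 1) ∧
      (∀ i, ∀ P : ValuationSubring Qb, P.LiesOverPrime (qv i) → ∀ φ : GQ,
        P.IsFrobeniusAt φ (qv i) →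
          ∃ α β : k, α ≠ β ∧ LinearMap.charpoly (ρbar.ρ φ) = (X - C α) * (X - C β)) ∧
      (∀ i, ∀ P : ValuationSubring Qb, P.LiesOverPrime (qv i) → ∀ φ : GQ,
        P.IsFrobeniusAt φ (qv i) → detU (rhoM ρbar) φ = 1) ∧
      ∀ (P : Fin (finrank k D) → ValuationSubring Qb) (φ : Fin (finrank k D) → GQ),
        (∀ i, (P i).LiesOverPrime (qv i)) → (∀ i, (P i).IsFrobeniusAt (φ i) (qv i)) →
        ∀ f ∈ D, (∀ i, f (φ i) ∈ LinearMap.range (adOne ρbar (φ i) - 1)) → f = 0 :=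
  exists_tw_primes_charpoly p ρbar hp2 habs hdet hsplit hTW
    (matrixH1Vanishing_rhoM p ρbar hp2 habs hdet hsplit hTW) S hpS hρS D hcoc hlev hur hncob n

end Fermat.Agent.TW.GRP.Final3
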