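/-
Programme T (S56), chapter T/GRP, Phase 2 (lead), plan T/plan/DICKSON item (d):
**the Diophantine lemma behind the counting proof of Dickson's theorem.**

`q` = order of a Sylow `p`-subgroup, `n = 1 + q m` = number of Sylow subgroups, `e` = order of the torus
modulo the centre, `τ` = order (modulo the centre) of the stabiliser of a point in the second
non-regular orbit.  From `τ (1 + q m - 2 m) = n e`, `τ ∣ n`, `e ∣ q - 1` we get `m = 1` and
`e = q - 1` or `2 e = q - 1`.
-/
import Mathlib

set_option autoImplicit false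

namespace Fermat.Agent.TW.GRP.Dioph0

theorem dioph_int (q m e τ n A : ℤ) (hq : 4 ≤ q) (hm : 1 ≤ m) (he : 2 ≤ e) (hτ : 2 ≤ τ)
    (hn : n = 1 + q * m) (hA : A + 2 * m = 1 + q * m) (h1 : τ * A = n * e) (h2 : τ ∣ n)
    (h3 : e ∣ q - 1) : m = 1 ∧ (e = q - 1 ∨ 2 * e = q - 1) := by
  obtain ⟨a, ha⟩ := h2
  obtain ⟨i, hi⟩ := h3
  have hτ0 : τ ≠ 0 := by omega
  -- `A = a e`
  have hAa : A = a * e := by
    have : τ * A = τ * (a * e) := by rw [h1, ha]; ring
    exact mul_left_cancel₀ hτ0 this
  have hi1 : 1 ≤ i := by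
    by_contra h
    have hi0 : i ≤ 0 := by omega
    have : e * i ≤ 0 := mul_nonpos_of_nonneg_of_nonpos (by omega) hi0
    omega
  have hqi : q = 1 + e * i := by omega
  -- `j = i m - a`, `m = 1 + e j`
  set j : ℤ := i * m - a with hj
  have hmj : m = 1 + e * j := by
    have h : a * e + 2 * m = 1 + (1 + e * i) * m := by rw [← hAa, ← hqi]; exact hA
    rw [hj]
    linear_combination h
  have hj0 : 0 ≤ j := by
    by_contra h
    have hj1 : j ≤ -1 := by omega
    have : e * j ≤ e * (-1) := mul_le_mul_of_nonneg_left hj1 (by omega)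
    omega
  have haij : a = i - j + e * i * j := by
    have : a = i * m - j := by rw [hj]; ring
    rw [this, hmj]; ring
  have hn_pos : 0 < n := by rw [hn]; positivity
  have ha_pos : 0 < a := by
    by_contra h
    have ha0 : a ≤ 0 := by omega
    have : τ * a ≤ 0 := mul_nonpos_of_nonneg_of_nonpos (by omega) ha0
    omega
  -- `a ∣ 2 m`
  have ha2m : a ∣ 2 * m := by
    have hnA : n = a * e + 2 * m := by rw [← hAa]; omega
    have h1' : a ∣ n := ⟨τ, by rw [ha]; ring⟩
    have h2' : a ∣ a * e := ⟨e, rfl⟩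
    have := (Int.dvd_add_right h2').mp (hnA ▸ h1')
    exact this
  have hm_pos : 0 < 2 * m := by omega
  have ha_le : a ≤ 2 * m := Int.le_of_dvd hm_pos ha2m
  -- `j = 0`
  have hj_zero : j = 0 := by
    by_contra hjne
    have hj1 : 1 ≤ j := by omega
    have hi_le : i ≤ 2 := by
      by_contra h
      have hi3 : 3 ≤ i := by omega
      -- a = i - j + e i j ≥ 3 - j + 3 e j > 2 + 2 e j = 2 m
      have h4 : e * i * j ≥ e * 3 * j := by
        have : e * i ≥ e * 3 := mul_le_mul_of_nonneg_left hi3 (by omega)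
        exact mul_le_mul_of_nonneg_right this hj0
      have h5 : e * j ≥ 2 * j := mul_le_mul_of_nonneg_right he hj0
      rw [haij, hmj] at ha_le
      nlinarith
    rcases (by omega : i = 1 ∨ i = 2) with rfl | rfl
    · -- i = 1
      have ha1 : a = 1 + j * (e - 1) := by rw [haij]; ring
      have h2j : a ∣ 2 * j := by
        have h6 : 2 * m - 2 * a = 2 * j := by rw [ha1, hmj]; ring
        have h7 : a ∣ 2 * a := ⟨2, by ring⟩
        have := Int.dvd_sub ha2m h7
        rwa [h6] at this
      have h8 : a ≤ 2 * j := Int.le_of_dvd (by omega) h2j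
      have he3 : 3 ≤ e := by
        by_contra h
        have : e = 2 := by omega
        omega
      have h9 : j * (e - 1) ≥ j * 2 := mul_le_mul_of_nonneg_left (by omega) hj0
      omega
    · -- i = 2
      have ha1 : a = 2 + j * (2 * e - 1) := by rw [haij]; ring
      have hjd : a ∣ j := by
        have h6 : 2 * m - a = j := by rw [ha1, hmj]; ring
        have := Int.dvd_sub ha2m (dvd_refl a)
        rwa [h6] at this
      have h8 : a ≤ j := Int.le_of_dvd (by omega) hjd
      have h9 : j * (2 * e - 1) ≥ j * 3 := mul_le_mul_of_nonneg_left (by omega) hj0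
      omega
  have hm1 : m = 1 := by rw [hmj, hj_zero]; ring
  refine ⟨hm1, ?_⟩
  have hai : a = i := by rw [haij, hj_zero]; ring
  rw [hm1, hai] at ha2m
  have hi2 : i ≤ 2 := Int.le_of_dvd (by norm_num) ha2m
  rcases (by omega : i = 1 ∨ i = 2) with rfl | rfl
  · left; omega
  · right; omega

/-- Natural-number form. -/
theorem dioph (q m e τ n A : ℕ) (hq : 4 ≤ q) (hm : 1 ≤ m) (he : 2 ≤ e) (hτ : 2 ≤ τ)
    (hn : n = 1 + q * m) (hA : A + 2 * m = 1 + q * m) (h1 : τ * A = n * e) (h2 : τ ∣ n)
    (h3 : e ∣ q - 1) : m = 1 ∧ (e = q - 1 ∨ 2 * e = q - 1) := by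
  have h3' : (e : ℤ) ∣ (q : ℤ) - 1 := by
    have : ((q - 1 : ℕ) : ℤ) = (q : ℤ) - 1 := by
      rw [Nat.cast_sub (by omega)]; norm_num
    rw [← this]
    exact_mod_cast h3
  have := dioph_int q m e τ n A (by exact_mod_cast hq) (by exact_mod_cast hm)
    (by exact_mod_cast he) (by exact_mod_cast hτ) (by exact_mod_cast hn) (by exact_mod_cast hA)
    (by exact_mod_cast h1) (by exact_mod_cast h2) h3'
  obtain ⟨hm1, h⟩ := this
  refine ⟨by exact_mod_cast hm1, ?_⟩
  rcases h with h | h
  · left; omega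
  · right; omega

end Fermat.Agent.TW.GRP.Dioph0
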