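/-
Programme T (S56), chapter T/GRP, Phase 2 brick (lead), item G12 in matrix form:
**the quaternion subgroup of `GL₂(𝔽₃)` kills `H¹(-, sl₂ ⊗ χ)`**.

`M3 = Matrix (Fin 2) (Fin 2) (ZMod 3)`.  `InQ x` says that `x` lies in the quaternion group
`Q₈ = {±1} ∪ {x | det x = 1, tr x = 0} ⊆ SL₂(𝔽₃)`; `Q8 : Subgroup M3ˣ` is normal.
`W3` is the space of trace-zero matrices, `twRep r χ` the conjugation action of a group `G` through
`r : G →* M3ˣ`, twisted by a character `χ : G →* (ZMod 3)ˣ`.

Main result `isCob_of_Q8_le_range`: if the image of `r` contains `Q₈`, `χ` is trivial on the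
preimage of `Q₈`, then every cocycle of `twRep r χ` vanishing on `ker r` is a coboundary.
(Inflation to the finite group `G ⧸ ker r`, then `NormalKill0.isCob_of_normal` with `N = Q₈`:
`#N` is prime to `3` because `x⁴ = 1` on `N`, and no nonzero trace-zero matrix commutes with
both `i = !![0,-1;1,0]` and `j = !![1,1;1,-1]`.)
-/
import Mathlib
import Fermat.Agent.TW.GRP.NormalKill0

set_option autoImplicit false

namespace Fermat.Agent.TW.GRP.QuaternionKill0

open Matrix
open Fermat.Agent.TW.GRP.NormalKill0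

/-- `2 × 2` matrices over `𝔽₃`. -/
abbrev M3 := Matrix (Fin 2) (Fin 2) (ZMod 3)

/-- Membership in the quaternion group `Q₈ ⊆ SL₂(𝔽₃)`. -/
def InQ (x : M3) : Prop := x.det = 1 ∧ (x.trace = 0 ∨ x = 1 ∨ x = -1)

theorem entries_mul : ∀ a b c e f g : ZMod 3, -(a*a) - b*c = 1 → -(e*e) - f*g = 1 →
    ((a*e + b*g) + (c*f + a*e) = 0 ∨
     (a*e + b*g = 1 ∧ a*f - b*e = 0 ∧ c*e - a*g = 0 ∧ c*f + a*e = 1) ∨
     (a*e + b*g = -1 ∧ a*f - b*e = 0 ∧ c*e - a*g = 0 ∧ c*f + a*e = -1)) := by
  decide

theorem form_of_trace_zero {x : M3} (h : x.trace = 0) :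
    x = !![x 0 0, x 0 1; x 1 0, -(x 0 0)] := by
  have h2 : x 1 1 = -(x 0 0) := by
    rw [Matrix.trace_fin_two] at h
    exact eq_neg_of_add_eq_zero_right h
  conv_lhs => rw [Matrix.eta_fin_two x]
  rw [h2]

theorem inQ_mul_tt {x y : M3} (hx : x.det = 1) (hxt : x.trace = 0) (hy : y.det = 1)
    (hyt : y.trace = 0) : InQ (x * y) := by
  refine ⟨by rw [Matrix.det_mul, hx, hy, one_mul], ?_⟩
  rw [form_of_trace_zero hxt] at hx ⊢
  rw [form_of_trace_zero hyt] at hy ⊢
  set a := x 0 0; set b := x 0 1; set c := x 1 0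
  set e := y 0 0; set f := y 0 1; set g := y 1 0
  rw [Matrix.det_fin_two_of] at hx hy
  have hx' : -(a*a) - b*c = 1 := by linear_combination hx
  have hy' : -(e*e) - f*g = 1 := by linear_combination hy
  rw [Matrix.mul_fin_two, Matrix.trace_fin_two_of]
  rcases entries_mul a b c e f g hx' hy' with h | ⟨h1, h2, h3, h4⟩ | ⟨h1, h2, h3, h4⟩
  · left; linear_combination h
  · right; left
    have e12 : a * f + b * -e = 0 := by linear_combination h2
    have e21 : c * e + -a * g = 0 := by linear_combination h3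
    have e22 : c * f + -a * -e = 1 := by linear_combination h4
    rw [h1, e12, e21, e22, Matrix.one_fin_two]
  · right; right
    have e12 : a * f + b * -e = 0 := by linear_combination h2
    have e21 : c * e + -a * g = 0 := by linear_combination h3
    have e22 : c * f + -a * -e = -1 := by linear_combination h4
    rw [h1, e12, e21, e22, Matrix.one_fin_two]
    simp

theorem inQ_neg {y : M3} (hy : InQ y) : InQ (-y) := by
  obtain ⟨hd, ht⟩ := hy
  refine ⟨?_, ?_⟩
  · rw [Matrix.det_neg, hd]; simp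
  · rcases ht with h | h | h
    · left; rw [Matrix.trace_neg, h, neg_zero]
    · right; right; rw [h]
    · right; left; rw [h, neg_neg]

theorem inQ_one : InQ (1 : M3) := ⟨Matrix.det_one, Or.inr (Or.inl rfl)⟩

theorem inQ_mul {x y : M3} (hx : InQ x) (hy : InQ y) : InQ (x * y) := by
  obtain ⟨hxd, hxt⟩ := hx
  rcases hxt with hxt | rfl | rfl
  · obtain ⟨hyd, hyt⟩ := hy
    rcases hyt with hyt | rfl | rfl
    · exact inQ_mul_tt hxd hxt hyd hyt
    · rw [mul_one]; exact ⟨hxd, Or.inl hxt⟩
    · rw [mul_neg, mul_one]; exact inQ_neg ⟨hxd, Or.inl hxt⟩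
  · rw [one_mul]; exact hy
  · rw [neg_mul, one_mul]; exact inQ_neg hy

theorem entries_sq : ∀ a b c : ZMod 3, -(a*a) - b*c = 1 →
    (a*a + b*c = -1 ∧ a*b + b*(-a) = 0 ∧ c*a + (-a)*c = 0 ∧ c*b + (-a)*(-a) = -1) := by
  decide

theorem sq_of_trace_zero {x : M3} (hx : x.det = 1) (hxt : x.trace = 0) : x * x = -1 := by
  rw [form_of_trace_zero hxt] at hx ⊢
  set a := x 0 0; set b := x 0 1; set c := x 1 0
  rw [Matrix.det_fin_two_of] at hx
  have hx' : -(a*a) - b*c = 1 := by linear_combination hx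
  obtain ⟨h1, h2, h3, h4⟩ := entries_sq a b c hx'
  rw [Matrix.mul_fin_two]
  have e12 : a * b + b * -a = 0 := by linear_combination h2
  have e21 : c * a + -a * c = 0 := by linear_combination h3
  have e22 : c * b + -a * -a = -1 := by linear_combination h4
  rw [h1, e12, e21, e22, Matrix.one_fin_two]
  simp

theorem inQ_pow_four {x : M3} (hx : InQ x) : x ^ 4 = 1 := by
  obtain ⟨hxd, hxt⟩ := hx
  rcases hxt with hxt | rfl | rfl
  · have h := sq_of_trace_zero hxd hxt
    calc x ^ 4 = (x * x) * (x * x) := by noncomm_ring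
      _ = 1 := by rw [h]; simp
  · simp
  · simp [Even.neg_pow (by decide : Even 4)]

theorem inQ_conj (u : M3ˣ) {x : M3} (hx : InQ x) : InQ ((u : M3) * x * ((u⁻¹ : M3ˣ) : M3)) := by
  obtain ⟨hxd, hxt⟩ := hx
  refine ⟨by rw [Matrix.det_units_conj, hxd], ?_⟩
  rcases hxt with hxt | rfl | rfl
  · left; rw [Matrix.trace_units_conj, hxt]
  · right; left; rw [mul_one, Units.mul_inv]
  · right; right; rw [mul_neg, mul_one, neg_mul, Units.mul_inv]

/-- The quaternion group as a subgroup of `GL₂(𝔽₃)`. -/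
def Q8 : Subgroup M3ˣ where
  carrier := {u | InQ (u : M3)}
  mul_mem' := by
    intro a b ha hb
    show InQ ((a * b : M3ˣ) : M3)
    rw [Units.val_mul]
    exact inQ_mul ha hb
  one_mem' := by
    show InQ ((1 : M3ˣ) : M3)
    rw [Units.val_one]
    exact inQ_one
  inv_mem' := by
    intro a ha
    show InQ ((a⁻¹ : M3ˣ) : M3)
    have h4 : a ^ 4 = 1 := by
      apply Units.ext
      rw [Units.val_pow_eq_pow_val, Units.val_one]
      exact inQ_pow_four ha
    have : a⁻¹ = a * a * a := by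
      rw [inv_eq_iff_mul_eq_one]
      have h : a ^ 4 = a * (a * a * a) := by
        simp only [pow_succ, pow_zero, one_mul, mul_assoc]
      rw [← h, h4]
    rw [this, Units.val_mul, Units.val_mul]
    exact inQ_mul (inQ_mul ha ha) ha

theorem mem_Q8 {u : M3ˣ} : u ∈ Q8 ↔ InQ (u : M3) := Iff.rfl

instance Q8_normal : Q8.Normal := ⟨fun n hn g => by
  rw [mem_Q8, Units.val_mul, Units.val_mul]
  exact inQ_conj g hn⟩

theorem pow_four_of_mem_Q8 {u : M3ˣ} (hu : u ∈ Q8) : u ^ 4 = 1 := by
  apply Units.ext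
  rw [Units.val_pow_eq_pow_val, Units.val_one]
  exact inQ_pow_four hu

/-- The two generators. -/
def qi : M3 := !![0, -1; 1, 0]
def qj : M3 := !![1, 1; 1, -1]

theorem qi_det : qi.det = 1 := by rw [qi, Matrix.det_fin_two_of]; decide

theorem qi_trace : qi.trace = 0 := by rw [qi, Matrix.trace_fin_two_of]; decide

theorem qj_det : qj.det = 1 := by rw [qj, Matrix.det_fin_two_of]; decide

theorem qj_trace : qj.trace = 0 := by rw [qj, Matrix.trace_fin_two_of]; decide

theorem inQ_qi : InQ qi := ⟨qi_det, Or.inl qi_trace⟩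

theorem inQ_qj : InQ qj := ⟨qj_det, Or.inl qj_trace⟩

theorem entries_comm : ∀ p q r : ZMod 3,
    (0 * p + -1 * r = p * 0 + q * 1 ∧ 0 * q + -1 * -p = p * -1 + q * 0 ∧
      1 * p + 0 * r = r * 0 + -p * 1 ∧ 1 * q + 0 * -p = r * -1 + -p * 0) →
    (1 * p + 1 * r = p * 1 + q * 1 ∧ 1 * q + 1 * -p = p * 1 + q * -1 ∧
      1 * p + -1 * r = r * 1 + -p * 1 ∧ 1 * q + -1 * -p = r * 1 + -p * -1) →
    p = 0 ∧ q = 0 ∧ r = 0 := by
  decide

/-- No nonzero trace-zero matrix commutes with both generators of `Q₈`. -/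
theorem eq_zero_of_commute {w : M3} (hw : w.trace = 0) (hi : qi * w = w * qi)
    (hj : qj * w = w * qj) : w = 0 := by
  rw [form_of_trace_zero hw] at hi hj ⊢
  set p := w 0 0; set q := w 0 1; set r := w 1 0
  rw [qi, Matrix.mul_fin_two, Matrix.mul_fin_two] at hi
  rw [qj, Matrix.mul_fin_two, Matrix.mul_fin_two] at hj
  have hi' := fun a b => congrFun (congrFun hi a) b
  have hj' := fun a b => congrFun (congrFun hj a) b
  have i00 := hi' 0 0; have i01 := hi' 0 1; have i10 := hi' 1 0; have i11 := hi' 1 1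
  have j00 := hj' 0 0; have j01 := hj' 0 1; have j10 := hj' 1 0; have j11 := hj' 1 1
  simp only [Matrix.of_apply, Matrix.cons_val_zero, Matrix.cons_val_one, Matrix.cons_val',
    Matrix.cons_val_fin_one] at i00 i01 i10 i11 j00 j01 j10 j11
  obtain ⟨hp, hq, hr⟩ := entries_comm p q r ⟨i00, i01, i10, i11⟩ ⟨j00, j01, j10, j11⟩
  rw [hp, hq, hr]
  ext a b
  fin_cases a <;> fin_cases b <;> simp


/-! ### The twisted adjoint representation on trace-zero matrices -/

/-- Trace-zero matrices. -/
abbrev W3 : Submodule (ZMod 3) M3 := LinearMap.ker (Matrix.traceLinearMap (Fin 2) (ZMod 3) (ZMod 3))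

theorem mem_W3 {A : M3} : A ∈ W3 ↔ A.trace = 0 := by
  rw [LinearMap.mem_ker, Matrix.traceLinearMap_apply]

/-- Conjugation by a unit, as a linear endomorphism of the trace-zero matrices. -/
def conjW (u : M3ˣ) : W3 →ₗ[ZMod 3] W3 where
  toFun A := ⟨(u : M3) * A.1 * ((u⁻¹ : M3ˣ) : M3), by
    rw [mem_W3, Matrix.trace_units_conj]; exact mem_W3.mp A.2⟩
  map_add' A B := by
    apply Subtype.ext
    simp only [Submodule.coe_add, mul_add, add_mul]
  map_smul' c A := by
    apply Subtype.ext
    simp only [Submodule.coe_smul, RingHom.id_apply, Matrix.mul_smul, Matrix.smul_mul]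

@[simp] theorem conjW_coe (u : M3ˣ) (A : W3) :
    ((conjW u A : W3) : M3) = (u : M3) * A.1 * ((u⁻¹ : M3ˣ) : M3) := rfl

theorem conjW_one : conjW 1 = LinearMap.id := by
  apply LinearMap.ext; intro A; apply Subtype.ext
  simp

theorem conjW_mul (u v : M3ˣ) : conjW (u * v) = conjW u ∘ₗ conjW v := by
  apply LinearMap.ext; intro A; apply Subtype.ext
  simp only [conjW_coe, LinearMap.comp_apply, Units.val_mul, _root_.mul_inv_rev, mul_assoc]

/-- The adjoint action through `r`, twisted by `χ`. -/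
def twRep {G : Type*} [Group G] (r : G →* M3ˣ) (χ : G →* (ZMod 3)ˣ) :
    Representation (ZMod 3) G W3 where
  toFun g := ((χ g : (ZMod 3)ˣ) : ZMod 3) • conjW (r g)
  map_one' := by
    simp only [map_one, Units.val_one, one_smul, conjW_one]; rfl
  map_mul' g h := by
    apply LinearMap.ext; intro A
    simp only [map_mul, Units.val_mul, conjW_mul, LinearMap.smul_apply, LinearMap.comp_apply,
      Module.End.mul_apply, map_smul, smul_smul, mul_comm]

theorem twRep_apply {G : Type*} [Group G] (r : G →* M3ˣ) (χ : G →* (ZMod 3)ˣ) (g : G) (A : W3) :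
    twRep r χ g A = ((χ g : (ZMod 3)ˣ) : ZMod 3) • conjW (r g) A := rfl

/-- **(N2)** If the image of `r` contains `Q₈` and `χ` is trivial on the preimage of `Q₈`, every
cocycle of the twisted adjoint representation vanishing on `ker r` is a coboundary. -/
theorem isCob_of_Q8_le_range {G : Type*} [Group G] (r : G →* M3ˣ) (χ : G →* (ZMod 3)ˣ)
    (hQ : ∀ x : M3ˣ, x ∈ Q8 → ∃ g, r g = x) (hχ : ∀ g, r g ∈ Q8 → χ g = 1)
    (f : G → W3) (hf : IsCoc (twRep r χ) f) (hker : ∀ g, r g = 1 → f g = 0) :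
    IsCob (twRep r χ) f := by
  classical
  -- inflate to the finite quotient `G ⧸ ker r`
  have hχker : r.ker ≤ χ.ker := by
    intro g hg
    rw [MonoidHom.mem_ker] at hg ⊢
    exact hχ g (by rw [hg]; exact Q8.one_mem)
  set rb : G ⧸ r.ker →* M3ˣ := QuotientGroup.kerLift r with hrb
  set χb : G ⧸ r.ker →* (ZMod 3)ˣ := QuotientGroup.lift r.ker χ hχker with hχb
  have hrbinj : Function.Injective rb := QuotientGroup.kerLift_injective r
  have : Finite (G ⧸ r.ker) := Finite.of_injective rb hrbinj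
  refine isCob_of_surjective (QuotientGroup.mk' r.ker) (QuotientGroup.mk'_surjective _)
    (twRep rb χb) (twRep r χ) ?_ f hf ?_ ?_
  · intro g
    apply LinearMap.ext; intro A
    rw [twRep_apply, twRep_apply]
    rfl
  · intro g hg
    apply hker
    have : g ∈ r.ker := by
      rwa [QuotientGroup.mk'_apply, QuotientGroup.eq_one_iff] at hg
    exact this
  · intro fb hfb
    set N : Subgroup (G ⧸ r.ker) := Q8.comap rb with hN
    have : N.Normal := Q8_normal.comap rb
    have hpow : ∀ n : N, n ^ 4 = 1 := by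
      intro n
      apply Subtype.ext
      apply hrbinj
      have hn : rb n.1 ∈ Q8 := n.2
      rw [Subgroup.coe_pow, map_pow, pow_four_of_mem_Q8 hn, Subgroup.coe_one, map_one]
    have hcard : ((Nat.card N : ℕ) : ZMod 3) ≠ 0 := by
      intro h0
      rw [ZMod.natCast_eq_zero_iff] at h0
      have : Fact (Nat.Prime 3) := ⟨by norm_num⟩
      obtain ⟨x, hx⟩ := exists_prime_orderOf_dvd_card' 3 h0
      have := orderOf_dvd_of_pow_eq_one (hpow x)
      rw [hx] at this
      omega
    refine isCob_of_normal (twRep rb χb) N hcard ?_ fb hfb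
    intro w hw
    -- `w` commutes with every element of `Q₈`
    have hcomm : ∀ x : M3ˣ, x ∈ Q8 → (x : M3) * w.1 = w.1 * (x : M3) := by
      intro x hx
      obtain ⟨g, hg⟩ := hQ x hx
      have hmem : (QuotientGroup.mk' r.ker g) ∈ N := by
        show rb (QuotientGroup.mk' r.ker g) ∈ Q8
        rw [hrb, QuotientGroup.mk'_apply, QuotientGroup.kerLift_mk, hg]; exact hx
      have h1 := hw _ hmem
      rw [twRep_apply] at h1
      have hχ1 : χb (QuotientGroup.mk' r.ker g) = 1 := by
        rw [hχb, QuotientGroup.mk'_apply, QuotientGroup.lift_mk]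
        exact hχ g (by rw [hg]; exact hx)
      have hrg : rb (QuotientGroup.mk' r.ker g) = x := by
        rw [hrb, QuotientGroup.mk'_apply, QuotientGroup.kerLift_mk, hg]
      rw [hχ1, hrg, Units.val_one, one_smul] at h1
      have h2 := congrArg Subtype.val h1
      rw [conjW_coe] at h2
      calc (x : M3) * w.1 = (x : M3) * w.1 * ((x⁻¹ : M3ˣ) : M3) * (x : M3) := by
            rw [mul_assoc _ _ (x : M3), Units.inv_mul, mul_one]
        _ = w.1 * (x : M3) := by rw [h2]
    -- units with the two generators as values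
    have hiu : IsUnit qi := by
      rw [Matrix.isUnit_iff_isUnit_det, inQ_qi.1]; exact isUnit_one
    have hju : IsUnit qj := by
      rw [Matrix.isUnit_iff_isUnit_det, inQ_qj.1]; exact isUnit_one
    obtain ⟨ui, hui⟩ := hiu
    obtain ⟨uj, huj⟩ := hju
    have hi := hcomm ui (by rw [mem_Q8, hui]; exact inQ_qi)
    have hj := hcomm uj (by rw [mem_Q8, huj]; exact inQ_qj)
    rw [hui] at hi
    rw [huj] at hj
    apply Subtype.ext
    exact eq_zero_of_commute (mem_W3.mp w.2) hi hj

end Fermat.Agent.TW.GRP.QuaternionKill0
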