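/-
Programme T (S56), chapter T/GRP, Phase 2 brick G12 (lead): **`H¹(ρ(G), ad⁰ρ ⊗ c) = 0` when `#k = 3`
and the image of `ρ` contains the quaternion group** (e.g. `ρ` onto `GL₂(𝔽₃)` or `SL₂(𝔽₃)`), in
helper3's vocabulary (`Coc3.IsCoc/IsCob`, `AdZero3.adSl`).

* `isCob_adSl_of_card_three` : `#k = 3`, every trace-zero matrix of determinant one is a value of
  `ρ`, `c` trivial where `det ρ = 1`; then every cocycle of `adSl ρ c` vanishing on `ker ρ` is a
  coboundary.
* `isCob_adSl_of_surjective` : the case `ρ` onto `GL₂(k)` with `c = det ∘ ρ`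
  (this is the case `ρ̄ = E[3]` of `MatrixH1Vanishing`).

Proof: transport along `k ≃+* ZMod 3` to `QuaternionKill0.isCob_of_Q8_le_range`.
-/
import Mathlib
import Fermat.Agent.TW.GRP.QuaternionKill0
import Fermat.Agent.TW.GRP.AdZero3
import Fermat.Agent.TW.GRP.Coc3

set_option autoImplicit false

namespace Fermat.Agent.TW.GRP.S4Case0

open Matrix
open Fermat.Agent.TW.GRP.Mat2x3 Fermat.Agent.TW.GRP.Irred3 Fermat.Agent.TW.GRP.AdZero3
open Fermat.Agent.TW.GRP.QuaternionKill0

variable {k : Type*} [Field k] {G : Type*} [Group G]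

section transport

variable (e : k ≃+* ZMod 3)

theorem mapMatrix_trace (A : M2 k) : (e.mapMatrix A).trace = e A.trace := by
  rw [RingEquiv.mapMatrix_apply]
  exact (AddMonoidHom.map_trace e A).symm

theorem mapMatrix_det (A : M2 k) : (e.mapMatrix A).det = e A.det :=
  (RingEquiv.map_det e A).symm

theorem mapMatrix_smul (x : k) (A : M2 k) : e.mapMatrix (x • A) = e x • e.mapMatrix A := by
  rw [RingEquiv.mapMatrix_apply, RingEquiv.mapMatrix_apply]
  ext i j
  simp

/-- The transported representation into `GL₂(𝔽₃)`. -/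
def rT (ρ : G →* M2 k) : G →* M3ˣ :=
  (Units.map (e.mapMatrix : M2 k ≃+* M3).toMonoidHom).comp ρ.toHomUnits

theorem rT_coe (ρ : G →* M2 k) (g : G) : ((rT e ρ g : M3ˣ) : M3) = e.mapMatrix (ρ g) := rfl

theorem rT_inv_coe (ρ : G →* M2 k) (g : G) :
    (((rT e ρ g)⁻¹ : M3ˣ) : M3) = e.mapMatrix (ρ g⁻¹) := by
  rw [← map_inv, rT_coe]

/-- The transported character. -/
def χT (c : G →* kˣ) : G →* (ZMod 3)ˣ := (Units.map (e : k ≃+* ZMod 3).toMonoidHom).comp c

theorem χT_coe (c : G →* kˣ) (g : G) : ((χT e c g : (ZMod 3)ˣ) : ZMod 3) = e (c g) := rfl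

/-- Transport of trace-zero matrices. -/
def wT (A : slM k) : W3 := ⟨e.mapMatrix A.1, by
  rw [mem_W3, mapMatrix_trace, mem_slM.mp A.2, map_zero]⟩

theorem wT_coe (A : slM k) : ((wT e A : W3) : M3) = e.mapMatrix A.1 := rfl

/-- Inverse transport. -/
def wTinv (A : W3) : slM k := ⟨e.mapMatrix.symm A.1, by
  have h := mem_W3.mp A.2
  rw [mem_slM]
  have h2 := mapMatrix_trace e (e.mapMatrix.symm A.1)
  rw [RingEquiv.apply_symm_apply, h] at h2
  exact (map_eq_zero_iff e e.injective).mp h2.symm⟩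

theorem wT_wTinv (A : W3) : wT e (wTinv e A) = A := by
  apply Subtype.ext
  rw [wT_coe]
  exact RingEquiv.apply_symm_apply _ _

theorem wT_injective : Function.Injective (wT (k := k) e) := by
  intro A B h
  apply Subtype.ext
  have := congrArg Subtype.val h
  rw [wT_coe, wT_coe] at this
  exact e.mapMatrix.injective this

/-- The transport intertwines the two twisted adjoint actions. -/
theorem wT_adSl (ρ : G →* M2 k) (c : G →* kˣ) (g : G) (A : slM k) :
    wT e (adSl ρ c g A) = twRep (rT e ρ) (χT e c) g (wT e A) := by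
  apply Subtype.ext
  rw [wT_coe, adSl_apply_coe, twRep_apply, Submodule.coe_smul, conjW_coe, rT_coe, rT_inv_coe,
    χT_coe, wT_coe, mapMatrix_smul, map_mul, map_mul]

theorem wT_add (A B : slM k) : wT e (A + B) = wT e A + wT e B := by
  apply Subtype.ext
  rw [wT_coe, Submodule.coe_add, Submodule.coe_add, wT_coe, wT_coe, map_add]

theorem wT_sub (A B : slM k) : wT e (A - B) = wT e A - wT e B := by
  apply Subtype.ext
  rw [wT_coe]
  simp only [AddSubgroupClass.coe_sub, wT_coe, map_sub]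

theorem wT_zero : wT e (0 : slM k) = 0 := by
  apply Subtype.ext
  rw [wT_coe]
  simp

end transport

/-- **(G12)** `#k = 3`, the image of `ρ` contains the trace-zero matrices of determinant one, and
`c` is trivial where `det ρ = 1`: cocycles of `ad⁰ρ ⊗ c` vanishing on `ker ρ` are coboundaries. -/
theorem isCob_adSl_of_card_three [Fintype k] (hk : Fintype.card k = 3)
    (ρ : G →* M2 k) (c : G →* kˣ)
    (hQ : ∀ x : M2 k, x.det = 1 → x.trace = 0 → ∃ g, ρ g = x)
    (hc : ∀ g, (ρ g).det = 1 → c g = 1)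
    (f : G → slM k) (hf : Coc3.IsCoc (adSl ρ c) f) (hker : ∀ g, ρ g = 1 → f g = 0) :
    Coc3.IsCob (adSl ρ c) f := by
  classical
  set e : k ≃+* ZMod 3 := (ZMod.ringEquivOfPrime k (by norm_num : Nat.Prime 3) hk).symm with he
  have hρ_of : ∀ (x : M3), x.det = 1 → x.trace = 0 → ∃ g, (rT e ρ g : M3) = x := by
    intro x hd ht
    have h1 : (e.mapMatrix.symm x).det = 1 := by
      have h := mapMatrix_det e (e.mapMatrix.symm x)
      rw [RingEquiv.apply_symm_apply, hd] at h
      apply e.injective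
      rw [← h, map_one]
    have h2 : (e.mapMatrix.symm x).trace = 0 := by
      have h := mapMatrix_trace e (e.mapMatrix.symm x)
      rw [RingEquiv.apply_symm_apply, ht] at h
      apply e.injective
      rw [← h, map_zero]
    obtain ⟨g, hg⟩ := hQ (e.mapMatrix.symm x) h1 h2
    exact ⟨g, by rw [rT_coe, hg, RingEquiv.apply_symm_apply]⟩
  have hQ' : ∀ x : M3ˣ, x ∈ Q8 → ∃ g, rT e ρ g = x := by
    intro x hx
    obtain ⟨hd, ht | h1 | hm1⟩ := mem_Q8.mp hx
    · obtain ⟨g, hg⟩ := hρ_of x.1 hd ht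
      exact ⟨g, Units.ext hg⟩
    · exact ⟨1, by rw [map_one]; exact Units.ext h1.symm⟩
    · obtain ⟨g, hg⟩ := hρ_of qi qi_det qi_trace
      refine ⟨g * g, Units.ext ?_⟩
      rw [map_mul, Units.val_mul, hg, hm1]
      exact sq_of_trace_zero qi_det qi_trace
  have hχ' : ∀ g, rT e ρ g ∈ Q8 → χT e c g = 1 := by
    intro g hg
    have hd : ((rT e ρ g : M3ˣ) : M3).det = 1 := (mem_Q8.mp hg).1
    rw [rT_coe, mapMatrix_det] at hd
    have hd' : (ρ g).det = 1 := e.injective (by rw [hd, map_one])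
    apply Units.ext
    rw [χT_coe, hc g hd', Units.val_one, map_one, Units.val_one]
  have hf' : NormalKill0.IsCoc (twRep (rT e ρ) (χT e c)) (fun g => wT e (f g)) := by
    intro g h
    show wT e (f (g * h)) = wT e (f g) + twRep (rT e ρ) (χT e c) g (wT e (f h))
    rw [hf g h, wT_add, wT_adSl]
  have hker' : ∀ g, rT e ρ g = 1 → (fun g => wT e (f g)) g = 0 := by
    intro g hg
    have h1 : e.mapMatrix (ρ g) = 1 := by
      have := congrArg Units.val hg
      rwa [rT_coe, Units.val_one] at this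
    have h2 : ρ g = 1 := e.mapMatrix.injective (by rw [h1, map_one])
    show wT e (f g) = 0
    rw [hker g h2, wT_zero]
  obtain ⟨w', hw'⟩ := isCob_of_Q8_le_range (rT e ρ) (χT e c) hQ' hχ' _ hf' hker'
  refine ⟨wTinv e w', fun g => ?_⟩
  apply wT_injective e
  rw [wT_sub, wT_adSl, wT_wTinv]
  exact hw' g

/-- **(G12, the case `ρ̄ = E[3]`)** `ρ` onto `GL₂(k)`, `#k = 3`, `c = det ∘ ρ`. -/
theorem isCob_adSl_of_surjective [Fintype k] (hk : Fintype.card k = 3)
    (ρ : G →* M2 k) (c : G →* kˣ)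
    (hsurj : ∀ x : M2 k, x.det ≠ 0 → ∃ g, ρ g = x)
    (hc : ∀ g, (c g : k) = (ρ g).det)
    (f : G → slM k) (hf : Coc3.IsCoc (adSl ρ c) f) (hker : ∀ g, ρ g = 1 → f g = 0) :
    Coc3.IsCob (adSl ρ c) f :=
  isCob_adSl_of_card_three hk ρ c
    (fun x hd _ => hsurj x (by rw [hd]; exact one_ne_zero))
    (fun g hg => Units.ext (by rw [hc g, hg, Units.val_one])) f hf hker

end Fermat.Agent.TW.GRP.S4Case0
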